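import Mathlib

/-! S14 package N, part N1: prime ideal sums versus `log ζ_F`.

For a number field `F` and real `s ∈ (1, 2]`, the sum `∑_w N(w)^(-s)` over the nonzero prime ideals
of `𝓞 F` differs from `log (1 / (s - 1))` by a bounded amount; primes with non-prime norm contribute
a bounded amount. -/

set_option autoImplicit false

open scoped NumberField nonZeroDivisors
open IsDedekindDomain Filter Topology

namespace Fermat.Agent.S14.Analytic.PrimeSums

variable (F : Type*) [Field F] [NumberField F]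

/-- The term `N(I)^(-s)` of the Dedekind zeta function, as a function on all ideals
(it vanishes at the zero ideal for `s ≠ 0`). -/
noncomputable def term (s : ℝ) (I : Ideal (𝓞 F)) : ℝ := ((Ideal.absNorm I : ℕ) : ℝ) ^ (-s)

lemma term_nonneg (s : ℝ) (I : Ideal (𝓞 F)) : 0 ≤ term F s I :=
  Real.rpow_nonneg (Nat.cast_nonneg _) _

lemma term_bot {s : ℝ} (hs : s ≠ 0) : term F s ⊥ = 0 := by
  simp [term, Real.zero_rpow (neg_ne_zero.mpr hs)]

lemma term_top (s : ℝ) : term F s ⊤ = 1 := by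
  simp [term]

lemma term_mul (s : ℝ) (I J : Ideal (𝓞 F)) : term F s (I * J) = term F s I * term F s J := by
  simp [term, map_mul, Nat.cast_mul, Real.mul_rpow (Nat.cast_nonneg _) (Nat.cast_nonneg _)]

lemma two_le_absNorm (w : HeightOneSpectrum (𝓞 F)) : 2 ≤ Ideal.absNorm w.asIdeal := by
  have h0 : Ideal.absNorm w.asIdeal ≠ 0 := by
    rw [Ne, Ideal.absNorm_eq_zero_iff]
    exact w.ne_bot
  have h1 : Ideal.absNorm w.asIdeal ≠ 1 := by
    rw [Ne, Ideal.absNorm_eq_one_iff]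
    exact w.isPrime.ne_top
  omega

/-- The number of ideals of norm `n`. -/
noncomputable def cnt (n : ℕ) : ℕ := Nat.card {I : Ideal (𝓞 F) // Ideal.absNorm I = n}

lemma tendsto_cnt : Tendsto (fun n : ℕ => (∑ k ∈ Finset.Icc 1 n, (cnt F k : ℝ)) / (n : ℝ)) atTop
    (𝓝 (NumberField.dedekindZeta_residue F)) := by
  refine ((NumberField.Ideal.tendsto_norm_le_div_atTop₀ F).comp tendsto_natCast_atTop_atTop).congr fun n ↦ ?_
  simp only [Function.comp_apply, Nat.cast_le, ← Nat.cast_sum, cnt]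
  congr
  rw [← add_left_inj 1, ← Ideal.card_norm_le_eq_card_norm_le_add_one,
    show Finset.Icc 1 n = Finset.Ioc 0 n from Finset.Icc_succ_left_eq_Ioc _ _,
    show 1 = Nat.card {I : Ideal (𝓞 F) // Ideal.absNorm I = 0} by simp [Ideal.absNorm_eq_zero_iff],
    Finset.sum_Ioc_add_eq_sum_Icc (n.zero_le),
    ← Finset.card_preimage_eq_sum_card_image_eq (fun k _ ↦ Ideal.finite_setOfPred_absNorm_eq k)]
  simp [Set.coe_eq_subtype]

lemma lseriesSummable_cnt {s : ℝ} (hs : 1 < s) :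
    LSeriesSummable (fun n => (cnt F n : ℂ)) (s : ℂ) := by
  have h := LSeriesSummable_of_sum_norm_bigO_and_nonneg (f := fun n => (cnt F n : ℝ)) (r := 1)
    (s := (s : ℂ)) ?_ (fun n => Nat.cast_nonneg _) zero_le_one (by simpa using hs)
  · simpa using h
  · exact Asymptotics.isBigO_atTop_natCast_rpow_of_tendsto_div_rpow (by simpa using tendsto_cnt F)

lemma summable_cnt_mul {s : ℝ} (hs : 1 < s) :
    Summable (fun n : ℕ => (cnt F n : ℝ) * (n : ℝ) ^ (-s)) := by
  have h := (lseriesSummable_cnt F hs).norm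
  refine h.congr fun n => ?_
  rw [LSeries.norm_term_eq]
  split_ifs with hn
  · simp [hn, Real.zero_rpow (neg_ne_zero.mpr (by linarith : s ≠ 0))]
  · simp [Real.rpow_neg, div_eq_mul_inv]

instance finite_fiber (n : ℕ) : Finite {I : Ideal (𝓞 F) // Ideal.absNorm I = n} :=
  (Ideal.finite_setOfPred_absNorm_eq n).to_subtype

lemma tsum_fiber (s : ℝ) (n : ℕ) :
    ∑' I : {I : Ideal (𝓞 F) // Ideal.absNorm I = n}, term F s (I : Ideal (𝓞 F)) =
      (cnt F n : ℝ) * (n : ℝ) ^ (-s) := by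
  have h : ∀ I : {I : Ideal (𝓞 F) // Ideal.absNorm I = n}, term F s (I : Ideal (𝓞 F)) =
      (n : ℝ) ^ (-s) := fun I => by rw [term, I.2]
  rw [tsum_congr h, tsum_const, cnt, nsmul_eq_mul]

lemma summable_sigma_term {s : ℝ} (hs : 1 < s) :
    Summable (fun x : Σ n : ℕ, {I : Ideal (𝓞 F) // Ideal.absNorm I = n} =>
      term F s (x.2 : Ideal (𝓞 F))) := by
  rw [summable_sigma_of_nonneg (fun x => term_nonneg F s _)]
  exact ⟨fun n => Summable.of_finite, (summable_cnt_mul F hs).congr fun n => (tsum_fiber F s n).symm⟩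

/-- The sum over ideals converges for `s > 1`. -/
lemma summable_term {s : ℝ} (hs : 1 < s) : Summable (term F s) :=
  (Equiv.sigmaFiberEquiv (fun I : Ideal (𝓞 F) => Ideal.absNorm I)).summable_iff.mp
    (summable_sigma_term F hs)

/-- The sum over ideals is the Dedekind zeta function. -/
lemma ofReal_tsum_term {s : ℝ} (hs : 1 < s) :
    ((∑' I, term F s I : ℝ) : ℂ) = NumberField.dedekindZeta F (s : ℂ) := by
  have h1 : ∑' I, term F s I = ∑' n : ℕ, (cnt F n : ℝ) * (n : ℝ) ^ (-s) := by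
    have e1 : ∑' I, term F s I =
        ∑' x : Σ n : ℕ, {I : Ideal (𝓞 F) // Ideal.absNorm I = n}, term F s (x.2 : Ideal (𝓞 F)) :=
      ((Equiv.sigmaFiberEquiv (fun I : Ideal (𝓞 F) => Ideal.absNorm I)).tsum_eq (term F s)).symm
    rw [e1, Summable.tsum_sigma' (fun n => Summable.of_finite) (summable_sigma_term F hs)]
    exact tsum_congr fun n => tsum_fiber F s n
  rw [h1, Complex.ofReal_tsum, NumberField.dedekindZeta, LSeries]
  refine tsum_congr fun n => ?_
  rcases Nat.eq_zero_or_pos n with rfl | hn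
  · simp [Real.zero_rpow (neg_ne_zero.mpr (by linarith : s ≠ 0))]
  · rw [LSeries.term_of_ne_zero hn.ne']
    push_cast
    rw [Real.rpow_neg (Nat.cast_nonneg _), Complex.ofReal_inv,
      Complex.ofReal_cpow (Nat.cast_nonneg _), div_eq_mul_inv]
    simp [cnt]

/-- The Dedekind zeta function at real `s > 1`, as a sum over ideals. -/
noncomputable def Z (s : ℝ) : ℝ := ∑' I, term F s I

lemma one_le_Z {s : ℝ} (hs : 1 < s) : 1 ≤ Z F s := by
  have h := (summable_term F hs).le_tsum ⊤ (fun I _ => term_nonneg F s I)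
  rwa [term_top] at h

lemma term_antitone {s t : ℝ} (hs : 0 < s) (hst : s ≤ t) (I : Ideal (𝓞 F)) :
    term F t I ≤ term F s I := by
  unfold term
  rcases Nat.eq_zero_or_pos (Ideal.absNorm I) with h | h
  · rw [h, Nat.cast_zero, Real.zero_rpow (neg_ne_zero.mpr hs.ne'),
      Real.zero_rpow (neg_ne_zero.mpr (hs.trans_le hst).ne')]
  · exact Real.rpow_le_rpow_of_exponent_le (by exact_mod_cast h) (by linarith)

lemma Z_antitone {s t : ℝ} (hs : 1 < s) (hst : s ≤ t) : Z F t ≤ Z F s :=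
  (summable_term F (hs.trans_le hst)).tsum_le_tsum
    (fun I => term_antitone F (zero_lt_one.trans hs) hst I) (summable_term F hs)

lemma tendsto_Z : Tendsto (fun s : ℝ => (s - 1) * Z F s) (𝓝[>] 1)
    (𝓝 (NumberField.dedekindZeta_residue F)) := by
  have h := NumberField.tendsto_sub_one_mul_dedekindZeta_nhdsGT F
  rw [← Filter.tendsto_ofReal_iff]
  refine h.congr' ?_
  filter_upwards [self_mem_nhdsWithin] with s hs
  rw [← ofReal_tsum_term F hs, Complex.ofReal_mul, Complex.ofReal_sub, Complex.ofReal_one]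
  rfl

/-- `(s - 1) ζ_F(s)` is bounded above and below by positive constants on `(1, 2]`. -/
theorem sub_one_mul_Z_bound : ∃ m M : ℝ, 0 < m ∧ ∀ s : ℝ, 1 < s → s ≤ 2 →
    m ≤ (s - 1) * Z F s ∧ (s - 1) * Z F s ≤ M := by
  have hρ := NumberField.dedekindZeta_residue_pos F
  set ρ := NumberField.dedekindZeta_residue F with hρdef
  have hev : ∀ᶠ s in 𝓝[>] (1 : ℝ), (s - 1) * Z F s ∈ Set.Ioo (ρ / 2) (2 * ρ) :=
    (tendsto_Z F).eventually (Ioo_mem_nhds (by linarith) (by linarith))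
  obtain ⟨u, hu, hsub⟩ := mem_nhdsGT_iff_exists_Ioo_subset.mp hev
  have hu1 : (1 : ℝ) < u := hu
  set u' : ℝ := min u 2 with hu'
  have hu'1 : 1 < u' := lt_min hu1 (by norm_num)
  have hu'2 : u' ≤ 2 := min_le_right _ _
  refine ⟨min (ρ / 2) (u' - 1), max (2 * ρ) (Z F u'), lt_min (by linarith) (by linarith),
    fun s hs1 hs2 => ?_⟩
  rcases lt_or_ge s u' with hlt | hge
  · have hmem : s ∈ Set.Ioo 1 u := ⟨hs1, hlt.trans_le (min_le_left _ _)⟩
    have h := hsub hmem
    exact ⟨(min_le_left _ _).trans h.1.le, h.2.le.trans (le_max_left _ _)⟩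
  · have hZ1 := one_le_Z F hs1
    have hZ2 := Z_antitone F hu'1 hge
    constructor
    · calc min (ρ / 2) (u' - 1) ≤ u' - 1 := min_le_right _ _
        _ ≤ (s - 1) * 1 := by linarith
        _ ≤ (s - 1) * Z F s := by
          exact mul_le_mul_of_nonneg_left hZ1 (by linarith)
    · calc (s - 1) * Z F s ≤ 1 * Z F s := by
            exact mul_le_mul_of_nonneg_right (by linarith) (by linarith)
        _ ≤ Z F u' := by linarith
        _ ≤ max (2 * ρ) (Z F u') := le_max_right _ _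

/-- `log ζ_F(s) = log (1/(s-1)) + O(1)` on `(1, 2]`. -/
theorem log_Z_bound : ∃ C : ℝ, ∀ s : ℝ, 1 < s → s ≤ 2 →
    |Real.log (Z F s) - Real.log (1 / (s - 1))| ≤ C := by
  obtain ⟨m, M, hmpos, hbound⟩ := sub_one_mul_Z_bound F
  refine ⟨max |Real.log m| |Real.log M|, fun s hs1 hs2 => ?_⟩
  obtain ⟨h1, h2⟩ := hbound s hs1 hs2
  have hZpos : 0 < Z F s := lt_of_lt_of_le zero_lt_one (one_le_Z F hs1)
  have hs0 : 0 < s - 1 := by linarith
  have hlog : Real.log (Z F s) - Real.log (1 / (s - 1)) = Real.log ((s - 1) * Z F s) := by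
    rw [Real.log_mul hs0.ne' hZpos.ne', one_div, Real.log_inv]
    ring
  rw [hlog]
  exact abs_le_max_abs_abs (Real.log_le_log hmpos h1)
    (Real.log_le_log (lt_of_lt_of_le hmpos h1) h2)

/-- The sum over the nonzero ideals converges for `s > 1`. -/
lemma summable_nonzero {s : ℝ} (hs : 1 < s) :
    Summable (fun I : (Ideal (𝓞 F))⁰ => ((Ideal.absNorm (I : Ideal (𝓞 F)) : ℕ) : ℝ) ^ (-s)) :=
  (summable_term F hs).subtype ((Ideal (𝓞 F))⁰ : Set (Ideal (𝓞 F)))

/-- The sum over the nonzero ideals is `Z`. -/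
lemma tsum_nonzero {s : ℝ} (hs : 1 < s) :
    ∑' I : (Ideal (𝓞 F))⁰, ((Ideal.absNorm (I : Ideal (𝓞 F)) : ℕ) : ℝ) ^ (-s) = Z F s := by
  have h := tsum_subtype ((Ideal (𝓞 F))⁰ : Set (Ideal (𝓞 F))) (term F s)
  have h2 : ((Ideal (𝓞 F))⁰ : Set (Ideal (𝓞 F))).indicator (term F s) = term F s := by
    funext I
    by_cases hI : I ∈ ((Ideal (𝓞 F))⁰ : Set (Ideal (𝓞 F)))
    · exact Set.indicator_of_mem hI _
    · rw [Set.indicator_of_notMem hI]
      have hI0 : I = ⊥ := by
        by_contra hne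
        exact hI (mem_nonZeroDivisors_of_ne_zero hne)
      rw [hI0, term_bot F (by linarith : s ≠ 0)]
  rw [h2] at h
  exact h

/-! ### The sieve identity -/

/-- Ideals not divisible by any prime in `T`. -/
def cop (T : Finset (HeightOneSpectrum (𝓞 F))) : Set (Ideal (𝓞 F)) :=
  {I | ∀ w ∈ T, ¬ w.asIdeal ∣ I}

/-- The zeta sum over the ideals prime to `T`. -/
noncomputable def ZT (T : Finset (HeightOneSpectrum (𝓞 F))) (s : ℝ) : ℝ :=
  ∑' I, (cop F T).indicator (term F s) I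

lemma ZT_empty (s : ℝ) : ZT F ∅ s = Z F s := by
  have h : cop F ∅ = Set.univ := by
    ext I
    simp [cop]
  simp [ZT, Z, h]

lemma dvd_mul_iff_of_ne {v w : HeightOneSpectrum (𝓞 F)} (hvw : v ≠ w) (I : Ideal (𝓞 F)) :
    v.asIdeal ∣ w.asIdeal * I ↔ v.asIdeal ∣ I := by
  constructor
  · intro h
    rcases v.prime.dvd_or_dvd h with h1 | h1
    · exfalso
      apply hvw
      have hle : w.asIdeal ≤ v.asIdeal := Ideal.dvd_iff_le.mp h1
      exact (HeightOneSpectrum.ext (w.isMaximal.eq_of_le v.isPrime.ne_top hle)).symm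
    · exact h1
  · exact fun h => dvd_mul_of_dvd_right h _

lemma ZT_insert [DecidableEq (HeightOneSpectrum (𝓞 F))] {T : Finset (HeightOneSpectrum (𝓞 F))}
    {w : HeightOneSpectrum (𝓞 F)} (hw : w ∉ T) {s : ℝ} (hs : 1 < s) :
    ZT F (insert w T) s = (1 - term F s w.asIdeal) * ZT F T s := by
  have hsum := summable_term F hs
  set g : Ideal (𝓞 F) → ℝ := (cop F T ∩ {I | w.asIdeal ∣ I}).indicator (term F s) with hg
  have hsplit : ∀ I, (cop F T).indicator (term F s) I =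
      (cop F (insert w T)).indicator (term F s) I + g I := by
    intro I
    by_cases h1 : I ∈ cop F T
    · by_cases h2 : w.asIdeal ∣ I
      · have h3 : I ∉ cop F (insert w T) := fun h => h w (Finset.mem_insert_self w T) h2
        have h4 : I ∈ cop F T ∩ {I | w.asIdeal ∣ I} := ⟨h1, h2⟩
        rw [hg, Set.indicator_of_mem h1, Set.indicator_of_notMem h3, Set.indicator_of_mem h4,
          zero_add]
      · have h3 : I ∈ cop F (insert w T) := by
          intro v hv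
          rcases Finset.mem_insert.mp hv with rfl | hv
          · exact h2
          · exact h1 v hv
        have h4 : I ∉ cop F T ∩ {I | w.asIdeal ∣ I} := fun h => h2 h.2
        rw [hg, Set.indicator_of_mem h1, Set.indicator_of_mem h3, Set.indicator_of_notMem h4,
          add_zero]
    · have h3 : I ∉ cop F (insert w T) := fun h =>
        h1 fun v hv => h v (Finset.mem_insert_of_mem hv)
      have h4 : I ∉ cop F T ∩ {I | w.asIdeal ∣ I} := fun h => h1 h.1
      rw [hg, Set.indicator_of_notMem h1, Set.indicator_of_notMem h3, Set.indicator_of_notMem h4,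
        add_zero]
  have hgsum : Summable g := hsum.indicator _
  have h1 : ZT F T s = ZT F (insert w T) s + ∑' I, g I := by
    unfold ZT
    rw [← (hsum.indicator _).tsum_add hgsum]
    exact tsum_congr hsplit
  have h2 : ∑' I, g I = term F s w.asIdeal * ZT F T s := by
    have hinj : Function.Injective (fun I : Ideal (𝓞 F) => w.asIdeal * I) :=
      mul_right_injective₀ w.ne_bot
    have hsupp : Function.support g ⊆ Set.range (fun I : Ideal (𝓞 F) => w.asIdeal * I) := by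
      intro J hJ
      have hJ' : J ∈ cop F T ∩ {I | w.asIdeal ∣ I} := by
        by_contra h
        exact hJ (Set.indicator_of_notMem h _)
      obtain ⟨I', rfl⟩ := hJ'.2
      exact ⟨I', rfl⟩
    rw [← hinj.tsum_eq hsupp, ZT, ← tsum_mul_left]
    refine tsum_congr fun I' => ?_
    have hne : ∀ v ∈ T, v ≠ w := fun v hv h => hw (h ▸ hv)
    by_cases h : I' ∈ cop F T
    · have h' : w.asIdeal * I' ∈ cop F T ∩ {I | w.asIdeal ∣ I} :=
        ⟨fun v hv hdiv => h v hv ((dvd_mul_iff_of_ne F (hne v hv) I').mp hdiv), dvd_mul_right _ _⟩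
      rw [hg, Set.indicator_of_mem h', Set.indicator_of_mem h, term_mul]
    · have h' : w.asIdeal * I' ∉ cop F T ∩ {I | w.asIdeal ∣ I} := fun hh =>
        h fun v hv hdiv => hh.1 v hv ((dvd_mul_iff_of_ne F (hne v hv) I').mpr hdiv)
      rw [hg, Set.indicator_of_notMem h', Set.indicator_of_notMem h, mul_zero]
  rw [h2] at h1
  linarith

/-- **Sieve identity**: removing the multiples of the primes in `T` multiplies the zeta sum by
`∏_{w ∈ T} (1 - N(w)^(-s))`. -/
lemma ZT_eq (T : Finset (HeightOneSpectrum (𝓞 F))) {s : ℝ} (hs : 1 < s) :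
    ZT F T s = (∏ w ∈ T, (1 - term F s w.asIdeal)) * Z F s := by
  classical
  induction T using Finset.induction_on with
  | empty => simp [ZT_empty]
  | insert w T hw ih => rw [ZT_insert F hw hs, ih, Finset.prod_insert hw, mul_assoc]

lemma top_mem_cop (T : Finset (HeightOneSpectrum (𝓞 F))) : (⊤ : Ideal (𝓞 F)) ∈ cop F T := by
  intro w _ hdiv
  exact w.isPrime.ne_top (top_le_iff.mp (Ideal.dvd_iff_le.mp hdiv))

lemma one_le_ZT (T : Finset (HeightOneSpectrum (𝓞 F))) {s : ℝ} (hs : 1 < s) : 1 ≤ ZT F T s := by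
  have h := ((summable_term F hs).indicator (cop F T)).le_tsum ⊤
    (fun I _ => Set.indicator_nonneg (fun I _ => term_nonneg F s I) I)
  rwa [Set.indicator_of_mem (top_mem_cop F T), term_top] at h

/-! ### Prime sums -/

lemma pterm_pos (w : HeightOneSpectrum (𝓞 F)) (s : ℝ) : 0 < term F s w.asIdeal := by
  have h2 := two_le_absNorm F w
  exact Real.rpow_pos_of_pos (by exact_mod_cast (by omega : 0 < Ideal.absNorm w.asIdeal)) _

lemma pterm_le_half (w : HeightOneSpectrum (𝓞 F)) {s : ℝ} (hs : 1 ≤ s) :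
    term F s w.asIdeal ≤ 1 / 2 := by
  have h2 : (2 : ℝ) ≤ (Ideal.absNorm w.asIdeal : ℝ) := by exact_mod_cast two_le_absNorm F w
  calc term F s w.asIdeal ≤ (2 : ℝ) ^ (-s) :=
        Real.rpow_le_rpow_of_nonpos (by norm_num) h2 (by linarith)
    _ ≤ (2 : ℝ) ^ (-1 : ℝ) := Real.rpow_le_rpow_of_exponent_le (by norm_num) (by linarith)
    _ = 1 / 2 := by rw [Real.rpow_neg_one]; norm_num

/-- Finite prime sums are bounded by `log ζ_F(s)`. -/
lemma sum_pterm_le_log_Z (T : Finset (HeightOneSpectrum (𝓞 F))) {s : ℝ} (hs : 1 < s) :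
    ∑ w ∈ T, term F s w.asIdeal ≤ Real.log (Z F s) := by
  have h1 := one_le_ZT F T hs
  rw [ZT_eq F T hs] at h1
  have hZpos : 0 < Z F s := lt_of_lt_of_le zero_lt_one (one_le_Z F hs)
  have hfac : ∀ w ∈ T, 1 - term F s w.asIdeal ≠ 0 := fun w _ => by
    have := pterm_le_half F w hs.le
    linarith
  have hPpos : 0 < ∏ w ∈ T, (1 - term F s w.asIdeal) :=
    Finset.prod_pos fun w _ => by
      have := pterm_le_half F w hs.le
      linarith
  have h2 : 0 ≤ Real.log ((∏ w ∈ T, (1 - term F s w.asIdeal)) * Z F s) := Real.log_nonneg h1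
  rw [Real.log_mul hPpos.ne' hZpos.ne', Real.log_prod hfac] at h2
  have h3 : ∑ w ∈ T, Real.log (1 - term F s w.asIdeal) ≤ ∑ w ∈ T, (-term F s w.asIdeal) := by
    refine Finset.sum_le_sum fun w _ => ?_
    have h4 := Real.log_le_sub_one_of_pos (x := 1 - term F s w.asIdeal)
      (by have := pterm_le_half F w hs.le; linarith)
    linarith
  rw [Finset.sum_neg_distrib] at h3
  linarith

/-- The prime sum converges for `s > 1`. -/
theorem summable_primes {s : ℝ} (hs : 1 < s) :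
    Summable (fun w : HeightOneSpectrum (𝓞 F) => ((Ideal.absNorm w.asIdeal : ℕ) : ℝ) ^ (-s)) :=
  summable_of_sum_le (fun w => term_nonneg F s w.asIdeal) (fun T => sum_pterm_le_log_Z F T hs)

lemma tsum_pterm_le_log_Z {s : ℝ} (hs : 1 < s) :
    ∑' w : HeightOneSpectrum (𝓞 F), term F s w.asIdeal ≤ Real.log (Z F s) :=
  Real.tsum_le_of_sum_le (fun w => term_nonneg F s w.asIdeal) (fun T => sum_pterm_le_log_Z F T hs)

/-- A finite set of primes `T` such that the ideals prime to `T` contribute at most `2`. -/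
lemma exists_ZT_le_two {s : ℝ} (hs : 1 < s) :
    ∃ T : Finset (HeightOneSpectrum (𝓞 F)), ZT F T s ≤ 2 := by
  classical
  have hsum := summable_term F hs
  have hs0 : s ≠ 0 := by linarith
  -- a finite set of ideals carrying almost all of the sum
  obtain ⟨I₀, hI₀⟩ : ∃ I₀ : Finset (Ideal (𝓞 F)), Z F s - 1 < ∑ I ∈ I₀, term F s I :=
    (hsum.hasSum.eventually (lt_mem_nhds (by unfold Z; linarith))).exists
  -- the primes dividing a nonzero member of `I₀`
  have hfin : (⋃ I ∈ (I₀ : Set (Ideal (𝓞 F))) ∩ {I | I ≠ ⊥},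
      {v : HeightOneSpectrum (𝓞 F) | v.asIdeal ∣ I}).Finite :=
    Set.Finite.biUnion (I₀.finite_toSet.inter_of_left _) fun I hI => Ideal.finite_factors hI.2
  refine ⟨hfin.toFinset, ?_⟩
  -- pointwise bound
  have hpt : ∀ I, (cop F hfin.toFinset).indicator (term F s) I ≤
      ({⊤} : Set (Ideal (𝓞 F))).indicator (fun _ => (1 : ℝ)) I +
        ((I₀ : Set (Ideal (𝓞 F)))ᶜ).indicator (term F s) I := by
    intro I
    have hnn1 : 0 ≤ ({⊤} : Set (Ideal (𝓞 F))).indicator (fun _ => (1 : ℝ)) I :=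
      Set.indicator_nonneg (fun _ _ => zero_le_one) I
    have hnn2 : 0 ≤ ((I₀ : Set (Ideal (𝓞 F)))ᶜ).indicator (term F s) I :=
      Set.indicator_nonneg (fun I _ => term_nonneg F s I) I
    by_cases hmem : I ∈ cop F hfin.toFinset
    · rw [Set.indicator_of_mem hmem]
      by_cases hI0 : I ∈ I₀
      · by_cases hbot : I = ⊥
        · rw [hbot, term_bot F hs0]
          rw [hbot] at hnn1 hnn2
          linarith
        · by_cases htop : I = ⊤
          · rw [htop, term_top, Set.indicator_of_mem (Set.mem_singleton _)]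
            rw [htop] at hnn2
            linarith
          · exfalso
            obtain ⟨M, hM, hIM⟩ := Ideal.exists_le_maximal I htop
            have hMbot : M ≠ ⊥ := fun h => hbot (le_bot_iff.mp (h ▸ hIM))
            let v : HeightOneSpectrum (𝓞 F) := ⟨M, hM.isPrime, hMbot⟩
            have hv : v ∈ hfin.toFinset := by
              rw [Set.Finite.mem_toFinset]
              exact Set.mem_biUnion (x := I) ⟨hI0, hbot⟩ (Ideal.dvd_iff_le.mpr hIM)
            exact hmem v hv (Ideal.dvd_iff_le.mpr hIM)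
      · rw [Set.indicator_of_mem (show I ∈ ((I₀ : Set (Ideal (𝓞 F)))ᶜ) from hI0)]
        linarith
    · rw [Set.indicator_of_notMem hmem]
      linarith
  have hs1 : Summable (({⊤} : Set (Ideal (𝓞 F))).indicator (fun _ => (1 : ℝ))) :=
    summable_of_ne_finset_zero (s := {⊤})
      (fun I hI => Set.indicator_of_notMem (by simpa using hI) _)
  have hs2 : Summable (((I₀ : Set (Ideal (𝓞 F)))ᶜ).indicator (term F s)) := hsum.indicator _
  have ht1 : ∑' I, ({⊤} : Set (Ideal (𝓞 F))).indicator (fun _ => (1 : ℝ)) I = 1 := by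
    rw [tsum_eq_single ⊤ (fun I hI => Set.indicator_of_notMem (by simpa using hI) _)]
    exact Set.indicator_of_mem (Set.mem_singleton _) _
  have ht2 : ∑' I, ((I₀ : Set (Ideal (𝓞 F)))ᶜ).indicator (term F s) I =
      Z F s - ∑ I ∈ I₀, term F s I := by
    rw [← tsum_subtype, eq_sub_iff_add_eq', hsum.sum_add_tsum_compl]
    rfl
  calc ZT F hfin.toFinset s
      ≤ ∑' I, (({⊤} : Set (Ideal (𝓞 F))).indicator (fun _ => (1 : ℝ)) I +
          ((I₀ : Set (Ideal (𝓞 F)))ᶜ).indicator (term F s) I) :=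
        (hsum.indicator _).tsum_le_tsum hpt (hs1.add hs2)
    _ = 1 + (Z F s - ∑ I ∈ I₀, term F s I) := by rw [hs1.tsum_add hs2, ht1, ht2]
    _ ≤ 2 := by linarith

lemma neg_log_one_sub_le {x : ℝ} (h1 : x ≤ 1 / 2) :
    -Real.log (1 - x) ≤ x + 2 * x ^ 2 := by
  have hpos : 0 < 1 - x := by linarith
  have h := Real.log_le_sub_one_of_pos (x := (1 - x)⁻¹) (inv_pos.mpr hpos)
  rw [Real.log_inv] at h
  have h2 : (1 - x)⁻¹ - 1 ≤ x + 2 * x ^ 2 := by
    rw [sub_le_iff_le_add, inv_le_iff_one_le_mul₀ hpos]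
    nlinarith [sq_nonneg x, mul_nonneg (sq_nonneg x) (by linarith : (0 : ℝ) ≤ 1 - 2 * x)]
  linarith

lemma pterm_sq_le (w : HeightOneSpectrum (𝓞 F)) {s : ℝ} (hs : 1 ≤ s) :
    term F s w.asIdeal ^ 2 ≤ term F 2 w.asIdeal := by
  have h1 : (1 : ℝ) ≤ (Ideal.absNorm w.asIdeal : ℝ) := by
    have := two_le_absNorm F w
    exact_mod_cast (by omega : 1 ≤ Ideal.absNorm w.asIdeal)
  unfold term
  rw [← Real.rpow_natCast, ← Real.rpow_mul (Nat.cast_nonneg _)]
  exact Real.rpow_le_rpow_of_exponent_le h1 (by push_cast; linarith)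

/-- `log ζ_F(s)` is bounded above by the prime sum, up to a constant. -/
lemma log_Z_le {s : ℝ} (hs : 1 < s) :
    Real.log (Z F s) ≤ Real.log 2 + ∑' w : HeightOneSpectrum (𝓞 F), term F s w.asIdeal +
      2 * ∑' w : HeightOneSpectrum (𝓞 F), term F 2 w.asIdeal := by
  obtain ⟨T, hT⟩ := exists_ZT_le_two F hs
  rw [ZT_eq F T hs] at hT
  have hZpos : 0 < Z F s := lt_of_lt_of_le zero_lt_one (one_le_Z F hs)
  have hfac : ∀ w ∈ T, 1 - term F s w.asIdeal ≠ 0 := fun w _ => by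
    have := pterm_le_half F w hs.le
    linarith
  have hPpos : 0 < ∏ w ∈ T, (1 - term F s w.asIdeal) :=
    Finset.prod_pos fun w _ => by
      have := pterm_le_half F w hs.le
      linarith
  have h1 : Real.log ((∏ w ∈ T, (1 - term F s w.asIdeal)) * Z F s) ≤ Real.log 2 :=
    Real.log_le_log (mul_pos hPpos hZpos) hT
  rw [Real.log_mul hPpos.ne' hZpos.ne', Real.log_prod hfac] at h1
  have h2 : -∑ w ∈ T, Real.log (1 - term F s w.asIdeal) ≤
      ∑ w ∈ T, (term F s w.asIdeal + 2 * term F 2 w.asIdeal) := by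
    rw [← Finset.sum_neg_distrib]
    refine Finset.sum_le_sum fun w _ => ?_
    have hx := neg_log_one_sub_le (pterm_le_half F w hs.le)
    have hsq := pterm_sq_le F w hs.le
    linarith
  have hsp : Summable (fun w : HeightOneSpectrum (𝓞 F) => term F s w.asIdeal) :=
    summable_primes F hs
  have hsp2 : Summable (fun w : HeightOneSpectrum (𝓞 F) => term F 2 w.asIdeal) :=
    summable_primes F (by norm_num)
  have ha := hsp.sum_le_tsum T (fun w _ => term_nonneg F s w.asIdeal)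
  have hb := hsp2.sum_le_tsum T (fun w _ => term_nonneg F 2 w.asIdeal)
  rw [Finset.sum_add_distrib, ← Finset.mul_sum] at h2
  linarith

/-- **N1, main bound**: the prime sum is `log (1/(s-1)) + O(1)` on `(1, 2]`. -/
theorem prime_sum_bound : ∃ C : ℝ, ∀ s : ℝ, 1 < s → s ≤ 2 →
    |∑' w : HeightOneSpectrum (𝓞 F), ((Ideal.absNorm w.asIdeal : ℕ) : ℝ) ^ (-s) -
      Real.log (1 / (s - 1))| ≤ C := by
  obtain ⟨C₁, hC₁⟩ := log_Z_bound F
  set C₂ := ∑' w : HeightOneSpectrum (𝓞 F), term F 2 w.asIdeal with hC₂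
  have hC₂nn : 0 ≤ C₂ := tsum_nonneg fun w => term_nonneg F 2 w.asIdeal
  refine ⟨C₁ + Real.log 2 + 2 * C₂, fun s hs1 hs2 => ?_⟩
  have h1 := abs_le.mp (hC₁ s hs1 hs2)
  have h2 := tsum_pterm_le_log_Z F hs1
  have h3 := log_Z_le F hs1
  have hlog2 : 0 ≤ Real.log 2 := Real.log_nonneg (by norm_num)
  show |∑' w : HeightOneSpectrum (𝓞 F), term F s w.asIdeal - Real.log (1 / (s - 1))| ≤ _
  rw [abs_le]
  constructor <;> linarith [h1.1, h1.2]

/-! ### Primes of non-prime norm -/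

/-- The norm of a prime is a positive power of a rational prime lying in it. -/
lemma exists_prime_pow (w : HeightOneSpectrum (𝓞 F)) :
    ∃ ℓ n : ℕ, ℓ.Prime ∧ 0 < n ∧ Ideal.absNorm w.asIdeal = ℓ ^ n ∧
      ((ℓ : ℕ) : 𝓞 F) ∈ w.asIdeal := by
  have hmax := w.isMaximal
  let _ := Ideal.Quotient.field w.asIdeal
  have : Finite (𝓞 F ⧸ w.asIdeal) := Ideal.finiteQuotientOfFreeOfNeBot w.asIdeal w.ne_bot
  let _ := Fintype.ofFinite (𝓞 F ⧸ w.asIdeal)
  obtain ⟨ℓ, _, n, hℓ, hcard⟩ := FiniteField.card' (𝓞 F ⧸ w.asIdeal)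
  have hN : Ideal.absNorm w.asIdeal = ℓ ^ (n : ℕ) := by
    rw [Ideal.absNorm_apply, Submodule.cardQuot_apply, Nat.card_eq_fintype_card, hcard]
  refine ⟨ℓ, n, hℓ, n.pos, hN, ?_⟩
  have hmem := Ideal.absNorm_mem w.asIdeal
  rw [hN] at hmem
  push_cast at hmem
  exact w.isPrime.mem_of_pow_mem _ hmem

/-- At most `[F : ℚ]` primes lie above a given rational prime. -/
lemma card_fiber_le (ℓ₀ : ℕ) (hℓ₀ : ℓ₀.Prime) (S : Finset (HeightOneSpectrum (𝓞 F)))
    (hS : ∀ w ∈ S, ∃ n : ℕ, 0 < n ∧ Ideal.absNorm w.asIdeal = ℓ₀ ^ n ∧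
      ((ℓ₀ : ℕ) : 𝓞 F) ∈ w.asIdeal) :
    S.card ≤ Module.finrank ℚ F := by
  classical
  have hdvd : ∏ w ∈ S, w.asIdeal ∣ Ideal.span {((ℓ₀ : ℕ) : 𝓞 F)} := by
    have h := Finset.prod_primes_dvd (s := S.image (fun w => w.asIdeal))
      (Ideal.span {((ℓ₀ : ℕ) : 𝓞 F)}) ?_ ?_
    · rwa [Finset.prod_image (fun v _ w _ h => HeightOneSpectrum.ext h)] at h
    · intro I hI
      obtain ⟨w, -, rfl⟩ := Finset.mem_image.mp hI
      exact w.prime
    · intro I hI
      obtain ⟨w, hw, rfl⟩ := Finset.mem_image.mp hI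
      obtain ⟨n, -, -, hmem⟩ := hS w hw
      exact Ideal.dvd_iff_le.mpr ((Ideal.span_singleton_le_iff_mem _).mpr hmem)
  have hN := Ideal.absNorm_dvd_absNorm_of_le (Ideal.le_of_dvd hdvd)
  rw [Ideal.absNorm_span_natCast, map_prod, NumberField.RingOfIntegers.rank] at hN
  choose! n hn hNw _ using hS
  have hprod : ∏ w ∈ S, Ideal.absNorm w.asIdeal = ℓ₀ ^ (∑ w ∈ S, n w) := by
    rw [← Finset.prod_pow_eq_pow_sum]
    exact Finset.prod_congr rfl fun w hw => hNw w hw
  rw [hprod] at hN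
  have hle : ∑ w ∈ S, n w ≤ Module.finrank ℚ F :=
    (Nat.pow_dvd_pow_iff_le_right hℓ₀.one_lt).mp hN
  calc S.card = ∑ w ∈ S, 1 := by simp
    _ ≤ ∑ w ∈ S, n w := Finset.sum_le_sum fun w hw => hn w hw
    _ ≤ _ := hle

/-- **N1 (d)**: the primes of non-prime norm contribute a bounded amount. -/
theorem nonprime_norm_bound : ∃ C : ℝ, ∀ s : ℝ, 1 < s → ∀ T : Finset (HeightOneSpectrum (𝓞 F)),
    (∀ w ∈ T, ¬ (Ideal.absNorm w.asIdeal).Prime) →
    ∑ w ∈ T, ((Ideal.absNorm w.asIdeal : ℕ) : ℝ) ^ (-s) ≤ C := by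
  classical
  choose ℓ n hℓ hn hN hmem using exists_prime_pow F
  have hsum2 : Summable (fun m : ℕ => ((m : ℝ) ^ 2)⁻¹) :=
    Real.summable_nat_pow_inv.mpr (by norm_num)
  refine ⟨Module.finrank ℚ F * ∑' m : ℕ, ((m : ℝ) ^ 2)⁻¹, fun s hs T hT => ?_⟩
  have hterm : ∀ w ∈ T, ((Ideal.absNorm w.asIdeal : ℕ) : ℝ) ^ (-s) ≤
      (((ℓ w : ℕ) : ℝ) ^ 2)⁻¹ := by
    intro w hw
    have h2 : 2 ≤ n w := by
      by_contra hlt
      have h1 : n w = 1 := by
        have := hn w
        omega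
      apply hT w hw
      rw [hN w, h1, pow_one]
      exact hℓ w
    have hpos : (0 : ℝ) < (ℓ w : ℝ) := by exact_mod_cast (hℓ w).pos
    have hle : ((ℓ w : ℝ)) ^ 2 ≤ ((Ideal.absNorm w.asIdeal : ℕ) : ℝ) := by
      rw [hN w]
      push_cast
      exact pow_le_pow_right₀ (by exact_mod_cast (hℓ w).one_lt.le) h2
    have hone : (1 : ℝ) ≤ ((Ideal.absNorm w.asIdeal : ℕ) : ℝ) := by
      have := two_le_absNorm F w
      exact_mod_cast (by omega : 1 ≤ Ideal.absNorm w.asIdeal)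
    calc ((Ideal.absNorm w.asIdeal : ℕ) : ℝ) ^ (-s)
        ≤ ((Ideal.absNorm w.asIdeal : ℕ) : ℝ) ^ (-1 : ℝ) :=
          Real.rpow_le_rpow_of_exponent_le hone (by linarith)
      _ = (((Ideal.absNorm w.asIdeal : ℕ) : ℝ))⁻¹ := Real.rpow_neg_one _
      _ ≤ (((ℓ w : ℕ) : ℝ) ^ 2)⁻¹ := inv_anti₀ (by positivity) hle
  calc ∑ w ∈ T, ((Ideal.absNorm w.asIdeal : ℕ) : ℝ) ^ (-s)
      ≤ ∑ w ∈ T, (((ℓ w : ℕ) : ℝ) ^ 2)⁻¹ := Finset.sum_le_sum hterm
    _ = ∑ m ∈ T.image ℓ, ∑ w ∈ T.filter (fun w => ℓ w = m), (((ℓ w : ℕ) : ℝ) ^ 2)⁻¹ :=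
        (Finset.sum_fiberwise_of_maps_to (fun w hw => Finset.mem_image_of_mem ℓ hw) _).symm
    _ = ∑ m ∈ T.image ℓ, ((T.filter (fun w => ℓ w = m)).card : ℝ) * ((m : ℝ) ^ 2)⁻¹ := by
        refine Finset.sum_congr rfl fun m _ => ?_
        rw [Finset.sum_congr rfl (fun w hw => by rw [(Finset.mem_filter.mp hw).2]),
          Finset.sum_const, nsmul_eq_mul]
    _ ≤ ∑ m ∈ T.image ℓ, (Module.finrank ℚ F : ℝ) * ((m : ℝ) ^ 2)⁻¹ := by
        refine Finset.sum_le_sum fun m hm => ?_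
        refine mul_le_mul_of_nonneg_right ?_ (by positivity)
        obtain ⟨w₀, hw₀, rfl⟩ := Finset.mem_image.mp hm
        exact_mod_cast card_fiber_le F (ℓ w₀) (hℓ w₀) _ (fun w hw =>
          ⟨n w, hn w, by rw [← (Finset.mem_filter.mp hw).2]; exact hN w,
            by rw [← (Finset.mem_filter.mp hw).2]; exact hmem w⟩)
    _ = (Module.finrank ℚ F : ℝ) * ∑ m ∈ T.image ℓ, ((m : ℝ) ^ 2)⁻¹ := by rw [Finset.mul_sum]
    _ ≤ (Module.finrank ℚ F : ℝ) * ∑' m : ℕ, ((m : ℝ) ^ 2)⁻¹ := by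
        refine mul_le_mul_of_nonneg_left ?_ (Nat.cast_nonneg _)
        exact hsum2.sum_le_tsum _ (fun m _ => by positivity)

/-! ### Product forms -/

/-- Finite Euler products are bounded by `ζ_F(s)`. -/
lemma prod_inv_le_Z (T : Finset (HeightOneSpectrum (𝓞 F))) {s : ℝ} (hs : 1 < s) :
    ∏ w ∈ T, (1 - ((Ideal.absNorm w.asIdeal : ℕ) : ℝ) ^ (-s))⁻¹ ≤ Z F s := by
  have h1 := one_le_ZT F T hs
  rw [ZT_eq F T hs] at h1
  have hPpos : 0 < ∏ w ∈ T, (1 - term F s w.asIdeal) :=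
    Finset.prod_pos fun w _ => by
      have := pterm_le_half F w hs.le
      linarith
  rw [Finset.prod_inv_distrib]
  exact (inv_le_iff_one_le_mul₀' hPpos).mpr h1

lemma inv_one_sub_le_exp {x : ℝ} (h0 : 0 ≤ x) (h1 : x ≤ 1 / 2) : (1 - x)⁻¹ ≤ Real.exp (2 * x) := by
  have hpos : 0 < 1 - x := by linarith
  have h := neg_log_one_sub_le h1
  have h2 : -Real.log (1 - x) ≤ 2 * x := by nlinarith [sq_nonneg x]
  rw [← Real.log_inv] at h2
  exact (Real.log_le_iff_le_exp (inv_pos.mpr hpos)).mp h2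

/-- **N1 (d), product form**: the Euler factors at primes of non-prime norm have bounded
products. -/
theorem nonprime_norm_prod_bound : ∃ C : ℝ, ∀ s : ℝ, 1 < s →
    ∀ T : Finset (HeightOneSpectrum (𝓞 F)), (∀ w ∈ T, ¬ (Ideal.absNorm w.asIdeal).Prime) →
    ∏ w ∈ T, (1 - ((Ideal.absNorm w.asIdeal : ℕ) : ℝ) ^ (-s))⁻¹ ≤ C := by
  obtain ⟨C, hC⟩ := nonprime_norm_bound F
  refine ⟨Real.exp (2 * C), fun s hs T hT => ?_⟩
  calc ∏ w ∈ T, (1 - ((Ideal.absNorm w.asIdeal : ℕ) : ℝ) ^ (-s))⁻¹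
      ≤ ∏ w ∈ T, Real.exp (2 * ((Ideal.absNorm w.asIdeal : ℕ) : ℝ) ^ (-s)) := by
        refine Finset.prod_le_prod (fun w _ => ?_) (fun w _ => ?_)
        · have := pterm_le_half F w hs.le
          exact inv_nonneg.mpr (by unfold term at this; linarith)
        · exact inv_one_sub_le_exp (term_nonneg F s w.asIdeal) (pterm_le_half F w hs.le)
    _ = Real.exp (2 * ∑ w ∈ T, ((Ideal.absNorm w.asIdeal : ℕ) : ℝ) ^ (-s)) := by
        rw [← Real.exp_sum, Finset.mul_sum]
    _ ≤ Real.exp (2 * C) := Real.exp_le_exp.mpr (by have := hC s hs T hT; linarith)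

end Fermat.Agent.S14.Analytic.PrimeSums
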