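import Mathlib
import Fermat.Agent.S14.Defs

set_option autoImplicit false

open scoped NumberField nonZeroDivisors
open IsDedekindDomain Filter Topology Fermat.Agent.S14.Defs

namespace Fermat.Agent.S14.Analytic.LSeries

section Generic

variable {R : Type*} [CommRing R] [IsDedekindDomain R]

/-- `I` is not divisible by any prime in `T`. -/
def CoprimeTo (T : Finset (HeightOneSpectrum R)) (I : Ideal R) : Prop :=
  ∀ v ∈ T, ¬ v.asIdeal ∣ I

open Classical in
/-- The function `f` restricted to the ideals not divisible by any prime in `T`. -/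
noncomputable def sieved (f : Ideal R → ℂ) (T : Finset (HeightOneSpectrum R)) (I : Ideal R) : ℂ :=
  if CoprimeTo T I then f I else 0

lemma norm_sieved_le (f : Ideal R → ℂ) (T : Finset (HeightOneSpectrum R)) (I : Ideal R) :
    ‖sieved f T I‖ ≤ ‖f I‖ := by
  unfold sieved
  split_ifs <;> simp

lemma summable_sieved (f : Ideal R → ℂ) (hsum : Summable fun I => ‖f I‖)
    (T : Finset (HeightOneSpectrum R)) : Summable (sieved f T) :=
  Summable.of_norm_bounded hsum (norm_sieved_le f T)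

lemma coprimeTo_mul_iff {T : Finset (HeightOneSpectrum R)} {v : HeightOneSpectrum R} (hv : v ∉ T)
    (I : Ideal R) : CoprimeTo T (v.asIdeal * I) ↔ CoprimeTo T I := by
  constructor
  · intro h w hw hdvd
    exact h w hw (Dvd.dvd.mul_left hdvd _)
  · intro h w hw hdvd
    rcases (w.prime.dvd_mul).mp hdvd with h1 | h1
    · have hle : v.asIdeal ≤ w.asIdeal := Ideal.le_of_dvd h1
      have heq : v.asIdeal = w.asIdeal := v.isMaximal.eq_of_le w.isPrime.ne_top hle
      have : v = w := HeightOneSpectrum.ext heq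
      exact hv (this ▸ hw)
    · exact h w hw h1

lemma coprimeTo_insert [DecidableEq (HeightOneSpectrum R)] {T : Finset (HeightOneSpectrum R)}
    {v : HeightOneSpectrum R} (I : Ideal R) :
    CoprimeTo (insert v T) I ↔ ¬ v.asIdeal ∣ I ∧ CoprimeTo T I := by
  simp [CoprimeTo]

/-- **Sieve identity** (finite form of the Euler product over prime ideals). -/
theorem sieve (f : Ideal R →*₀ ℂ) (hsum : Summable fun I => ‖f I‖)
    (T : Finset (HeightOneSpectrum R)) :
    (∑' I, f I) * ∏ v ∈ T, (1 - f v.asIdeal) = ∑' I, sieved f T I := by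
  classical
  induction T using Finset.induction_on with
  | empty => simp [sieved, CoprimeTo]
  | insert v T hv ih =>
    rw [Finset.prod_insert hv, mul_left_comm, ih]
    have hg := summable_sieved f hsum T
    have hh : Summable fun J : Ideal R => if v.asIdeal ∣ J then sieved f T J else 0 := by
      refine Summable.of_norm_bounded hsum fun J => ?_
      split_ifs
      · exact norm_sieved_le f T J
      · simp
    have key : ∑' I, f v.asIdeal * sieved f T I =
        ∑' J, (if v.asIdeal ∣ J then sieved f T J else 0) := by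
      have hinj : Function.Injective (fun I : Ideal R => v.asIdeal * I) :=
        mul_right_injective₀ v.ne_bot
      have hsupp : Function.support (fun J : Ideal R => if v.asIdeal ∣ J then sieved f T J else 0) ⊆
          Set.range (fun I : Ideal R => v.asIdeal * I) := by
        intro J hJ
        by_cases hd : v.asIdeal ∣ J
        · obtain ⟨I, rfl⟩ := hd
          exact ⟨I, rfl⟩
        · simp [hd] at hJ
      rw [← hinj.tsum_eq hsupp]
      refine tsum_congr fun I => ?_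
      simp only [dvd_mul_right, if_true]
      unfold sieved
      by_cases h : CoprimeTo T I
      · rw [if_pos h, if_pos ((coprimeTo_mul_iff hv I).mpr h), map_mul]
      · rw [if_neg h, if_neg (fun h' => h ((coprimeTo_mul_iff hv I).mp h')), mul_zero]
    rw [sub_mul, one_mul, ← tsum_mul_left, key, ← hg.tsum_sub hh]
    refine tsum_congr fun J => ?_
    unfold sieved
    by_cases h1 : v.asIdeal ∣ J <;> by_cases h2 : CoprimeTo T J <;>
      simp [coprimeTo_insert, h1, h2]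

/-- Every proper nonzero ideal is divisible by a prime. -/
lemma exists_prime_dvd {I : Ideal R} (h0 : I ≠ ⊥) (h1 : I ≠ ⊤) :
    ∃ v : HeightOneSpectrum R, v.asIdeal ∣ I := by
  obtain ⟨M, hM, hIM⟩ := Ideal.exists_le_maximal I h1
  have hMbot : M ≠ ⊥ := fun h => h0 (le_bot_iff.mp (h ▸ hIM))
  exact ⟨⟨M, hM.isPrime, hMbot⟩, Ideal.dvd_iff_le.mpr hIM⟩

/-- **Euler product, sieve form**: `L · ∏_{v ∈ T} (1 - f v) → 1`. -/
theorem tendsto_sieve (f : Ideal R →*₀ ℂ) (hsum : Summable fun I => ‖f I‖) :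
    Tendsto (fun T : Finset (HeightOneSpectrum R) =>
      (∑' I, f I) * ∏ v ∈ T, (1 - f v.asIdeal)) atTop (𝓝 1) := by
  classical
  have h1 : ∑' I : Ideal R, (if I = ⊤ then f I else 0) = 1 := by
    rw [tsum_ite_eq]
    simp [← Ideal.one_eq_top]
  suffices key : Tendsto (fun T : Finset (HeightOneSpectrum R) => ∑' I, sieved f T I) atTop
      (𝓝 (∑' I : Ideal R, (if I = ⊤ then f I else 0))) by
    rw [h1] at key
    exact key.congr fun T => (sieve f hsum T).symm
  refine tendsto_tsum_of_dominated_convergence hsum (fun I => ?_)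
    (Eventually.of_forall fun T I => norm_sieved_le f T I)
  by_cases hI : I = ⊤
  · subst hI
    have : ∀ T : Finset (HeightOneSpectrum R), sieved f T ⊤ = f ⊤ := by
      intro T
      unfold sieved
      rw [if_pos]
      intro v _ hdvd
      exact v.isPrime.ne_top (top_le_iff.mp (Ideal.le_of_dvd hdvd))
    simp [this]
  · rw [if_neg hI]
    by_cases h0 : I = ⊥
    · have hf0 : f I = 0 := by rw [h0, ← Ideal.zero_eq_bot, map_zero]
      have : ∀ T : Finset (HeightOneSpectrum R), sieved f T I = 0 := by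
        intro T
        unfold sieved
        split_ifs
        · exact hf0
        · rfl
      simp [this]
    · obtain ⟨v, hv⟩ := exists_prime_dvd h0 hI
      refine tendsto_const_nhds.congr' ?_
      filter_upwards [eventually_ge_atTop {v}] with T hT
      unfold sieved
      rw [if_neg]
      intro h
      exact h v (hT (Finset.mem_singleton_self v)) hv

lemma norm_one_sub_le_exp {z : ℂ} (hz : ‖z‖ ≤ 1 / 2) :
    ‖1 - z‖ ≤ Real.exp (-z.re + ‖z‖ ^ 2) := by
  have hz1 : ‖-z‖ < 1 := by rw [norm_neg]; linarith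
  have hne : 1 + -z ≠ 0 := by
    intro h
    have h1 : z = 1 := by linear_combination -h
    rw [h1, norm_one] at hz
    norm_num at hz
  have hb := Complex.norm_log_one_add_sub_self_le hz1
  rw [norm_neg] at hb
  have hb2 : ‖Complex.log (1 + -z) - -z‖ ≤ ‖z‖ ^ 2 := by
    refine hb.trans ?_
    have h2 : (1 - ‖z‖)⁻¹ ≤ 2 := by
      rw [inv_le_comm₀ (by linarith) (by norm_num)]
      linarith
    have hsq : 0 ≤ ‖z‖ ^ 2 := sq_nonneg _
    nlinarith
  have hre : (Complex.log (1 + -z)).re ≤ -z.re + ‖z‖ ^ 2 := by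
    have h1 : (Complex.log (1 + -z) - -z).re ≤ ‖Complex.log (1 + -z) - -z‖ := Complex.re_le_norm _
    have h2 : (Complex.log (1 + -z) - -z).re = (Complex.log (1 + -z)).re + z.re := by simp
    linarith
  calc ‖1 - z‖ = ‖Complex.exp (Complex.log (1 + -z))‖ := by
        rw [Complex.exp_log hne, sub_eq_add_neg]
    _ = Real.exp (Complex.log (1 + -z)).re := Complex.norm_exp _
    _ ≤ Real.exp (-z.re + ‖z‖ ^ 2) := Real.exp_le_exp.mpr hre

/-- **Lower bound for an Euler product**: if `f` is completely multiplicative on ideals, absolutely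
summable, and `‖f v‖ ≤ 1/2` at all primes, then
`exp (Re ∑_v f v - ∑_v ‖f v‖²) ≤ ‖∑_I f I‖`. -/
theorem exp_le_norm_tsum (f : Ideal R →*₀ ℂ) (hsum : Summable fun I => ‖f I‖)
    (hhalf : ∀ v : HeightOneSpectrum R, ‖f v.asIdeal‖ ≤ 1 / 2) :
    Real.exp ((∑' v : HeightOneSpectrum R, f v.asIdeal).re -
      ∑' v : HeightOneSpectrum R, ‖f v.asIdeal‖ ^ 2) ≤ ‖∑' I, f I‖ := by
  classical
  set z : HeightOneSpectrum R → ℂ := fun v => f v.asIdeal with hz
  have hinj : Function.Injective (fun v : HeightOneSpectrum R => v.asIdeal) :=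
    fun v w h => HeightOneSpectrum.ext h
  have hzn : Summable fun v => ‖z v‖ := hsum.comp_injective hinj
  have hzs : Summable z := hzn.of_norm
  have hz2 : Summable fun v => ‖z v‖ ^ 2 := by
    refine Summable.of_nonneg_of_le (fun v => sq_nonneg _) (fun v => ?_) hzn
    have := hhalf v
    have h0 := norm_nonneg (z v)
    nlinarith
  set L := ∑' I, f I with hL
  set A := (∑' v, z v).re with hA
  set B := ∑' v, ‖z v‖ ^ 2 with hB
  have hT : ∀ T : Finset (HeightOneSpectrum R),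
      ‖L * ∏ v ∈ T, (1 - z v)‖ ≤ ‖L‖ * Real.exp (-(∑ v ∈ T, z v).re + B) := by
    intro T
    rw [norm_mul, norm_prod]
    gcongr
    calc ∏ v ∈ T, ‖1 - z v‖ ≤ ∏ v ∈ T, Real.exp (-(z v).re + ‖z v‖ ^ 2) :=
          Finset.prod_le_prod (fun v _ => norm_nonneg _)
            (fun v _ => norm_one_sub_le_exp (hhalf v))
      _ = Real.exp (∑ v ∈ T, (-(z v).re + ‖z v‖ ^ 2)) := (Real.exp_sum _ _).symm
      _ ≤ Real.exp (-(∑ v ∈ T, z v).re + B) := by
        apply Real.exp_le_exp.mpr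
        rw [Finset.sum_add_distrib, Finset.sum_neg_distrib, Complex.re_sum]
        gcongr
        exact hz2.sum_le_tsum T (fun v _ => sq_nonneg _)
  have hlim1 : Tendsto (fun T : Finset (HeightOneSpectrum R) => ‖L * ∏ v ∈ T, (1 - z v)‖)
      atTop (𝓝 1) := by
    simpa using (tendsto_sieve f hsum).norm
  have hlim2 : Tendsto (fun T : Finset (HeightOneSpectrum R) =>
      ‖L‖ * Real.exp (-(∑ v ∈ T, z v).re + B)) atTop (𝓝 (‖L‖ * Real.exp (-A + B))) := by
    have h1 : Tendsto (fun T : Finset (HeightOneSpectrum R) => ∑ v ∈ T, z v) atTop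
        (𝓝 (∑' v, z v)) := hzs.hasSum
    have h2 := (Complex.continuous_re.tendsto _).comp h1
    exact ((Real.continuous_exp.tendsto _).comp ((h2.neg).add_const B)).const_mul _
  have h := le_of_tendsto_of_tendsto' hlim1 hlim2 hT
  calc Real.exp (A - B) = Real.exp (A - B) * 1 := (mul_one _).symm
    _ ≤ Real.exp (A - B) * (‖L‖ * Real.exp (-A + B)) := by gcongr
    _ = ‖L‖ * (Real.exp (A - B) * Real.exp (-A + B)) := by ring
    _ = ‖L‖ := by rw [← Real.exp_add]; simp

end Generic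

section NumberField

variable {K : Type*} [Field K] [NumberField K]

/-- The Dirichlet series of the number of ideals of given norm converges for `s > 1`. -/
theorem lSeriesSummable_card (K : Type*) [Field K] [NumberField K] {s : ℝ} (hs : 1 < s) :
    LSeriesSummable (fun n ↦ (Nat.card {I : Ideal (𝓞 K) // Ideal.absNorm I = n} : ℂ)) s := by
  have hlim : Tendsto (fun n : ℕ ↦ (∑ k ∈ Finset.Icc 1 n,
      (Nat.card {I : Ideal (𝓞 K) // Ideal.absNorm I = k} : ℝ)) / (n : ℝ)) atTop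
      (𝓝 (NumberField.dedekindZeta_residue K)) := by
    refine ((NumberField.Ideal.tendsto_norm_le_div_atTop₀ K).comp tendsto_natCast_atTop_atTop).congr fun n ↦ ?_
    simp only [Function.comp_apply, Nat.cast_le, ← Nat.cast_sum]
    congr
    rw [← add_left_inj 1, ← Ideal.card_norm_le_eq_card_norm_le_add_one,
      show Finset.Icc 1 n = Finset.Ioc 0 n from Finset.Icc_succ_left_eq_Ioc _ _,
      show 1 = Nat.card {I : Ideal (𝓞 K) // Ideal.absNorm I = 0} by simp [Ideal.absNorm_eq_zero_iff],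
      Finset.sum_Ioc_add_eq_sum_Icc (n.zero_le),
      ← Finset.card_preimage_eq_sum_card_image_eq (fun k _ ↦ Ideal.finite_setOfPred_absNorm_eq k)]
    simp [Set.coe_eq_subtype]
  have h := LSeriesSummable_of_sum_norm_bigO_and_nonneg (s := (s : ℂ))
    (f := fun n ↦ (Nat.card {I : Ideal (𝓞 K) // Ideal.absNorm I = n} : ℝ)) (r := 1)
    (Asymptotics.isBigO_atTop_natCast_rpow_of_tendsto_div_rpow (a := NumberField.dedekindZeta_residue K)
      (by simpa using hlim))
    (fun _ ↦ Nat.cast_nonneg _) zero_le_one (by simpa using hs)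
  simpa using h

/-- Summability of `N(I)^(-s)` over all ideals, `s > 1`. -/
theorem summable_ideal_all (K : Type*) [Field K] [NumberField K] {s : ℝ} (hs : 1 < s) :
    Summable fun I : Ideal (𝓞 K) => ((Ideal.absNorm I : ℕ) : ℝ) ^ (-s) := by
  have h1 := (lSeriesSummable_card K hs).norm
  simp only [LSeries.norm_term_eq] at h1
  have hterm : ∀ n : ℕ, (∑' I : {I : Ideal (𝓞 K) // Ideal.absNorm I = n},
      ((Ideal.absNorm (I : Ideal (𝓞 K)) : ℕ) : ℝ) ^ (-s)) =
      if n = 0 then 0 else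
        ‖(Nat.card {I : Ideal (𝓞 K) // Ideal.absNorm I = n} : ℂ)‖ / (n : ℝ) ^ (s : ℂ).re := by
    intro n
    have : Finite {I : Ideal (𝓞 K) // Ideal.absNorm I = n} := Ideal.finite_setOfPred_absNorm_eq n
    have := Fintype.ofFinite {I : Ideal (𝓞 K) // Ideal.absNorm I = n}
    rw [tsum_fintype, Finset.sum_congr rfl (fun I _ => by rw [I.2]), Finset.sum_const,
      Finset.card_univ, nsmul_eq_mul, Nat.card_eq_fintype_card]
    split_ifs with h0
    · subst h0
      rw [Nat.cast_zero, Real.zero_rpow (by linarith), mul_zero]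
    · rw [Complex.norm_natCast, Complex.ofReal_re, Real.rpow_neg (Nat.cast_nonneg n),
        div_eq_mul_inv]
  rw [← (Equiv.sigmaFiberEquiv (fun I : Ideal (𝓞 K) => Ideal.absNorm I)).summable_iff]
  refine (summable_sigma_of_nonneg (fun x => Real.rpow_nonneg (Nat.cast_nonneg _) _)).mpr ⟨?_, ?_⟩
  · intro n
    have : Finite {I : Ideal (𝓞 K) // Ideal.absNorm I = n} := Ideal.finite_setOfPred_absNorm_eq n
    exact Summable.of_finite
  · exact h1.congr fun n => (hterm n).symm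

/-- A character of the class group takes values of norm one. -/
theorem norm_classChar (χ : ClassGroup (𝓞 K) →* ℂ) (C : ClassGroup (𝓞 K)) : ‖χ C‖ = 1 := by
  have h : χ C ^ (Fintype.card (ClassGroup (𝓞 K))) = 1 := by
    rw [← map_pow, pow_card_eq_one, map_one]
  exact Complex.norm_eq_one_of_pow_eq_one h Fintype.card_ne_zero

/-- The completely multiplicative function `I ↦ χ([I]) N(I)^(-s)` on ideals. -/
noncomputable def chiFun (χ : ClassGroup (𝓞 K) →* ℂ) (s : ℝ) : Ideal (𝓞 K) →*₀ ℂ where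
  toFun I := if h : I = 0 then 0 else
    χ (ClassGroup.mk0 ⟨I, mem_nonZeroDivisors_of_ne_zero h⟩) *
      ((((Ideal.absNorm I : ℕ) : ℝ) ^ (-s) : ℝ) : ℂ)
  map_zero' := by simp
  map_one' := by
    have h1 : (1 : Ideal (𝓞 K)) ≠ 0 := one_ne_zero
    rw [dif_neg h1]
    have : (⟨1, mem_nonZeroDivisors_of_ne_zero h1⟩ : (Ideal (𝓞 K))⁰) = 1 := rfl
    rw [this, map_one, map_one]
    simp
  map_mul' I J := by
    by_cases hI : I = 0
    · simp [hI]
    by_cases hJ : J = 0
    · simp [hJ]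
    have hIJ : I * J ≠ 0 := mul_ne_zero hI hJ
    rw [dif_neg hI, dif_neg hJ, dif_neg hIJ]
    have : (⟨I * J, mem_nonZeroDivisors_of_ne_zero hIJ⟩ : (Ideal (𝓞 K))⁰) =
        ⟨I, mem_nonZeroDivisors_of_ne_zero hI⟩ * ⟨J, mem_nonZeroDivisors_of_ne_zero hJ⟩ := rfl
    rw [this, map_mul, map_mul, map_mul, Nat.cast_mul,
      Real.mul_rpow (Nat.cast_nonneg _) (Nat.cast_nonneg _)]
    push_cast
    ring

theorem chiFun_apply (χ : ClassGroup (𝓞 K) →* ℂ) (s : ℝ) (I : (Ideal (𝓞 K))⁰) :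
    chiFun χ s (I : Ideal (𝓞 K)) =
      χ (ClassGroup.mk0 I) * ((((Ideal.absNorm (I : Ideal (𝓞 K)) : ℕ) : ℝ) ^ (-s) : ℝ) : ℂ) := by
  have h : (I : Ideal (𝓞 K)) ≠ 0 := nonZeroDivisors.coe_ne_zero I
  show (if h : (I : Ideal (𝓞 K)) = 0 then 0 else _) = _
  rw [dif_neg h]

theorem norm_chiFun_le (χ : ClassGroup (𝓞 K) →* ℂ) (s : ℝ) (I : Ideal (𝓞 K)) :
    ‖chiFun χ s I‖ ≤ ((Ideal.absNorm I : ℕ) : ℝ) ^ (-s) := by
  by_cases h : I = 0
  · subst h
    rw [map_zero, norm_zero]
    exact Real.rpow_nonneg (Nat.cast_nonneg _) _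
  · have := chiFun_apply χ s ⟨I, mem_nonZeroDivisors_of_ne_zero h⟩
    simp only at this
    rw [this, norm_mul, norm_classChar, one_mul, Complex.norm_real,
      Real.norm_of_nonneg (Real.rpow_nonneg (Nat.cast_nonneg _) _)]

theorem summable_norm_chiFun (χ : ClassGroup (𝓞 K) →* ℂ) {s : ℝ} (hs : 1 < s) :
    Summable fun I : Ideal (𝓞 K) => ‖chiFun χ s I‖ :=
  Summable.of_nonneg_of_le (fun _ => norm_nonneg _) (norm_chiFun_le χ s) (summable_ideal_all K hs)

/-- The `L`-series of a class group character at a real point. -/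
noncomputable def classL (χ : ClassGroup (𝓞 K) →* ℂ) (s : ℝ) : ℂ :=
  ∑' I : (Ideal (𝓞 K))⁰, χ (ClassGroup.mk0 I) *
    ((((Ideal.absNorm (I : Ideal (𝓞 K)) : ℕ) : ℝ) ^ (-s) : ℝ) : ℂ)

/-- Summability of `N(I)^(-s)` over nonzero ideals. -/
theorem summable_ideal {s : ℝ} (hs : 1 < s) :
    Summable fun I : (Ideal (𝓞 K))⁰ => ((Ideal.absNorm (I : Ideal (𝓞 K)) : ℕ) : ℝ) ^ (-s) :=
  (summable_ideal_all K hs).comp_injective Subtype.val_injective

theorem summable_classL_term (χ : ClassGroup (𝓞 K) →* ℂ) {s : ℝ} (hs : 1 < s) :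
    Summable fun I : (Ideal (𝓞 K))⁰ => χ (ClassGroup.mk0 I) *
      ((((Ideal.absNorm (I : Ideal (𝓞 K)) : ℕ) : ℝ) ^ (-s) : ℝ) : ℂ) := by
  refine Summable.of_norm_bounded (summable_ideal (K := K) hs) fun I => ?_
  rw [norm_mul, norm_classChar, one_mul, Complex.norm_real,
    Real.norm_of_nonneg (Real.rpow_nonneg (Nat.cast_nonneg _) _)]

theorem tsum_chiFun (χ : ClassGroup (𝓞 K) →* ℂ) (s : ℝ) :
    ∑' I : Ideal (𝓞 K), chiFun χ s I = classL χ s := by
  have hsupp : Function.support (chiFun χ s) ⊆ ((Ideal (𝓞 K))⁰ : Set (Ideal (𝓞 K))) := by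
    intro I hI
    refine mem_nonZeroDivisors_of_ne_zero fun h => hI ?_
    rw [h, map_zero]
  rw [← tsum_subtype_eq_of_support_subset hsupp]
  exact tsum_congr fun I => chiFun_apply χ s I

/-- Fiberwise decomposition of an infinite sum over a finite set of fibers. -/
lemma tsum_eq_sum_fiber {α γ : Type*} [Fintype γ] (g : α → γ) (F : α → ℂ) (hF : Summable F) :
    ∑' a, F a = ∑ c, ∑' a : {a // g a = c}, F a := by
  have h : Summable (F ∘ Equiv.sigmaFiberEquiv g) :=
    (Equiv.sigmaFiberEquiv g).summable_iff.mpr hF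
  rw [← (Equiv.sigmaFiberEquiv g).tsum_eq]
  have h2 := h.tsum_sigma
  simp only [Function.comp_apply] at h2
  rw [h2, tsum_fintype]
  rfl

/-- `L(s, χ) = ∑_C χ(C) ζ(s, C)` with the partial zeta functions of the ideal classes. -/
theorem classL_eq_sum (χ : ClassGroup (𝓞 K) →* ℂ) {s : ℝ} (hs : 1 < s) :
    classL χ s = ∑ C : ClassGroup (𝓞 K), χ C *
      ((∑' I : {I : (Ideal (𝓞 K))⁰ // ClassGroup.mk0 I = C},
        ((Ideal.absNorm (I.1 : Ideal (𝓞 K)) : ℕ) : ℝ) ^ (-s) : ℝ) : ℂ) := by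
  unfold classL
  rw [tsum_eq_sum_fiber (fun I : (Ideal (𝓞 K))⁰ => ClassGroup.mk0 I) _
    (summable_classL_term χ hs)]
  refine Finset.sum_congr rfl fun C _ => ?_
  rw [Complex.ofReal_tsum, ← tsum_mul_left]
  exact tsum_congr fun I => by rw [I.2]

theorem two_le_absNorm (v : HeightOneSpectrum (𝓞 K)) : 2 ≤ Ideal.absNorm v.asIdeal := by
  have h0 : Ideal.absNorm v.asIdeal ≠ 0 := by
    rw [Ne, Ideal.absNorm_eq_zero_iff]
    exact v.ne_bot
  have h1 : Ideal.absNorm v.asIdeal ≠ 1 := by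
    rw [Ne, Ideal.absNorm_eq_one_iff]
    exact v.isPrime.ne_top
  omega

theorem chiFun_prime (χ : ClassGroup (𝓞 K) →* ℂ) (s : ℝ) (v : HeightOneSpectrum (𝓞 K)) :
    chiFun χ s v.asIdeal =
      χ (cls v) * ((((Ideal.absNorm v.asIdeal : ℕ) : ℝ) ^ (-s) : ℝ) : ℂ) :=
  chiFun_apply χ s ⟨v.asIdeal, mem_nonZeroDivisors_of_ne_zero v.ne_bot⟩

theorem norm_chiFun_prime_le_half (χ : ClassGroup (𝓞 K) →* ℂ) {s : ℝ} (hs : 1 < s)
    (v : HeightOneSpectrum (𝓞 K)) : ‖chiFun χ s v.asIdeal‖ ≤ 1 / 2 := by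
  refine (norm_chiFun_le χ s v.asIdeal).trans ?_
  have h2 : (2 : ℝ) ≤ (Ideal.absNorm v.asIdeal : ℝ) := by exact_mod_cast two_le_absNorm v
  calc ((Ideal.absNorm v.asIdeal : ℕ) : ℝ) ^ (-s) ≤ (2 : ℝ) ^ (-s) :=
        Real.rpow_le_rpow_of_nonpos (by norm_num) h2 (by linarith)
    _ ≤ (2 : ℝ) ^ (-1 : ℝ) := Real.rpow_le_rpow_of_exponent_le (by norm_num) (by linarith)
    _ = 1 / 2 := by rw [Real.rpow_neg_one]; norm_num

/-- Summability of `N(v)^(-s)` over the primes, `s > 1`. -/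
theorem summable_prime (K : Type*) [Field K] [NumberField K] {s : ℝ} (hs : 1 < s) :
    Summable fun v : HeightOneSpectrum (𝓞 K) => ((Ideal.absNorm v.asIdeal : ℕ) : ℝ) ^ (-s) :=
  (summable_ideal_all K hs).comp_injective (fun _ _ h => HeightOneSpectrum.ext h)

theorem summable_prime_chi (χ : ClassGroup (𝓞 K) →* ℂ) {s : ℝ} (hs : 1 < s) :
    Summable fun v : HeightOneSpectrum (𝓞 K) =>
      χ (cls v) * ((((Ideal.absNorm v.asIdeal : ℕ) : ℝ) ^ (-s) : ℝ) : ℂ) := by
  refine Summable.of_norm_bounded (summable_prime K hs) fun v => ?_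
  rw [norm_mul, norm_classChar, one_mul, Complex.norm_real,
    Real.norm_of_nonneg (Real.rpow_nonneg (Nat.cast_nonneg _) _)]

theorem sq_norm_chiFun_prime_le (χ : ClassGroup (𝓞 K) →* ℂ) {s : ℝ} (hs : 1 < s)
    (v : HeightOneSpectrum (𝓞 K)) :
    ‖chiFun χ s v.asIdeal‖ ^ 2 ≤ ((Ideal.absNorm v.asIdeal : ℕ) : ℝ) ^ (-2 : ℝ) := by
  have h1 := norm_chiFun_le χ s v.asIdeal
  have h0 := norm_nonneg (chiFun χ s v.asIdeal)
  have h2 : (1 : ℝ) ≤ (Ideal.absNorm v.asIdeal : ℝ) := by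
    exact_mod_cast (by norm_num : 1 ≤ 2).trans (two_le_absNorm v)
  calc ‖chiFun χ s v.asIdeal‖ ^ 2 ≤ (((Ideal.absNorm v.asIdeal : ℕ) : ℝ) ^ (-s)) ^ 2 := by gcongr
    _ = ((Ideal.absNorm v.asIdeal : ℕ) : ℝ) ^ (-s * 2) := by
        rw [← Real.rpow_natCast, ← Real.rpow_mul (Nat.cast_nonneg _)]
        norm_num
    _ ≤ ((Ideal.absNorm v.asIdeal : ℕ) : ℝ) ^ (-2 : ℝ) :=
        Real.rpow_le_rpow_of_exponent_le h2 (by linarith)

/-- **Euler product lower bound**, exponential form: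
`exp (Re ∑_v χ(v) N v^(-s) - ∑_v N v^(-2)) ≤ ‖L(s, χ)‖` for `s > 1`. -/
theorem exp_re_prime_sum_le (χ : ClassGroup (𝓞 K) →* ℂ) {s : ℝ} (hs : 1 < s) :
    Real.exp ((∑' v : HeightOneSpectrum (𝓞 K),
        χ (cls v) * ((((Ideal.absNorm v.asIdeal : ℕ) : ℝ) ^ (-s) : ℝ) : ℂ)).re -
      ∑' v : HeightOneSpectrum (𝓞 K), ((Ideal.absNorm v.asIdeal : ℕ) : ℝ) ^ (-2 : ℝ)) ≤
      ‖classL χ s‖ := by
  have h := exp_le_norm_tsum (chiFun χ s) (summable_norm_chiFun χ hs)
    (norm_chiFun_prime_le_half χ hs)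
  rw [tsum_chiFun] at h
  refine le_trans (Real.exp_le_exp.mpr ?_) h
  have e1 : ∑' v : HeightOneSpectrum (𝓞 K), chiFun χ s v.asIdeal =
      ∑' v : HeightOneSpectrum (𝓞 K),
        χ (cls v) * ((((Ideal.absNorm v.asIdeal : ℕ) : ℝ) ^ (-s) : ℝ) : ℂ) :=
    tsum_congr (chiFun_prime χ s)
  rw [e1]
  have hs2 : Summable fun v : HeightOneSpectrum (𝓞 K) => ‖chiFun χ s v.asIdeal‖ ^ 2 :=
    Summable.of_nonneg_of_le (fun _ => sq_nonneg _) (sq_norm_chiFun_prime_le χ hs)
      (summable_prime K (s := 2) (by norm_num))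
  have hle := hs2.tsum_le_tsum (sq_norm_chiFun_prime_le χ hs)
    (summable_prime K (s := 2) (by norm_num))
  linarith

theorem classL_ne_zero (χ : ClassGroup (𝓞 K) →* ℂ) {s : ℝ} (hs : 1 < s) : classL χ s ≠ 0 := by
  intro h
  have h1 := exp_re_prime_sum_le χ hs
  rw [h, norm_zero] at h1
  exact absurd h1 (not_le.mpr (Real.exp_pos _))

/-- **N2**: `Re ∑_v χ([v]) N v^(-s) ≤ log ‖L(s, χ)‖ + C`, with `C` independent of `s > 1`. -/
theorem re_prime_sum_le (χ : ClassGroup (𝓞 K) →* ℂ) :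
    ∃ C : ℝ, ∀ s : ℝ, 1 < s → s ≤ 2 →
      (∑' v : HeightOneSpectrum (𝓞 K),
        χ (cls v) * ((((Ideal.absNorm v.asIdeal : ℕ) : ℝ) ^ (-s) : ℝ) : ℂ)).re ≤
        Real.log ‖classL χ s‖ + C := by
  refine ⟨∑' v : HeightOneSpectrum (𝓞 K), ((Ideal.absNorm v.asIdeal : ℕ) : ℝ) ^ (-2 : ℝ),
    fun s hs _ => ?_⟩
  have h := exp_re_prime_sum_le χ hs
  have hpos : 0 < ‖classL χ s‖ := norm_pos_iff.mpr (classL_ne_zero χ hs)
  have := (Real.le_log_iff_exp_le hpos).mpr h
  linarith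

end NumberField

end Fermat.Agent.S14.Analytic.LSeries
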