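import Mathlib

set_option autoImplicit false

universe u

open scoped NumberField nonZeroDivisors
open Polynomial NumberField IsDedekindDomain

namespace Fermat.Agent.S14.Analytic.KummerSplitCore

/-- The absolute norm is invariant under ring automorphisms. -/
theorem absNorm_map_ringEquiv {S : Type*} [CommRing S] [IsDedekindDomain S] [Module.Free ℤ S]
    (e : S ≃+* S) (I : Ideal S) : Ideal.absNorm (I.map (e : S →+* S)) = Ideal.absNorm I := by
  rw [Ideal.absNorm_apply, Ideal.absNorm_apply, Submodule.cardQuot_apply, Submodule.cardQuot_apply]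
  exact (Nat.card_congr (Ideal.quotientEquiv I (I.map (e : S →+* S)) e rfl).toEquiv).symm

/-- A product of ideals `I ⊔ (x_j)` is contained in `I ⊔ (∏ x_j)`. -/
theorem prod_sup_span_le {S : Type*} [CommRing S] {ι : Type*} (s : Finset ι) (I : Ideal S)
    (x : ι → S) : ∏ j ∈ s, (I ⊔ Ideal.span {x j}) ≤ I ⊔ Ideal.span {∏ j ∈ s, x j} := by
  classical
  induction s using Finset.induction with
  | empty => simp
  | insert a s ha ih =>
    rw [Finset.prod_insert ha, Finset.prod_insert ha]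
    refine (Ideal.mul_mono_right ih).trans ?_
    rw [Ideal.sup_mul, Ideal.mul_sup, Ideal.mul_sup, Ideal.span_singleton_mul_span_singleton]
    refine sup_le (sup_le ?_ ?_) (sup_le ?_ ?_)
    · exact le_trans Ideal.mul_le_right le_sup_left
    · exact le_trans Ideal.mul_le_left le_sup_left
    · exact le_trans Ideal.mul_le_right le_sup_left
    · exact le_sup_right

/-- If a primitive `p`-th root of unity is congruent to `1` modulo an ideal, then `p` lies in
the ideal. -/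
theorem natCast_mem_of_one_sub_mem {R : Type*} [CommRing R] [IsDomain R] {p : ℕ} (hp : 1 < p)
    {η : R} (hη : IsPrimitiveRoot η p) (I : Ideal R) (h : 1 - η ∈ I) : (p : R) ∈ I := by
  have h1 : (p : R) = ∑ k ∈ Finset.range p, (1 - η ^ k) := by
    rw [Finset.sum_sub_distrib, hη.geom_sum_eq_zero hp]
    simp
  rw [h1]
  refine Ideal.sum_mem _ fun k _ => ?_
  exact Ideal.mem_of_dvd _ (one_sub_dvd_one_sub_pow η k) h

/-- Distinct powers (with exponents `< p`) of a primitive `p`-th root of unity are not congruent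
modulo a prime ideal not containing `p`. -/
theorem pow_sub_pow_not_mem {R : Type*} [CommRing R] [IsDomain R] {p : ℕ} (hp : p.Prime)
    {ζ : R} (hζ : IsPrimitiveRoot ζ p) (I : Ideal R) [I.IsPrime] (hI : (p : R) ∉ I)
    {i j : ℕ} (hi : i < p) (hj : j < p) (hij : i ≠ j) : ζ ^ i - ζ ^ j ∉ I := by
  wlog hlt : i < j generalizing i j
  · have hlt' : j < i := lt_of_le_of_ne (not_lt.1 hlt) (Ne.symm hij)
    intro hmem
    refine this hj hi (Ne.symm hij) hlt' ?_
    have : ζ ^ j - ζ ^ i = -(ζ ^ i - ζ ^ j) := by ring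
    rw [this]
    exact I.neg_mem hmem
  intro hmem
  have hd : ζ ^ i - ζ ^ j = ζ ^ i * (1 - ζ ^ (j - i)) := by
    rw [mul_sub, mul_one, ← pow_add, Nat.add_sub_cancel' hlt.le]
  rw [hd] at hmem
  have hu : IsUnit (ζ ^ i) := (hζ.isUnit hp.ne_zero).pow i
  have hmem' : 1 - ζ ^ (j - i) ∈ I := by
    rcases (Ideal.IsPrime.mem_or_mem ‹I.IsPrime› hmem) with h | h
    · exact absurd (I.eq_top_of_isUnit_mem h hu) (Ideal.IsPrime.ne_top ‹I.IsPrime›)
    · exact h
  have hcop : (j - i).Coprime p := by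
    refine Nat.Coprime.symm ((Nat.Prime.coprime_iff_not_dvd hp).2 ?_)
    exact Nat.not_dvd_of_pos_of_lt (Nat.sub_pos_of_lt hlt) (lt_of_le_of_lt (Nat.sub_le j i) hj)
  exact hI (natCast_mem_of_one_sub_mem hp.one_lt (hζ.pow_of_coprime _ hcop) I hmem')

/-- An ideal `P` lying over a maximal ideal `v`, with the same (nonzero) absolute norm, is
maximal. -/
theorem isMaximal_of_absNorm_eq {A B : Type*} [CommRing A] [CommRing B] [IsDedekindDomain A]
    [Module.Free ℤ A] [IsDedekindDomain B] [Module.Free ℤ B] (f : A →+* B) (v : Ideal A)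
    [v.IsMaximal] (P : Ideal B) (hle : v ≤ P.comap f) (hne : Ideal.absNorm v ≠ 0) (hP1 : P ≠ ⊤)
    (h : Ideal.absNorm P = Ideal.absNorm v) : P.IsMaximal := by
  let _ := Ideal.Quotient.field v
  have hnt : Nontrivial (B ⧸ P) := Ideal.Quotient.nontrivial_iff.mpr hP1
  let g : A ⧸ v →+* B ⧸ P := Ideal.quotientMap P f hle
  have hg : Function.Injective g := g.injective
  have hfinP : Finite (B ⧸ P) := (Ideal.absNorm_ne_zero_iff P).1 (h ▸ hne)
  have hbij : Function.Bijective g := hg.bijective_of_nat_card_le (by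
    rw [← Submodule.cardQuot_apply, ← Submodule.cardQuot_apply]
    exact le_of_eq h)
  exact Ideal.Quotient.maximal_of_isField P
    ((RingEquiv.ofBijective g hbij).symm.toMulEquiv.isField (Field.toIsField _))

variable {p : ℕ} [Fact p.Prime] {K M : Type*} [Field K] [NumberField K] [Field M] [NumberField M]
  [Algebra K M]

/-- **Kummer splitting** (general form, with an explicit automorphism).
Let `M/K` be an extension of number fields of degree `p`, `ζ ∈ K` a primitive `p`-th root of unity,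
`θ ∈ M` with `θ ^ p = c` a unit of `𝓞 K`, and `τ` a `K`-automorphism of `M` with `τ θ = ζ θ`.
If `v` is a nonzero prime of `𝓞 K` not containing `p`, modulo which `c` is a `p`-th power, then
there are `p` distinct primes of `𝓞 M` above `v`, all of the same absolute norm as `v`. -/
theorem kummer_split_of_aut (hdeg : Module.finrank K M = p) {ζ : K} (hζ : IsPrimitiveRoot ζ p)
    (c : (𝓞 K)ˣ) (θ : M) (hθ : θ ^ p = algebraMap K M ((c : 𝓞 K) : K))
    (τ : M ≃ₐ[K] M) (hτ : τ θ = algebraMap K M ζ * θ)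
    (v : Ideal (𝓞 K)) (hvmax : v.IsMaximal) (hvne : v ≠ ⊥) (hvp : ((p : ℕ) : 𝓞 K) ∉ v)
    (t : 𝓞 K) (ht : (c : 𝓞 K) - t ^ p ∈ v) :
    ∃ S : Finset (Ideal (𝓞 M)), S.card = p ∧ ∀ P ∈ S, P.IsMaximal ∧ P ≠ ⊥ ∧
      P.comap (algebraMap (𝓞 K) (𝓞 M)) = v ∧ Ideal.absNorm P = Ideal.absNorm v := by
  classical
  have hp : p.Prime := Fact.out
  have hp0 : 0 < p := hp.pos
  -- integral versions of `ζ` and `θ`
  let ζ' : 𝓞 K := ⟨ζ, hζ.isIntegral hp0⟩
  have hζ'p : IsPrimitiveRoot ζ' p :=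
    (IsPrimitiveRoot.map_iff_of_injective (f := algebraMap (𝓞 K) K)
      RingOfIntegers.coe_injective).1 hζ
  have hθint : IsIntegral ℤ θ := by
    refine IsIntegral.of_pow hp0 ?_
    rw [hθ]
    exact ((c : 𝓞 K).isIntegral_coe).algebraMap
  let Θ : 𝓞 M := ⟨θ, hθint⟩
  let f : 𝓞 K →+* 𝓞 M := algebraMap (𝓞 K) (𝓞 M)
  have hfcoe : ∀ x : 𝓞 K, ((f x : 𝓞 M) : M) = algebraMap K M (x : K) := fun x => rfl
  have hΘ : Θ ^ p = f (c : 𝓞 K) := by
    apply RingOfIntegers.ext
    rw [hfcoe]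
    exact hθ
  have hinj : Function.Injective f := FaithfulSMul.algebraMap_injective (𝓞 K) (𝓞 M)
  have hζM : IsPrimitiveRoot (f ζ') p := hζ'p.map_of_injective hinj
  -- the product identity
  have hprod : ∏ j ∈ Finset.range p, (Θ - f ζ' ^ j * f t) = f ((c : 𝓞 K) - t ^ p) := by
    have h1 := X_pow_sub_C_eq_prod hζM hp0 (rfl : (f t) ^ p = (f t) ^ p)
    have h2 := congrArg (Polynomial.eval Θ) h1
    simp only [eval_sub, eval_pow, eval_X, eval_C, eval_prod] at h2
    rw [← h2, hΘ, map_sub, map_pow]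
  -- the ideals
  let V : Ideal (𝓞 M) := v.map f
  let P : ℕ → Ideal (𝓞 M) := fun j => V ⊔ Ideal.span {Θ - f ζ' ^ j * f t}
  have hle : ∏ j ∈ Finset.range p, P j ≤ V := by
    refine (prod_sup_span_le _ _ _).trans ?_
    rw [hprod]
    exact sup_le le_rfl ((Ideal.span_singleton_le_iff_mem _).2 (Ideal.mem_map_of_mem f ht))
  have hvprime : v.IsPrime := hvmax.isPrime
  have hv0 : Ideal.absNorm v ≠ 0 := fun h => hvne (Ideal.absNorm_eq_zero_iff.1 h)
  have hv1 : Ideal.absNorm v ≠ 1 := fun h => hvprime.ne_top (Ideal.absNorm_eq_one_iff.1 h)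
  have htv : t ∉ v := by
    intro htv
    have hc : (c : 𝓞 K) ∈ v := by
      have : (c : 𝓞 K) = ((c : 𝓞 K) - t ^ p) + t ^ p := by ring
      rw [this]
      exact v.add_mem ht (v.pow_mem_of_mem htv p hp0)
    exact hvprime.ne_top (v.eq_top_of_isUnit_mem hc c.isUnit)
  -- pairwise coprimality
  have hcop : ∀ i ∈ Finset.range p, ∀ j ∈ Finset.range p, i ≠ j → IsCoprime (P i) (P j) := by
    intro i hi j hj hij
    rw [Finset.mem_range] at hi hj
    rw [Ideal.isCoprime_iff_sup_eq, Ideal.eq_top_iff_one]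
    have hw : (ζ' ^ i - ζ' ^ j) * t ∉ v := fun h =>
      (hvprime.mem_or_mem h).elim (pow_sub_pow_not_mem hp hζ'p v hvp hi hj hij) htv
    obtain ⟨y, a, ha, hya⟩ := hvmax.exists_inv hw
    have h1 : (1 : 𝓞 M) = f y * ((Θ - f ζ' ^ j * f t) - (Θ - f ζ' ^ i * f t)) + f a := by
      rw [← map_one f, ← hya]
      simp only [map_add, map_mul, map_sub, map_pow]
      ring
    rw [h1]
    refine Ideal.add_mem _ (Ideal.mul_mem_left _ _ (Ideal.sub_mem _ ?_ ?_)) ?_
    · exact Ideal.mem_sup_right (Ideal.mem_sup_right (Ideal.subset_span rfl))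
    · exact Ideal.mem_sup_left (Ideal.mem_sup_right (Ideal.subset_span rfl))
    · exact Ideal.mem_sup_left (Ideal.mem_sup_left (Ideal.mem_map_of_mem f ha))
  have hprodV : ∏ j ∈ Finset.range p, P j = V := by
    refine le_antisymm hle ?_
    rw [Ideal.prod_eq_iInf_of_pairwise_isCoprime (fun i hi j hj hij => hcop i hi j hj hij)]
    exact le_iInf₂ fun j _ => le_sup_left
  have hnormV : Ideal.absNorm V = Ideal.absNorm v ^ p := by
    rw [Ideal.absNorm_algebraMap, ← IsFractionRing.finrank_eq (𝓞 K) K (𝓞 M) M, hdeg]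
  -- the automorphism
  let e : 𝓞 M ≃+* 𝓞 M := RingOfIntegers.mapRingEquiv τ.toRingEquiv
  have he_f : ∀ x : 𝓞 K, e (f x) = f x := by
    intro x
    apply RingOfIntegers.ext
    change τ (algebraMap K M (x : K)) = algebraMap K M (x : K)
    exact τ.commutes _
  have heΘ : e Θ = f ζ' * Θ := by
    apply RingOfIntegers.ext
    change τ θ = algebraMap K M ζ * θ
    exact hτ
  have hmapV : V.map (e : 𝓞 M →+* 𝓞 M) = V := by
    change (v.map f).map (e : 𝓞 M →+* 𝓞 M) = v.map f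
    rw [Ideal.map_map]
    congr 1
    ext x
    exact congrArg _ (he_f x)
  have hmapP : ∀ j, (P (j + 1)).map (e : 𝓞 M →+* 𝓞 M) = P j := by
    intro j
    change (V ⊔ Ideal.span {Θ - f ζ' ^ (j + 1) * f t}).map (e : 𝓞 M →+* 𝓞 M) =
      V ⊔ Ideal.span {Θ - f ζ' ^ j * f t}
    rw [Ideal.map_sup, hmapV, Ideal.map_span, Set.image_singleton]
    have h3 : (e : 𝓞 M →+* 𝓞 M) (Θ - f ζ' ^ (j + 1) * f t) = f ζ' * (Θ - f ζ' ^ j * f t) := by
      change e (Θ - f ζ' ^ (j + 1) * f t) = _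
      rw [map_sub, map_mul, map_pow, he_f, he_f, heΘ]
      ring
    rw [h3, Ideal.span_singleton_mul_left_unit (hζM.isUnit hp.ne_zero)]
  have hnorm_eq : ∀ j, Ideal.absNorm (P j) = Ideal.absNorm (P 0) := by
    intro j
    induction j with
    | zero => rfl
    | succ j ih => rw [← ih, ← hmapP j, absNorm_map_ringEquiv]
  have hpow : Ideal.absNorm (P 0) ^ p = Ideal.absNorm v ^ p := by
    rw [← hnormV, ← hprodV, map_prod, Finset.prod_congr rfl (fun j _ => hnorm_eq j),
      Finset.prod_const, Finset.card_range]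
  have hP0 : Ideal.absNorm (P 0) = Ideal.absNorm v := Nat.pow_left_injective hp.ne_zero hpow
  have hnorm : ∀ j, Ideal.absNorm (P j) = Ideal.absNorm v := fun j => (hnorm_eq j).trans hP0
  have hPtop : ∀ j, P j ≠ ⊤ := fun j h =>
    hv1 ((hnorm j).symm.trans (Ideal.absNorm_eq_one_iff.2 h))
  have hPle : ∀ j, v ≤ (P j).comap f := fun j => Ideal.le_comap_of_map_le le_sup_left
  have hmaxP : ∀ j, (P j).IsMaximal := fun j =>
    isMaximal_of_absNorm_eq f v (P j) (hPle j) hv0 (hPtop j) (hnorm j)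
  refine ⟨(Finset.range p).image P, ?_, ?_⟩
  · rw [Finset.card_image_of_injOn, Finset.card_range]
    intro i hi j hj hij
    by_contra hne
    have h1 := hcop i hi j hj hne
    rw [Ideal.isCoprime_iff_sup_eq, ← hij, sup_idem] at h1
    exact hPtop i h1
  · intro Q hQ
    obtain ⟨j, -, rfl⟩ := Finset.mem_image.1 hQ
    refine ⟨hmaxP j, ?_, ?_, hnorm j⟩
    · intro h
      exact hv0 ((hnorm j).symm.trans (by rw [h, Ideal.absNorm_bot]))
    · exact (hvmax.eq_of_le (Ideal.comap_ne_top f (hPtop j)) (hPle j)).symm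

section AdjoinRoot

variable {p : ℕ} [Fact p.Prime] {K : Type u} [Field K] [NumberField K]

/-- **Kummer splitting, ideal form.** For a unit `c` of `𝓞 K` which is not a `p`-th power in
`K ∋ ζ_p`, the field `M = K(c^(1/p))` is a number field of degree `p` over `K` in which every
nonzero prime `v ∤ p` with `c` a `p`-th power residue mod `v` has `p` distinct primes above it,
all of the same absolute norm as `v`. -/
theorem exists_kummer_field_ideal {ζ : K} (hζ : IsPrimitiveRoot ζ p) (c : (𝓞 K)ˣ)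
    (hc : ¬ ∃ t : K, ((c : 𝓞 K) : K) = t ^ p) :
    ∃ (M : Type u) (_ : Field M) (_ : NumberField M) (_ : Algebra K M),
      Module.finrank K M = p ∧
      ∀ v : Ideal (𝓞 K), v.IsMaximal → v ≠ ⊥ → ((p : ℕ) : 𝓞 K) ∉ v →
        (∃ t : 𝓞 K, (c : 𝓞 K) - t ^ p ∈ v) →
        ∃ S : Finset (Ideal (𝓞 M)), S.card = p ∧ ∀ P ∈ S, P.IsMaximal ∧ P ≠ ⊥ ∧
          P.comap (algebraMap (𝓞 K) (𝓞 M)) = v ∧ Ideal.absNorm P = Ideal.absNorm v := by
  classical
  have hp : p.Prime := Fact.out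
  have H : Irreducible (X ^ p - C ((c : 𝓞 K) : K)) :=
    X_pow_sub_C_irreducible_of_prime hp (fun b hb => hc ⟨b, hb.symm⟩)
  have := Fact.mk H
  have : Module.Finite K (AdjoinRoot (X ^ p - C ((c : 𝓞 K) : K))) :=
    (monic_X_pow_sub_C ((c : 𝓞 K) : K) hp.ne_zero).finite_adjoinRoot
  have : NumberField (AdjoinRoot (X ^ p - C ((c : 𝓞 K) : K))) :=
    NumberField.of_module_finite K _
  have hdeg : Module.finrank K (AdjoinRoot (X ^ p - C ((c : 𝓞 K) : K))) = p := by
    rw [(AdjoinRoot.powerBasis H.ne_zero).finrank, AdjoinRoot.powerBasis_dim,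
      natDegree_X_pow_sub_C]
  refine ⟨AdjoinRoot (X ^ p - C ((c : 𝓞 K) : K)), inferInstance, inferInstance, inferInstance,
    hdeg, ?_⟩
  rintro v hvmax hvne hvp ⟨t, ht⟩
  have hζu : IsUnit ζ := hζ.isUnit hp.ne_zero
  let η : rootsOfUnity p K := ⟨hζu.unit, by
    rw [mem_rootsOfUnity]
    ext
    simp [hζ.pow_eq_one]⟩
  have hτ : autAdjoinRootXPowSubC p ((c : 𝓞 K) : K) η (AdjoinRoot.root _) =
      algebraMap K (AdjoinRoot (X ^ p - C ((c : 𝓞 K) : K))) ζ * AdjoinRoot.root _ := by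
    rw [autAdjoinRootXPowSubC_root, Algebra.smul_def]
    rfl
  exact kummer_split_of_aut hdeg hζ c (AdjoinRoot.root _)
    (root_X_pow_sub_C_pow p ((c : 𝓞 K) : K)) _ hτ v hvmax hvne hvp t ht

/-- **Kummer splitting, `HeightOneSpectrum` form.** -/
theorem exists_kummer_field {ζ : K} (hζ : IsPrimitiveRoot ζ p) (c : (𝓞 K)ˣ)
    (hc : ¬ ∃ t : K, ((c : 𝓞 K) : K) = t ^ p) :
    ∃ (M : Type u) (_ : Field M) (_ : NumberField M) (_ : Algebra K M),
      Module.finrank K M = p ∧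
      ∀ v : HeightOneSpectrum (𝓞 K), ((p : ℕ) : 𝓞 K) ∉ v.asIdeal →
        (∃ t : 𝓞 K, (c : 𝓞 K) - t ^ p ∈ v.asIdeal) →
        ∃ S : Finset (HeightOneSpectrum (𝓞 M)), S.card = p ∧ ∀ w ∈ S,
          Ideal.absNorm w.asIdeal = Ideal.absNorm v.asIdeal ∧
          w.asIdeal.comap (algebraMap (𝓞 K) (𝓞 M)) = v.asIdeal := by
  classical
  obtain ⟨M, iF, iN, iA, hdeg, hsplit⟩ := exists_kummer_field_ideal hζ c hc
  refine ⟨M, iF, iN, iA, hdeg, ?_⟩
  intro v hvp hvt
  obtain ⟨S, hScard, hS⟩ := hsplit v.asIdeal v.isMaximal v.ne_bot hvp hvt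
  let g : {P // P ∈ S} → HeightOneSpectrum (𝓞 M) := fun P =>
    ⟨P.1, (hS P.1 P.2).1.isPrime, (hS P.1 P.2).2.1⟩
  have hg : Function.Injective g := by
    intro P Q hPQ
    exact Subtype.ext (congrArg HeightOneSpectrum.asIdeal hPQ)
  refine ⟨S.attach.map ⟨g, hg⟩, ?_, ?_⟩
  · rw [Finset.card_map, Finset.card_attach, hScard]
  · intro w hw
    obtain ⟨P, -, rfl⟩ := Finset.mem_map.1 hw
    exact ⟨(hS P.1 P.2).2.2.2, (hS P.1 P.2).2.2.1⟩

/-- **Kummer splitting, summation form.** For every finite set `T` of primes `v ∤ p` of `K`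
modulo which `c` is a `p`-th power, there is a finite set `T'` of primes of `M = K(c^(1/p))`
(each lying over a prime of `T`, with the same norm) such that
`∑_{w ∈ T'} f (N w) = p * ∑_{v ∈ T} f (N v)` for every `f`. -/
theorem exists_kummer_field_sum {ζ : K} (hζ : IsPrimitiveRoot ζ p) (c : (𝓞 K)ˣ)
    (hc : ¬ ∃ t : K, ((c : 𝓞 K) : K) = t ^ p) :
    ∃ (M : Type u) (_ : Field M) (_ : NumberField M) (_ : Algebra K M),
      Module.finrank K M = p ∧
      ∀ T : Finset (HeightOneSpectrum (𝓞 K)),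
        (∀ v ∈ T, ((p : ℕ) : 𝓞 K) ∉ v.asIdeal ∧ ∃ t : 𝓞 K, (c : 𝓞 K) - t ^ p ∈ v.asIdeal) →
        ∃ T' : Finset (HeightOneSpectrum (𝓞 M)),
          (∀ w ∈ T', ∃ v ∈ T, w.asIdeal.comap (algebraMap (𝓞 K) (𝓞 M)) = v.asIdeal ∧
            Ideal.absNorm w.asIdeal = Ideal.absNorm v.asIdeal) ∧
          ∀ f : ℕ → ℝ, ∑ w ∈ T', f (Ideal.absNorm w.asIdeal) =
            p * ∑ v ∈ T, f (Ideal.absNorm v.asIdeal) := by
  classical
  obtain ⟨M, iF, iN, iA, hdeg, hsplit⟩ := exists_kummer_field hζ c hc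
  refine ⟨M, iF, iN, iA, hdeg, ?_⟩
  intro T hT
  have hex : ∀ v : HeightOneSpectrum (𝓞 K), ∃ S : Finset (HeightOneSpectrum (𝓞 M)),
      v ∈ T → (S.card = p ∧ ∀ w ∈ S, Ideal.absNorm w.asIdeal = Ideal.absNorm v.asIdeal ∧
          w.asIdeal.comap (algebraMap (𝓞 K) (𝓞 M)) = v.asIdeal) := by
    intro v
    by_cases hv : v ∈ T
    · obtain ⟨S, hS⟩ := hsplit v (hT v hv).1 (hT v hv).2
      exact ⟨S, fun _ => hS⟩
    · exact ⟨∅, fun h => absurd h hv⟩
  choose S hS using hex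
  refine ⟨T.biUnion S, ?_, ?_⟩
  · intro w hw
    obtain ⟨v, hv, hwv⟩ := Finset.mem_biUnion.1 hw
    exact ⟨v, hv, ((hS v hv).2 w hwv).2, ((hS v hv).2 w hwv).1⟩
  · intro f
    rw [Finset.sum_biUnion, Finset.mul_sum]
    · refine Finset.sum_congr rfl fun v hv => ?_
      rw [Finset.sum_congr rfl (fun w hw => by rw [((hS v hv).2 w hw).1]), Finset.sum_const,
        (hS v hv).1, nsmul_eq_mul]
    · intro v hv v' hv' hne
      rw [Function.onFun, Finset.disjoint_left]
      intro w hw hw'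
      apply hne
      apply HeightOneSpectrum.ext
      rw [← ((hS v hv).2 w hw).2, ← ((hS v' hv').2 w hw').2]

end AdjoinRoot

end Fermat.Agent.S14.Analytic.KummerSplitCore
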