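import Mathlib

set_option autoImplicit false

open scoped NumberField nonZeroDivisors
open IsDedekindDomain

/-!
# Sieve form of the Euler product over the nonzero ideals of a Dedekind domain

For a multiplicative `g : (Ideal R)⁰ →* 𝕜` which is summable, and a finite set `S` of primes:
`∑_{I coprime to S} g I = (∏_{v ∈ S} (1 - g v)) * ∑_I g I`   (`sieve`),
and the left-hand side tends to `1` as `S` grows (`tendsto_sieve`).
Together: `(∏_{v ∈ S} (1 - g v)) * ∑_I g I → 1`, i.e. the Euler product, with no logarithms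
and no bijection with exponent vectors.
-/

namespace Fermat.Agent.S14.Analytic.Sieve

section Sieve

variable {R : Type*} [CommRing R] [IsDedekindDomain R]

/-- A height-one prime as a nonzero ideal. -/
noncomputable def primeIdeal (v : HeightOneSpectrum R) : (Ideal R)⁰ :=
  ⟨v.asIdeal, mem_nonZeroDivisors_of_ne_zero v.ne_bot⟩

@[simp] theorem coe_primeIdeal (v : HeightOneSpectrum R) :
    ((primeIdeal v : (Ideal R)⁰) : Ideal R) = v.asIdeal := rfl

/-- Ideals coprime to all primes of `S`. -/
def coprimeSet (S : Finset (HeightOneSpectrum R)) : Set ((Ideal R)⁰) :=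
  {I | ∀ v ∈ S, ¬ (primeIdeal v ∣ I)}

theorem primeIdeal_dvd_iff (v : HeightOneSpectrum R) (I : (Ideal R)⁰) :
    primeIdeal v ∣ I ↔ (I : Ideal R) ≤ v.asIdeal := by
  rw [nonZeroDivisors_dvd_iff_dvd_coe, Ideal.dvd_iff_le]
  rfl

theorem primeIdeal_dvd_mul_iff {u v : HeightOneSpectrum R} (huv : u ≠ v) (I : (Ideal R)⁰) :
    primeIdeal u ∣ primeIdeal v * I ↔ primeIdeal u ∣ I := by
  rw [primeIdeal_dvd_iff, primeIdeal_dvd_iff]
  constructor
  · intro h
    have h' : v.asIdeal * (I : Ideal R) ≤ u.asIdeal := h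
    rcases (Ideal.IsPrime.mul_le u.isPrime).mp h' with h1 | h1
    · exfalso
      apply huv
      apply HeightOneSpectrum.ext
      exact ((v.isMaximal.eq_of_le u.isPrime.ne_top h1)).symm
    · exact h1
  · intro h
    have : v.asIdeal * (I : Ideal R) ≤ u.asIdeal := le_trans Ideal.mul_le_right h
    exact this

theorem mem_coprimeSet_mul_iff {S : Finset (HeightOneSpectrum R)} {v : HeightOneSpectrum R}
    (hv : v ∉ S) (I : (Ideal R)⁰) :
    primeIdeal v * I ∈ coprimeSet S ↔ I ∈ coprimeSet S := by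
  show (∀ u ∈ S, ¬ (primeIdeal u ∣ primeIdeal v * I)) ↔ (∀ u ∈ S, ¬ (primeIdeal u ∣ I))
  refine forall₂_congr fun u hu => ?_
  have huv : u ≠ v := fun h => hv (h ▸ hu)
  rw [primeIdeal_dvd_mul_iff huv]

theorem coprimeSet_insert {S : Finset (HeightOneSpectrum R)} (v : HeightOneSpectrum R)
    [DecidableEq (HeightOneSpectrum R)] :
    coprimeSet (insert v S) = coprimeSet S \ {I | primeIdeal v ∣ I} := by
  ext I
  simp [coprimeSet, and_comm]

/-- every nonunit nonzero ideal is divisible by a prime -/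
theorem exists_primeIdeal_dvd (I : (Ideal R)⁰) (hI : I ≠ 1) : ∃ v : HeightOneSpectrum R,
    primeIdeal v ∣ I := by
  have hI' : (I : Ideal R) ≠ ⊤ := by
    intro h
    apply hI
    apply Subtype.ext
    simpa using h
  obtain ⟨M, hM, hIM⟩ := Ideal.exists_le_maximal _ hI'
  have hbot : M ≠ ⊥ := by
    rintro rfl
    have : (I : Ideal R) = ⊥ := le_bot_iff.mp hIM
    exact (nonZeroDivisors.ne_zero I.2) this
  exact ⟨⟨M, hM.isPrime, hbot⟩, (primeIdeal_dvd_iff _ _).mpr hIM⟩

section tsum

variable {𝕜 : Type*} [NormedField 𝕜] [CompleteSpace 𝕜]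

omit [CompleteSpace 𝕜] in
theorem tsum_indicator_dvd (g : (Ideal R)⁰ →* 𝕜) (S : Finset (HeightOneSpectrum R))
    (v : HeightOneSpectrum R) (hv : v ∉ S) :
    ∑' I, (coprimeSet S ∩ {I | primeIdeal v ∣ I}).indicator g I =
      g (primeIdeal v) * ∑' I, (coprimeSet S).indicator g I := by
  have h1 : (coprimeSet S ∩ {I | primeIdeal v ∣ I}).indicator (g : (Ideal R)⁰ → 𝕜) =
      ({I | primeIdeal v ∣ I} : Set ((Ideal R)⁰)).indicator ((coprimeSet S).indicator g) := by
    rw [Set.indicator_indicator, Set.inter_comm]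
  have h2 := (Equiv.dvd (primeIdeal v)).tsum_eq
    (fun J : {b // primeIdeal v ∣ b} => (coprimeSet S).indicator (g : (Ideal R)⁰ → 𝕜) J)
  have h3 : ∑' I, (coprimeSet S ∩ {I | primeIdeal v ∣ I}).indicator g I =
      ∑' J : {b // primeIdeal v ∣ b}, (coprimeSet S).indicator (g : (Ideal R)⁰ → 𝕜) J := by
    rw [h1]
    exact (tsum_subtype ({I | primeIdeal v ∣ I} : Set ((Ideal R)⁰)) _).symm
  rw [h3, ← h2, ← tsum_mul_left]
  congr 1
  ext I
  rw [Equiv.dvd_apply]
  by_cases hI : I ∈ coprimeSet S
  · rw [Set.indicator_of_mem hI, Set.indicator_of_mem ((mem_coprimeSet_mul_iff hv I).mpr hI),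
      map_mul]
  · rw [Set.indicator_of_notMem hI,
      Set.indicator_of_notMem (fun h => hI ((mem_coprimeSet_mul_iff hv I).mp h)), mul_zero]

theorem sieve_step [DecidableEq (HeightOneSpectrum R)] (g : (Ideal R)⁰ →* 𝕜)
    (hg : Summable (fun I => g I))
    (S : Finset (HeightOneSpectrum R)) (v : HeightOneSpectrum R) (hv : v ∉ S) :
    ∑' I, (coprimeSet (insert v S)).indicator g I =
      (1 - g (primeIdeal v)) * ∑' I, (coprimeSet S).indicator g I := by
  have hsplit : ∀ I, (coprimeSet S).indicator (g : (Ideal R)⁰ → 𝕜) I =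
      (coprimeSet (insert v S)).indicator g I +
        (coprimeSet S ∩ {I | primeIdeal v ∣ I}).indicator g I := by
    intro I
    rw [coprimeSet_insert]
    by_cases h1 : I ∈ coprimeSet S
    · by_cases h2 : primeIdeal v ∣ I
      · have hm : I ∈ coprimeSet S ∩ {I | primeIdeal v ∣ I} := Set.mem_inter h1 h2
        have hm' : I ∉ coprimeSet S \ {I | primeIdeal v ∣ I} := fun h => h.2 h2
        rw [Set.indicator_of_mem h1, Set.indicator_of_notMem hm',
          Set.indicator_of_mem hm, zero_add]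
      · have hm : I ∈ coprimeSet S \ {I | primeIdeal v ∣ I} := Set.mem_sdiff_of_mem h1 h2
        have hm' : I ∉ coprimeSet S ∩ {I | primeIdeal v ∣ I} := fun h => h2 h.2
        rw [Set.indicator_of_mem h1, Set.indicator_of_mem hm,
          Set.indicator_of_notMem hm', add_zero]
    · have hm : I ∉ coprimeSet S \ {I | primeIdeal v ∣ I} := fun h => h1 h.1
      have hm' : I ∉ coprimeSet S ∩ {I | primeIdeal v ∣ I} := fun h => h1 h.1
      rw [Set.indicator_of_notMem h1, Set.indicator_of_notMem hm,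
        Set.indicator_of_notMem hm', add_zero]
  have hs1 : Summable ((coprimeSet (insert v S)).indicator (g : (Ideal R)⁰ → 𝕜)) :=
    hg.indicator _
  have hs2 : Summable ((coprimeSet S ∩ {I | primeIdeal v ∣ I}).indicator
      (g : (Ideal R)⁰ → 𝕜)) := hg.indicator _
  have h3 : ∑' I, (coprimeSet S).indicator g I =
      ∑' I, (coprimeSet (insert v S)).indicator g I +
        ∑' I, (coprimeSet S ∩ {I | primeIdeal v ∣ I}).indicator g I := by
    rw [← hs1.tsum_add hs2]
    exact tsum_congr hsplit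
  rw [tsum_indicator_dvd g S v hv] at h3
  linear_combination (-1 : 𝕜) * h3

theorem sieve [DecidableEq (HeightOneSpectrum R)] (g : (Ideal R)⁰ →* 𝕜)
    (hg : Summable (fun I => g I)) (S : Finset (HeightOneSpectrum R)) :
    ∑' I, (coprimeSet S).indicator g I = (∏ v ∈ S, (1 - g (primeIdeal v))) * ∑' I, g I := by
  induction S using Finset.induction_on with
  | empty =>
    have : coprimeSet (∅ : Finset (HeightOneSpectrum R)) = Set.univ := by
      ext I; simp [coprimeSet]
    simp [this]
  | insert v S hv ih =>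
    rw [sieve_step g hg S v hv, ih, Finset.prod_insert hv, mul_assoc]

theorem one_mem_coprimeSet (S : Finset (HeightOneSpectrum R)) :
    (1 : (Ideal R)⁰) ∈ coprimeSet S := by
  intro v _ h
  rw [primeIdeal_dvd_iff] at h
  have h1 : ((1 : (Ideal R)⁰) : Ideal R) = ⊤ := by simp
  rw [h1] at h
  exact v.isPrime.ne_top (top_le_iff.mp h)

theorem tendsto_sieve (g : (Ideal R)⁰ →* 𝕜) (hg : Summable (fun I => ‖g I‖)) :
    Filter.Tendsto (fun S : Finset (HeightOneSpectrum R) =>
      ∑' I, (coprimeSet S).indicator g I) Filter.atTop (nhds 1) := by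
  classical
  have key := tendsto_tsum_of_dominated_convergence (𝓕 := Filter.atTop)
    (f := fun (S : Finset (HeightOneSpectrum R)) (I : (Ideal R)⁰) =>
      (coprimeSet S).indicator (g : (Ideal R)⁰ → 𝕜) I)
    (g := fun I : (Ideal R)⁰ => ({1} : Set ((Ideal R)⁰)).indicator (g : (Ideal R)⁰ → 𝕜) I)
    (bound := fun I => ‖g I‖) hg ?_ ?_
  · have h1 : ∑' I : (Ideal R)⁰, ({1} : Set ((Ideal R)⁰)).indicator (g : (Ideal R)⁰ → 𝕜) I = 1 := by
      rw [← tsum_subtype, tsum_singleton (1 : (Ideal R)⁰) (g : (Ideal R)⁰ → 𝕜), map_one]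
    rw [h1] at key
    exact key
  · intro I
    by_cases hI : I = 1
    · subst hI
      have : ∀ S : Finset (HeightOneSpectrum R),
          (coprimeSet S).indicator (g : (Ideal R)⁰ → 𝕜) 1 =
            ({1} : Set ((Ideal R)⁰)).indicator (g : (Ideal R)⁰ → 𝕜) 1 := by
        intro S
        rw [Set.indicator_of_mem (one_mem_coprimeSet S), Set.indicator_of_mem (Set.mem_singleton _)]
      simp only [this]
      exact tendsto_const_nhds
    · obtain ⟨v, hv⟩ := exists_primeIdeal_dvd I hI
      have h0 : ({1} : Set ((Ideal R)⁰)).indicator (g : (Ideal R)⁰ → 𝕜) I = 0 :=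
        Set.indicator_of_notMem (by simpa using hI) _
      rw [h0]
      apply tendsto_const_nhds.congr'
      filter_upwards [Filter.eventually_ge_atTop ({v} : Finset (HeightOneSpectrum R))] with S hS
      have hvS : v ∈ S := hS (Finset.mem_singleton_self v)
      have hnot : I ∉ coprimeSet S := fun h => h v hvS hv
      exact (Set.indicator_of_notMem hnot _).symm
  · refine Filter.Eventually.of_forall fun S I => ?_
    by_cases hI : I ∈ coprimeSet S
    · rw [Set.indicator_of_mem hI]
    · rw [Set.indicator_of_notMem hI, norm_zero]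
      exact norm_nonneg _

end tsum

end Sieve

end Fermat.Agent.S14.Analytic.Sieve
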