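import Mathlib

set_option autoImplicit false

open scoped NumberField nonZeroDivisors
open IsDedekindDomain NumberField Ideal Filter Topology

/-!
# The Dedekind zeta function as a real series over nonzero ideals

`zetaR F s = ∑' I : (Ideal (𝓞 F))⁰, N(I)^(-s)`; summability for `s > 1`, equality with Mathlib's
`dedekindZeta`, and `(s - 1) * zetaR F s → residue > 0` as `s → 1⁺`.
-/

namespace Fermat.Agent.S14.Analytic.ZetaIdeal

variable (F : Type*) [Field F] [NumberField F]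

/-- `N(I)^(-s)` as a monoid hom on nonzero ideals. -/
noncomputable def normPow (s : ℝ) : (Ideal (𝓞 F))⁰ →* ℝ where
  toFun I := ((absNorm (I : Ideal (𝓞 F)) : ℕ) : ℝ) ^ (-s)
  map_one' := by simp
  map_mul' I J := by
    simp only [Submonoid.coe_mul, map_mul, Nat.cast_mul]
    exact Real.mul_rpow (Nat.cast_nonneg _) (Nat.cast_nonneg _)

theorem normPow_apply (s : ℝ) (I : (Ideal (𝓞 F))⁰) :
    normPow F s I = ((absNorm (I : Ideal (𝓞 F)) : ℕ) : ℝ) ^ (-s) := rfl

theorem normPow_nonneg (s : ℝ) (I : (Ideal (𝓞 F))⁰) : 0 ≤ normPow F s I :=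
  Real.rpow_nonneg (Nat.cast_nonneg _) _

/-- The Dedekind zeta function as a real series over the nonzero ideals. -/
noncomputable def zetaR (s : ℝ) : ℝ := ∑' I : (Ideal (𝓞 F))⁰, normPow F s I

theorem absNorm_ne_zero' (I : (Ideal (𝓞 F))⁰) : absNorm (I : Ideal (𝓞 F)) ≠ 0 :=
  absNorm_ne_zero_of_nonZeroDivisors I

/-- partial sums of the ideal-counting function (copied from Mathlib's proof of the residue). -/
theorem tendsto_partial :
    Tendsto (fun n : ℕ ↦ (∑ k ∈ Finset.Icc 1 n,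
      (Nat.card {I : Ideal (𝓞 F) // absNorm I = k} : ℝ)) / (n : ℝ)) atTop
      (𝓝 (dedekindZeta_residue F)) := by
  refine ((Ideal.tendsto_norm_le_div_atTop₀ F).comp tendsto_natCast_atTop_atTop).congr fun n ↦ ?_
  simp only [Function.comp_apply, Nat.cast_le, ← Nat.cast_sum]
  congr
  rw [← add_left_inj 1, ← card_norm_le_eq_card_norm_le_add_one,
    show Finset.Icc 1 n = Finset.Ioc 0 n from Finset.Icc_succ_left_eq_Ioc _ _,
    show 1 = Nat.card {I : Ideal (𝓞 F) // absNorm I = 0} by simp [Ideal.absNorm_eq_zero_iff],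
    Finset.sum_Ioc_add_eq_sum_Icc (n.zero_le),
    ← Finset.card_preimage_eq_sum_card_image_eq (fun k _ ↦ finite_setOfPred_absNorm_eq k)]
  simp [Set.coe_eq_subtype]

theorem lseriesSummable {s : ℝ} (hs : 1 < s) :
    LSeriesSummable (fun n ↦ ((Nat.card {I : Ideal (𝓞 F) // absNorm I = n} : ℝ) : ℂ)) (s : ℂ) := by
  refine LSeriesSummable_of_sum_norm_bigO_and_nonneg ?_ (fun _ ↦ Nat.cast_nonneg _) zero_le_one
    (by simpa using hs)
  exact Asymptotics.isBigO_atTop_natCast_rpow_of_tendsto_div_rpow (by simpa using tendsto_partial F)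

/-- The fibre of the norm map on nonzero ideals. -/
abbrev Fiber (n : ℕ) : Type _ := {I : (Ideal (𝓞 F))⁰ // absNorm (I : Ideal (𝓞 F)) = n}

instance finite_fiber (n : ℕ) : Finite (Fiber F n) := by
  have h : Finite {I : Ideal (𝓞 F) // absNorm I = n} :=
    (finite_setOfPred_absNorm_eq (S := 𝓞 F) n).to_subtype
  refine Finite.of_injective
    (fun I : Fiber F n => (⟨I.1.1, I.2⟩ : {I : Ideal (𝓞 F) // absNorm I = n})) ?_
  intro a b hab
  apply Subtype.ext
  apply Subtype.ext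
  simpa using congrArg Subtype.val hab

theorem fiber_zero_isEmpty : IsEmpty (Fiber F 0) :=
  ⟨fun I => absNorm_ne_zero' F I.1 I.2⟩

theorem card_fiber (n : ℕ) (hn : n ≠ 0) :
    Nat.card (Fiber F n) = Nat.card {I : Ideal (𝓞 F) // absNorm I = n} := by
  refine Nat.card_congr
    { toFun := fun I => ⟨I.1.1, I.2⟩
      invFun := fun I => ⟨⟨I.1, mem_nonZeroDivisors_of_ne_zero (fun h => hn ?_)⟩, I.2⟩
      left_inv := fun I => rfl
      right_inv := fun I => rfl }
  rw [← I.2, h]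
  simp

/-- the `n`-th term of the real Dirichlet series -/
theorem term_eq {s : ℝ} (n : ℕ) :
    LSeries.term (fun n ↦ ((Nat.card {I : Ideal (𝓞 F) // absNorm I = n} : ℝ) : ℂ)) (s : ℂ) n =
      (((Nat.card (Fiber F n) : ℝ) * (n : ℝ) ^ (-s) : ℝ) : ℂ) := by
  rcases eq_or_ne n 0 with rfl | hn
  · have := fiber_zero_isEmpty F
    simp
  · rw [LSeries.term_of_ne_zero hn, card_fiber F n hn, Complex.ofReal_mul,
      Complex.ofReal_cpow (Nat.cast_nonneg n), Complex.ofReal_neg, Complex.cpow_neg,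
      div_eq_mul_inv]
    simp

theorem summable_sigma {s : ℝ} (hs : 1 < s) :
    Summable (fun x : Σ n : ℕ, Fiber F n => ((x.1 : ℕ) : ℝ) ^ (-s)) := by
  rw [summable_sigma_of_nonneg (fun x => Real.rpow_nonneg (Nat.cast_nonneg _) _)]
  refine ⟨fun n => Summable.of_finite, ?_⟩
  have h1 := (lseriesSummable F hs).norm
  refine h1.congr fun n => ?_
  rw [term_eq, Complex.norm_real, Real.norm_of_nonneg
    (mul_nonneg (Nat.cast_nonneg _) (Real.rpow_nonneg (Nat.cast_nonneg _) _))]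
  show _ = ∑' _ : Fiber F n, ((n : ℕ) : ℝ) ^ (-s)
  rw [tsum_const, nsmul_eq_mul]

theorem summable_normPow {s : ℝ} (hs : 1 < s) : Summable (normPow F s) := by
  have h := summable_sigma F hs
  rw [← (Equiv.sigmaFiberEquiv (fun I : (Ideal (𝓞 F))⁰ => absNorm (I : Ideal (𝓞 F)))).summable_iff]
  refine h.congr fun x => ?_
  simp only [Function.comp_apply, Equiv.sigmaFiberEquiv_apply, normPow_apply]
  rw [x.2.2]

theorem zetaR_eq {s : ℝ} (hs : 1 < s) : ((zetaR F s : ℝ) : ℂ) = dedekindZeta F s := by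
  have h1 : zetaR F s = ∑' x : Σ n : ℕ, Fiber F n, ((x.1 : ℕ) : ℝ) ^ (-s) := by
    unfold zetaR
    rw [← (Equiv.sigmaFiberEquiv
      (fun I : (Ideal (𝓞 F))⁰ => absNorm (I : Ideal (𝓞 F)))).tsum_eq]
    refine tsum_congr fun x => ?_
    simp only [Equiv.sigmaFiberEquiv_apply, normPow_apply]
    rw [x.2.2]
  have h2 : (∑' x : Σ n : ℕ, Fiber F n, ((x.1 : ℕ) : ℝ) ^ (-s)) =
      ∑' n : ℕ, (Nat.card (Fiber F n) : ℝ) * (n : ℝ) ^ (-s) := by
    rw [(summable_sigma F hs).tsum_sigma' (fun n => Summable.of_finite)]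
    refine tsum_congr fun n => ?_
    show ∑' _ : Fiber F n, ((n : ℕ) : ℝ) ^ (-s) = _
    rw [tsum_const, nsmul_eq_mul]
  rw [h1, h2, Complex.ofReal_tsum]
  unfold dedekindZeta LSeries
  refine tsum_congr fun n => ?_
  rw [← term_eq]
  simp

theorem tendsto_zetaR :
    Tendsto (fun s : ℝ => (s - 1) * zetaR F s) (𝓝[>] 1) (𝓝 (dedekindZeta_residue F)) := by
  have h := tendsto_sub_one_mul_dedekindZeta_nhdsGT F
  have h2 := (Complex.continuous_re.tendsto _).comp h
  simp only [Complex.ofReal_re] at h2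
  refine h2.congr' ?_
  filter_upwards [self_mem_nhdsWithin] with s hs
  have hs' : 1 < s := hs
  simp only [Function.comp_apply]
  rw [← zetaR_eq F hs', ← Complex.ofReal_one, ← Complex.ofReal_sub, ← Complex.ofReal_mul,
    Complex.ofReal_re]

theorem zetaR_bounds : ∃ c C δ : ℝ, 0 < c ∧ 0 < δ ∧ ∀ s : ℝ, 1 < s → s < 1 + δ →
    c ≤ (s - 1) * zetaR F s ∧ (s - 1) * zetaR F s ≤ C := by
  have hκ := dedekindZeta_residue_pos F
  have h := tendsto_zetaR F
  have h1 : ∀ᶠ s in 𝓝[>] (1 : ℝ), (s - 1) * zetaR F s ∈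
      Set.Ioo (dedekindZeta_residue F / 2) (2 * dedekindZeta_residue F) :=
    h (Ioo_mem_nhds (by linarith) (by linarith))
  rw [eventually_nhdsWithin_iff, Metric.eventually_nhds_iff] at h1
  obtain ⟨δ, hδ, h2⟩ := h1
  refine ⟨dedekindZeta_residue F / 2, 2 * dedekindZeta_residue F, δ, by linarith, hδ, ?_⟩
  intro s hs1 hs2
  have h3 := h2 (y := s) (by rw [Real.dist_eq, abs_lt]; constructor <;> linarith) hs1
  exact ⟨h3.1.le, h3.2.le⟩

theorem one_le_zetaR {s : ℝ} (hs : 1 < s) : 1 ≤ zetaR F s := by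
  have h := (summable_normPow F hs).le_tsum (1 : (Ideal (𝓞 F))⁰)
    (fun I _ => normPow_nonneg F s I)
  rw [map_one] at h
  exact h

end Fermat.Agent.S14.Analytic.ZetaIdeal
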