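import Fermat.Agent.S14.Defs
import Fermat.Agent.S14.Analytic.Sieve
import Fermat.Agent.S14.Analytic.ZetaIdeal
import Fermat.Agent.S14.Analytic.PrimeSums

set_option autoImplicit false

open scoped NumberField nonZeroDivisors
open IsDedekindDomain NumberField Ideal Filter Topology
open Fermat.Agent.S14.Defs Fermat.Agent.S14.Analytic.Sieve Fermat.Agent.S14.Analytic.ZetaIdeal

/-!
# The analytic endgame of S14 (package N5), log-free

`endgame`: a nonzero `φ : Cl(K) → 𝔽_p` (`p ≥ 3`) cannot have all its primes with `φ([v]) ≠ 0`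
(up to a controlled set) splitting into `p` primes of the same norm in a number field `M`,
provided the partial zeta functions of the ideal classes differ by bounded functions on `(1,2]`.

Proof: with `χ_j = e(j φ)`, the sieve identity for the `p` twisted functions and
`∏_j (1 - χ_j(v) x) = (1-x)^p` or `1 - x^p` give
`ζ_K(s)^(p-1) ≤ D ζ_M(s)` on `(1,2]`, contradicting the simple poles at `s = 1`.
-/

namespace Fermat.Agent.S14.Analytic.Endgame

section roots

theorem prod_range_one_sub_pow_mul {n : ℕ} (hn : 0 < n) {ζ : ℂ} (hζ : IsPrimitiveRoot ζ n)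
    (x : ℂ) : ∏ i ∈ Finset.range n, (1 - ζ ^ i * x) = 1 - x ^ n := by
  rcases eq_or_ne x 0 with rfl | hx
  · simp [hn.ne']
  have h := X_pow_sub_C_eq_prod hζ hn (one_pow n)
  apply_fun Polynomial.eval x⁻¹ at h
  simp only [Polynomial.eval_sub, Polynomial.eval_pow, Polynomial.eval_X, Polynomial.eval_C,
    Polynomial.eval_prod, mul_one] at h
  have h2 : ∏ i ∈ Finset.range n, (1 - ζ ^ i * x) =
      x ^ n * ∏ i ∈ Finset.range n, (x⁻¹ - ζ ^ i) := by
    have : x ^ n = ∏ _i ∈ Finset.range n, x := by simp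
    rw [this, ← Finset.prod_mul_distrib]
    refine Finset.prod_congr rfl fun i _ => ?_
    field_simp
  rw [h2, ← h, mul_sub, mul_one, ← mul_pow, mul_inv_cancel₀ hx, one_pow]

variable {p : ℕ} [Fact p.Prime]

theorem stdAddChar_one_isPrimitiveRoot :
    IsPrimitiveRoot (ZMod.stdAddChar (N := p) 1) p := by
  have hp : p.Prime := Fact.out
  rw [IsPrimitiveRoot.iff_orderOf]
  refine orderOf_eq_prime ?_ ?_
  · rw [← AddChar.map_nsmul_eq_pow]
    simp
  · intro h
    have h0 : (ZMod.stdAddChar (N := p)) 1 = (ZMod.stdAddChar (N := p)) 0 := by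
      rw [h, AddChar.map_zero_eq_one]
    have := ZMod.injective_stdAddChar (N := p) h0
    exact one_ne_zero this

theorem prod_zmod_one_sub (x : ℂ) :
    ∏ k : ZMod p, (1 - ZMod.stdAddChar k * x) = 1 - x ^ p := by
  have hp : p.Prime := Fact.out
  rw [← prod_range_one_sub_pow_mul hp.pos (stdAddChar_one_isPrimitiveRoot (p := p)) x]
  refine Finset.prod_nbij' (fun k => k.val) (fun i => (i : ZMod p)) ?_ ?_ ?_ ?_ ?_
  · intro k _
    exact Finset.mem_range.mpr (ZMod.val_lt k)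
  · intro i _
    exact Finset.mem_univ _
  · intro k _
    exact ZMod.natCast_zmod_val k
  · intro i hi
    exact ZMod.val_natCast_of_lt (Finset.mem_range.mp hi)
  · intro k _
    rw [← AddChar.map_nsmul_eq_pow]
    simp

theorem prod_zmod_one_sub_mul (a : ZMod p) (x : ℂ) :
    ∏ j : ZMod p, (1 - ZMod.stdAddChar (j * a) * x) =
      if a = 0 then (1 - x) ^ p else 1 - x ^ p := by
  split_ifs with ha
  · subst ha
    simp
  · rw [← prod_zmod_one_sub (p := p) x]
    exact Fintype.prod_bijective (fun j : ZMod p => j * a) (mulRight_bijective₀ a ha) _ _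
      (fun j => rfl)

end roots

section twist

variable {p : ℕ} [Fact p.Prime] {K : Type*} [Field K] [NumberField K]
variable (φ : Additive (ClassGroup (𝓞 K)) →+ ZMod p)

/-- The class character `I ↦ e(j φ([I]))` on nonzero ideals. -/
noncomputable def chi (j : ZMod p) : (Ideal (𝓞 K))⁰ →* ℂ where
  toFun I := ZMod.stdAddChar (j * φ (Additive.ofMul (ClassGroup.mk0 I)))
  map_one' := by simp
  map_mul' I J := by
    rw [_root_.map_mul ClassGroup.mk0 I J, ofMul_mul, φ.map_add, mul_add,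
      AddChar.map_add_eq_mul]

theorem chi_apply (j : ZMod p) (I : (Ideal (𝓞 K))⁰) :
    chi φ j I = ZMod.stdAddChar (j * φ (Additive.ofMul (ClassGroup.mk0 I))) := rfl

theorem norm_stdAddChar (a : ZMod p) : ‖(ZMod.stdAddChar a : ℂ)‖ = 1 := by
  rw [ZMod.stdAddChar_apply]
  exact Circle.norm_coe _

theorem norm_chi (j : ZMod p) (I : (Ideal (𝓞 K))⁰) : ‖chi φ j I‖ = 1 :=
  norm_stdAddChar _

/-- The twisted multiplicative function `I ↦ e(j φ([I])) N(I)^(-s)`. -/
noncomputable def gfun (j : ZMod p) (s : ℝ) : (Ideal (𝓞 K))⁰ →* ℂ :=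
  chi φ j * (Complex.ofRealHom : ℝ →+* ℂ).toMonoidHom.comp (normPow K s)

theorem gfun_apply (j : ZMod p) (s : ℝ) (I : (Ideal (𝓞 K))⁰) :
    gfun φ j s I = chi φ j I * ((normPow K s I : ℝ) : ℂ) := rfl

theorem norm_gfun (j : ZMod p) (s : ℝ) (I : (Ideal (𝓞 K))⁰) :
    ‖gfun φ j s I‖ = normPow K s I := by
  rw [gfun_apply, norm_mul, norm_chi, one_mul, Complex.norm_real,
    Real.norm_of_nonneg (normPow_nonneg K s I)]

theorem summable_norm_gfun (j : ZMod p) {s : ℝ} (hs : 1 < s) :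
    Summable (fun I => ‖gfun φ j s I‖) := by
  simp only [norm_gfun]
  exact summable_normPow K hs

theorem summable_gfun (j : ZMod p) {s : ℝ} (hs : 1 < s) :
    Summable (fun I => gfun φ j s I) :=
  (summable_norm_gfun φ j hs).of_norm

/-- The value of the class `L`-series. -/
noncomputable def Lval (j : ZMod p) (s : ℝ) : ℂ := ∑' I, gfun φ j s I

theorem Lval_zero (s : ℝ) : Lval φ 0 s = ((zetaR K s : ℝ) : ℂ) := by
  unfold Lval zetaR
  rw [Complex.ofReal_tsum]
  refine tsum_congr fun I => ?_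
  rw [gfun_apply, chi_apply, zero_mul, AddChar.map_zero_eq_one, one_mul]

/-- The partial zeta function of an ideal class. -/
noncomputable def classZeta (K : Type*) [Field K] [NumberField K] (C : ClassGroup (𝓞 K))
    (s : ℝ) : ℝ :=
  ∑' I : {I : (Ideal (𝓞 K))⁰ // ClassGroup.mk0 I = C},
    ((absNorm (I.1 : Ideal (𝓞 K)) : ℕ) : ℝ) ^ (-s)

theorem Lval_eq_sum_class (j : ZMod p) {s : ℝ} (hs : 1 < s) :
    Lval φ j s = ∑ C : ClassGroup (𝓞 K),
      ZMod.stdAddChar (j * φ (Additive.ofMul C)) * ((classZeta K C s : ℝ) : ℂ) := by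
  have hsum := summable_gfun φ j hs
  have e1 : ∑' I, gfun φ j s I = ∑' x : Σ C : ClassGroup (𝓞 K),
      {I : (Ideal (𝓞 K))⁰ // ClassGroup.mk0 I = C}, gfun φ j s x.2.1 :=
    ((Equiv.sigmaFiberEquiv (fun I : (Ideal (𝓞 K))⁰ => ClassGroup.mk0 I)).tsum_eq
      (fun I => gfun φ j s I)).symm
  have hsum' : Summable (fun x : Σ C : ClassGroup (𝓞 K),
      {I : (Ideal (𝓞 K))⁰ // ClassGroup.mk0 I = C} => gfun φ j s x.2.1) :=
    ((Equiv.sigmaFiberEquiv (fun I : (Ideal (𝓞 K))⁰ => ClassGroup.mk0 I)).summable_iff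
      (f := fun I => gfun φ j s I)).mpr hsum
  have e2 : (∑' x : Σ C : ClassGroup (𝓞 K),
      {I : (Ideal (𝓞 K))⁰ // ClassGroup.mk0 I = C}, gfun φ j s x.2.1) =
      ∑' C : ClassGroup (𝓞 K), ∑' c : {I : (Ideal (𝓞 K))⁰ // ClassGroup.mk0 I = C},
        gfun φ j s c.1 :=
    hsum'.tsum_sigma' (fun C => hsum.subtype _)
  unfold Lval
  rw [e1, e2, tsum_fintype]
  refine Finset.sum_congr rfl fun C _ => ?_
  have key : ∀ c : {I : (Ideal (𝓞 K))⁰ // ClassGroup.mk0 I = C}, gfun φ j s c.1 =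
      ZMod.stdAddChar (j * φ (Additive.ofMul C)) *
        ((((absNorm (c.1 : Ideal (𝓞 K)) : ℕ) : ℝ) ^ (-s) : ℝ) : ℂ) := by
    intro c
    rw [gfun_apply, chi_apply, c.2, normPow_apply]
  rw [tsum_congr key, tsum_mul_left]
  congr 1
  unfold classZeta
  rw [Complex.ofReal_tsum]

theorem sum_stdAddChar_eq_zero (hφ : φ ≠ 0) (j : ZMod p) (hj : j ≠ 0) :
    ∑ C : ClassGroup (𝓞 K), (ZMod.stdAddChar (j * φ (Additive.ofMul C)) : ℂ) = 0 := by
  let ψ : AddChar (Additive (ClassGroup (𝓞 K))) ℂ :=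
    (ZMod.stdAddChar (N := p)).compAddMonoidHom ((AddMonoidHom.mulLeft j).comp φ)
  have hψ : ψ ≠ 1 := by
    obtain ⟨C₀, hC₀⟩ : ∃ C₀, φ C₀ ≠ 0 := by
      by_contra h
      push Not at h
      exact hφ (AddMonoidHom.ext h)
    rw [AddChar.ne_one_iff]
    refine ⟨C₀, fun h => ?_⟩
    have h0 : (ZMod.stdAddChar (N := p)) (j * φ C₀) = (ZMod.stdAddChar (N := p)) 0 := by
      rw [AddChar.map_zero_eq_one]
      exact h
    have := ZMod.injective_stdAddChar (N := p) h0
    exact (mul_ne_zero hj hC₀) this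
  have h := AddChar.sum_eq_zero_of_ne_one hψ
  rw [← h]
  exact Fintype.sum_equiv Additive.ofMul _ _ (fun C => rfl)

theorem norm_Lval_le (hφ : φ ≠ 0)
    (hA3 : ∀ C C' : ClassGroup (𝓞 K), ∃ B : ℝ, ∀ s : ℝ, 1 < s → s ≤ 2 →
      |classZeta K C s - classZeta K C' s| ≤ B) :
    ∃ B : ℝ, ∀ j : ZMod p, j ≠ 0 → ∀ s : ℝ, 1 < s → s ≤ 2 → ‖Lval φ j s‖ ≤ B := by
  choose B hB using fun C => hA3 C 1
  refine ⟨∑ C, B C, fun j hj s hs hs2 => ?_⟩
  rw [Lval_eq_sum_class φ j hs]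
  have h0 : ∑ C : ClassGroup (𝓞 K),
      (ZMod.stdAddChar (j * φ (Additive.ofMul C)) : ℂ) * ((classZeta K 1 s : ℝ) : ℂ) = 0 := by
    rw [← Finset.sum_mul, sum_stdAddChar_eq_zero φ hφ j hj, zero_mul]
  have h1 : ∑ C : ClassGroup (𝓞 K),
      (ZMod.stdAddChar (j * φ (Additive.ofMul C)) : ℂ) * ((classZeta K C s : ℝ) : ℂ) =
      ∑ C : ClassGroup (𝓞 K), (ZMod.stdAddChar (j * φ (Additive.ofMul C)) : ℂ) *
        (((classZeta K C s - classZeta K 1 s : ℝ)) : ℂ) := by
    rw [← sub_zero (∑ C : ClassGroup (𝓞 K),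
      (ZMod.stdAddChar (j * φ (Additive.ofMul C)) : ℂ) * ((classZeta K C s : ℝ) : ℂ)), ← h0,
      ← Finset.sum_sub_distrib]
    refine Finset.sum_congr rfl fun C _ => ?_
    push_cast
    ring
  rw [h1]
  refine (norm_sum_le _ _).trans (Finset.sum_le_sum fun C _ => ?_)
  rw [norm_mul, norm_stdAddChar, one_mul, Complex.norm_real, Real.norm_eq_abs]
  exact hB C s hs hs2

end twist

section real

variable (F : Type*) [Field F] [NumberField F]

/-- `x_v = N(v)^(-s)`. -/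
noncomputable def xv (s : ℝ) (v : HeightOneSpectrum (𝓞 F)) : ℝ :=
  ((absNorm v.asIdeal : ℕ) : ℝ) ^ (-s)

theorem normPow_primeIdeal (s : ℝ) (v : HeightOneSpectrum (𝓞 F)) :
    normPow F s (primeIdeal v) = xv F s v := rfl

theorem two_le_absNorm (v : HeightOneSpectrum (𝓞 F)) : 2 ≤ absNorm v.asIdeal := by
  have h0 : absNorm v.asIdeal ≠ 0 := by
    rw [Ne, Ideal.absNorm_eq_zero_iff]
    exact v.ne_bot
  have h1 : absNorm v.asIdeal ≠ 1 := by
    rw [Ne, Ideal.absNorm_eq_one_iff]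
    exact v.isPrime.ne_top
  omega

theorem xv_pos (s : ℝ) (v : HeightOneSpectrum (𝓞 F)) : 0 < xv F s v := by
  have h := two_le_absNorm F v
  exact Real.rpow_pos_of_pos (by exact_mod_cast (by omega : 0 < absNorm v.asIdeal)) _

theorem xv_le_half {s : ℝ} (hs : 1 ≤ s) (v : HeightOneSpectrum (𝓞 F)) : xv F s v ≤ 1 / 2 := by
  have h := two_le_absNorm F v
  have h2 : (2 : ℝ) ≤ ((absNorm v.asIdeal : ℕ) : ℝ) := by exact_mod_cast h
  unfold xv
  rw [Real.rpow_neg (by linarith), one_div]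
  have h3 : ((absNorm v.asIdeal : ℕ) : ℝ) ^ (1 : ℝ) ≤ ((absNorm v.asIdeal : ℕ) : ℝ) ^ s :=
    Real.rpow_le_rpow_of_exponent_le (by linarith) hs
  rw [Real.rpow_one] at h3
  exact inv_anti₀ (by norm_num) (le_trans h2 h3)

theorem sieveR {s : ℝ} (hs : 1 < s) (S : Finset (HeightOneSpectrum (𝓞 F))) :
    ∑' I, (coprimeSet S).indicator (normPow F s) I =
      (∏ v ∈ S, (1 - xv F s v)) * zetaR F s := by
  classical
  exact sieve (normPow F s) (summable_normPow F hs) S

theorem one_le_sieveR {s : ℝ} (hs : 1 < s) (S : Finset (HeightOneSpectrum (𝓞 F))) :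
    1 ≤ (∏ v ∈ S, (1 - xv F s v)) * zetaR F s := by
  rw [← sieveR F hs S]
  have hsum : Summable ((coprimeSet S).indicator (normPow F s)) :=
    (summable_normPow F hs).indicator _
  have h := hsum.le_tsum (1 : (Ideal (𝓞 F))⁰)
    (fun I _ => Set.indicator_nonneg (fun I _ => normPow_nonneg F s I) I)
  rw [Set.indicator_of_mem (one_mem_coprimeSet S), map_one] at h
  exact h

theorem tendsto_sieveR {s : ℝ} (hs : 1 < s) :
    Tendsto (fun S : Finset (HeightOneSpectrum (𝓞 F)) =>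
      (∏ v ∈ S, (1 - xv F s v)) * zetaR F s) atTop (𝓝 1) := by
  have h := tendsto_sieve (normPow F s) (by
    simpa [Real.norm_of_nonneg (normPow_nonneg F s _)] using summable_normPow F hs)
  refine h.congr fun S => sieveR F hs S

end real

section main

variable {p : ℕ} [Fact p.Prime] {K : Type*} [Field K] [NumberField K]
variable (φ : Additive (ClassGroup (𝓞 K)) →+ ZMod p)

theorem gfun_primeIdeal (j : ZMod p) (s : ℝ) (v : HeightOneSpectrum (𝓞 K)) :
    gfun φ j s (primeIdeal v) =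
      ZMod.stdAddChar (j * φ (Additive.ofMul (cls v))) * ((xv K s v : ℝ) : ℂ) := rfl

/-- The product over all characters of the Euler factor at `v`. -/
theorem prod_euler_factor (s : ℝ) (v : HeightOneSpectrum (𝓞 K)) :
    ∏ j : ZMod p, (1 - gfun φ j s (primeIdeal v)) =
      if φ (Additive.ofMul (cls v)) = 0 then (((1 - xv K s v) ^ p : ℝ) : ℂ)
      else (((1 - xv K s v ^ p : ℝ)) : ℂ) := by
  simp only [gfun_primeIdeal]
  rw [prod_zmod_one_sub_mul]
  split_ifs <;> push_cast <;> rfl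

theorem norm_prod_euler_factor_le {s : ℝ} (hs : 1 ≤ s) (v : HeightOneSpectrum (𝓞 K)) :
    ‖∏ j : ZMod p, (1 - gfun φ j s (primeIdeal v))‖ ≤
      if φ (Additive.ofMul (cls v)) = 0 then (1 - xv K s v) ^ p else 1 := by
  have hx0 := xv_pos K s v
  have hx1 := xv_le_half K hs v
  rw [prod_euler_factor]
  split_ifs with h
  · rw [Complex.norm_real, Real.norm_of_nonneg (pow_nonneg (by linarith) _)]
  · rw [Complex.norm_real, Real.norm_eq_abs, abs_le]
    have h1 : 0 ≤ xv K s v ^ p := pow_nonneg hx0.le _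
    have h2 : xv K s v ^ p ≤ 1 := pow_le_one₀ hx0.le (by linarith)
    constructor <;> linarith

/-- The sieved sums for all characters. -/
theorem prod_sieve_eq {s : ℝ} (hs : 1 < s) (S : Finset (HeightOneSpectrum (𝓞 K))) :
    ∏ j : ZMod p, (∑' I, (coprimeSet S).indicator (gfun φ j s) I) =
      (∏ v ∈ S, ∏ j : ZMod p, (1 - gfun φ j s (primeIdeal v))) * ∏ j : ZMod p, Lval φ j s := by
  classical
  have h1 : ∀ j : ZMod p, (∑' I, (coprimeSet S).indicator (gfun φ j s) I) =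
      (∏ v ∈ S, (1 - gfun φ j s (primeIdeal v))) * Lval φ j s :=
    fun j => sieve (gfun φ j s) (summable_gfun φ j hs) S
  rw [Finset.prod_congr rfl (fun j _ => h1 j), Finset.prod_mul_distrib, Finset.prod_comm]

theorem exp_neg_two_mul_le {x : ℝ} (h0 : 0 ≤ x) (h1 : x ≤ 1 / 2) :
    Real.exp (-(2 * x)) ≤ 1 - x := by
  have hE : 2 * x + 1 ≤ Real.exp (2 * x) := Real.add_one_le_exp _
  have hEpos : 0 < Real.exp (2 * x) := Real.exp_pos _
  have he : Real.exp (-(2 * x)) * Real.exp (2 * x) = 1 := by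
    rw [← Real.exp_add]; simp
  have h2 : 1 ≤ (1 - x) * Real.exp (2 * x) := by
    have : (1 - x) * (2 * x + 1) ≤ (1 - x) * Real.exp (2 * x) :=
      mul_le_mul_of_nonneg_left hE (by linarith)
    nlinarith
  by_contra hcon
  push Not at hcon
  have : (1 - x) * Real.exp (2 * x) < Real.exp (-(2 * x)) * Real.exp (2 * x) :=
    mul_lt_mul_of_pos_right hcon hEpos
  linarith

/-- The contribution of the controlled primes. -/
theorem prod_bad_ge {s : ℝ} (hs : 1 ≤ s) (T : Finset (HeightOneSpectrum (𝓞 K))) {Cb : ℝ}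
    (hT : ∑ v ∈ T, xv K s v ≤ Cb) :
    Real.exp (-(2 * p * Cb)) ≤ (∏ v ∈ T, (1 - xv K s v)) ^ p := by
  have h1 : Real.exp (-(2 * Cb)) ≤ ∏ v ∈ T, (1 - xv K s v) := by
    calc Real.exp (-(2 * Cb)) ≤ Real.exp (∑ v ∈ T, -(2 * xv K s v)) := by
          apply Real.exp_le_exp.mpr
          rw [Finset.sum_neg_distrib, ← Finset.mul_sum]
          linarith
      _ = ∏ v ∈ T, Real.exp (-(2 * xv K s v)) := Real.exp_sum _ _
      _ ≤ ∏ v ∈ T, (1 - xv K s v) :=
          Finset.prod_le_prod (fun v _ => (Real.exp_pos _).le)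
            (fun v _ => exp_neg_two_mul_le (xv_pos K s v).le (xv_le_half K hs v))
  calc Real.exp (-(2 * p * Cb)) = Real.exp (-(2 * Cb)) ^ p := by
        rw [← Real.exp_nat_mul]; ring_nf
    _ ≤ (∏ v ∈ T, (1 - xv K s v)) ^ p := pow_le_pow_left₀ (Real.exp_pos _).le h1 p

/-- The contribution of the primes splitting in `M`. -/
theorem prod_good_mul_zeta_ge {M : Type*} [Field M] [NumberField M] {s : ℝ} (hs : 1 < s)
    (T : Finset (HeightOneSpectrum (𝓞 K))) (T' : Finset (HeightOneSpectrum (𝓞 M)))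
    (hT' : ∀ f : ℕ → ℝ, ∑ w ∈ T', f (absNorm w.asIdeal) = p * ∑ v ∈ T, f (absNorm v.asIdeal)) :
    1 ≤ (∏ v ∈ T, (1 - xv K s v)) ^ p * zetaR M s := by
  have h1 := one_le_sieveR M hs T'
  have h2 : ∏ w ∈ T', (1 - xv M s w) = (∏ v ∈ T, (1 - xv K s v)) ^ p := by
    have hf := hT' (fun n => Real.log (1 - ((n : ℕ) : ℝ) ^ (-s)))
    have hposM : ∀ w ∈ T', 0 < 1 - xv M s w := fun w _ => by
      have := xv_le_half M hs.le w; linarith
    have hposK : ∀ v ∈ T, 0 < 1 - xv K s v := fun v _ => by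
      have := xv_le_half K hs.le v; linarith
    calc ∏ w ∈ T', (1 - xv M s w) = ∏ w ∈ T', Real.exp (Real.log (1 - xv M s w)) :=
          Finset.prod_congr rfl (fun w hw => (Real.exp_log (hposM w hw)).symm)
      _ = Real.exp (∑ w ∈ T', Real.log (1 - xv M s w)) := (Real.exp_sum _ _).symm
      _ = Real.exp (p * ∑ v ∈ T, Real.log (1 - xv K s v)) := by
          congr 1
      _ = Real.exp (∑ v ∈ T, Real.log (1 - xv K s v)) ^ p := Real.exp_nat_mul _ _
      _ = (∏ v ∈ T, Real.exp (Real.log (1 - xv K s v))) ^ p := by rw [Real.exp_sum]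
      _ = (∏ v ∈ T, (1 - xv K s v)) ^ p := by
          congr 1
          exact Finset.prod_congr rfl (fun v hv => Real.exp_log (hposK v hv))
  rw [h2] at h1
  exact h1

/-- The key inequality for a fixed `s` and a finite set `S` of primes. -/
theorem key_ineq {M : Type*} [Field M] [NumberField M]
    (good : HeightOneSpectrum (𝓞 K) → Prop)
    (hM : ∀ T : Finset (HeightOneSpectrum (𝓞 K)), (∀ v ∈ T, good v) →
      ∃ T' : Finset (HeightOneSpectrum (𝓞 M)), ∀ f : ℕ → ℝ,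
        ∑ w ∈ T', f (absNorm w.asIdeal) = p * ∑ v ∈ T, f (absNorm v.asIdeal))
    {Cb s : ℝ} (hs : 1 < s)
    (hbad : ∀ T : Finset (HeightOneSpectrum (𝓞 K)),
      (∀ v ∈ T, φ (Additive.ofMul (cls v)) ≠ 0 ∧ ¬ good v) → ∑ v ∈ T, xv K s v ≤ Cb)
    (S : Finset (HeightOneSpectrum (𝓞 K))) :
    (∏ j : ZMod p, ‖∑' I, (coprimeSet S).indicator (gfun φ j s) I‖) *
        Real.exp (-(2 * p * Cb)) * zetaR K s ^ p ≤
      ((∏ v ∈ S, (1 - xv K s v)) * zetaR K s) ^ p * (∏ j : ZMod p, ‖Lval φ j s‖) *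
        zetaR M s := by
  classical
  have ha0 : ∀ v : HeightOneSpectrum (𝓞 K), 0 ≤ 1 - xv K s v := fun v => by
    have := xv_le_half K hs.le v; linarith
  have hN : ∏ j : ZMod p, ‖∑' I, (coprimeSet S).indicator (gfun φ j s) I‖ =
      (∏ v ∈ S, ‖∏ j : ZMod p, (1 - gfun φ j s (primeIdeal v))‖) *
        ∏ j : ZMod p, ‖Lval φ j s‖ := by
    rw [← norm_prod, prod_sieve_eq φ hs S, norm_mul, norm_prod, norm_prod]
  have hP : ∏ v ∈ S, ‖∏ j : ZMod p, (1 - gfun φ j s (primeIdeal v))‖ ≤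
      ∏ v ∈ S.filter (fun v => φ (Additive.ofMul (cls v)) = 0), (1 - xv K s v) ^ p := by
    rw [Finset.prod_filter]
    exact Finset.prod_le_prod (fun v _ => norm_nonneg _)
      (fun v _ => norm_prod_euler_factor_le φ hs.le v)
  have hsplit1 : (∏ v ∈ S.filter (fun v => φ (Additive.ofMul (cls v)) = 0),
      (1 - xv K s v) ^ p) *
      (∏ v ∈ S.filter (fun v => ¬ φ (Additive.ofMul (cls v)) = 0), (1 - xv K s v) ^ p) =
      (∏ v ∈ S, (1 - xv K s v)) ^ p := by
    rw [Finset.prod_filter_mul_prod_filter_not, Finset.prod_pow]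
  have hsplit2 : (∏ v ∈ (S.filter (fun v => ¬ φ (Additive.ofMul (cls v)) = 0)).filter good,
      (1 - xv K s v)) ^ p *
      (∏ v ∈ (S.filter (fun v => ¬ φ (Additive.ofMul (cls v)) = 0)).filter (fun v => ¬ good v),
        (1 - xv K s v)) ^ p =
      ∏ v ∈ S.filter (fun v => ¬ φ (Additive.ofMul (cls v)) = 0), (1 - xv K s v) ^ p := by
    rw [← mul_pow, Finset.prod_filter_mul_prod_filter_not, Finset.prod_pow]
  obtain ⟨T', hT'⟩ := hM ((S.filter (fun v => ¬ φ (Additive.ofMul (cls v)) = 0)).filter good)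
    (fun v hv => (Finset.mem_filter.mp hv).2)
  have hg := prod_good_mul_zeta_ge (p := p) hs
    ((S.filter (fun v => ¬ φ (Additive.ofMul (cls v)) = 0)).filter good) T' hT'
  have hb := prod_bad_ge (p := p) hs.le
    ((S.filter (fun v => ¬ φ (Additive.ofMul (cls v)) = 0)).filter (fun v => ¬ good v))
    (hbad _ (fun v hv => ⟨(Finset.mem_filter.mp (Finset.mem_filter.mp hv).1).2,
      (Finset.mem_filter.mp hv).2⟩))
  set N := ∏ j : ZMod p, ‖∑' I, (coprimeSet S).indicator (gfun φ j s) I‖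
  set Λ := ∏ j : ZMod p, ‖Lval φ j s‖
  set P := ∏ v ∈ S, ‖∏ j : ZMod p, (1 - gfun φ j s (primeIdeal v))‖
  set A0 := ∏ v ∈ S.filter (fun v => φ (Additive.ofMul (cls v)) = 0), (1 - xv K s v) ^ p
  set G := (∏ v ∈ (S.filter (fun v => ¬ φ (Additive.ofMul (cls v)) = 0)).filter good,
      (1 - xv K s v)) ^ p
  set Bd := (∏ v ∈ (S.filter (fun v => ¬ φ (Additive.ofMul (cls v)) = 0)).filter
      (fun v => ¬ good v), (1 - xv K s v)) ^ p
  set E := Real.exp (-(2 * p * Cb))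
  have hΛ0 : 0 ≤ Λ := Finset.prod_nonneg (fun j _ => norm_nonneg _)
  have hA0 : 0 ≤ A0 := Finset.prod_nonneg (fun v _ => pow_nonneg (ha0 v) _)
  have hBd0 : 0 ≤ Bd := pow_nonneg (Finset.prod_nonneg (fun v _ => ha0 v)) _
  have hE0 : 0 ≤ E := (Real.exp_pos _).le
  have hζ0 : 0 ≤ zetaR K s ^ p := pow_nonneg (le_trans zero_le_one (one_le_zetaR K hs)) _
  have h1 : P * Λ * E ≤ A0 * Λ * Bd :=
    mul_le_mul (mul_le_mul_of_nonneg_right hP hΛ0) hb hE0 (mul_nonneg hA0 hΛ0)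
  calc N * E * zetaR K s ^ p = (P * Λ * E) * zetaR K s ^ p := by rw [hN]
    _ ≤ (A0 * Λ * Bd) * zetaR K s ^ p := mul_le_mul_of_nonneg_right h1 hζ0
    _ = (A0 * Λ * Bd * zetaR K s ^ p) * 1 := (mul_one _).symm
    _ ≤ (A0 * Λ * Bd * zetaR K s ^ p) * (G * zetaR M s) :=
        mul_le_mul_of_nonneg_left hg (mul_nonneg (mul_nonneg (mul_nonneg hA0 hΛ0) hBd0) hζ0)
    _ = ((∏ v ∈ S, (1 - xv K s v)) * zetaR K s) ^ p * Λ * zetaR M s := by
        rw [mul_pow, ← hsplit1, ← hsplit2]; ring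

/-- Uniform inequality between the zeta functions of `K` and `M`. -/
theorem zeta_ineq {M : Type*} [Field M] [NumberField M] (hφ : φ ≠ 0)
    (good : HeightOneSpectrum (𝓞 K) → Prop)
    (hM : ∀ T : Finset (HeightOneSpectrum (𝓞 K)), (∀ v ∈ T, good v) →
      ∃ T' : Finset (HeightOneSpectrum (𝓞 M)), ∀ f : ℕ → ℝ,
        ∑ w ∈ T', f (absNorm w.asIdeal) = p * ∑ v ∈ T, f (absNorm v.asIdeal))
    (hbad : ∃ Cb : ℝ, ∀ s : ℝ, 1 < s → s ≤ 2 → ∀ T : Finset (HeightOneSpectrum (𝓞 K)),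
      (∀ v ∈ T, φ (Additive.ofMul (cls v)) ≠ 0 ∧ ¬ good v) →
        ∑ v ∈ T, ((absNorm v.asIdeal : ℕ) : ℝ) ^ (-s) ≤ Cb)
    (hA3 : ∀ C C' : ClassGroup (𝓞 K), ∃ B : ℝ, ∀ s : ℝ, 1 < s → s ≤ 2 →
      |classZeta K C s - classZeta K C' s| ≤ B) :
    ∃ D : ℝ, 0 < D ∧ ∀ s : ℝ, 1 < s → s ≤ 2 → zetaR K s ^ (p - 1) ≤ D * zetaR M s := by
  classical
  have hp : p.Prime := Fact.out
  obtain ⟨Cb, hCb⟩ := hbad
  obtain ⟨B, hB⟩ := norm_Lval_le φ hφ hA3
  set B' := max B 1 with hB'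
  have hB'1 : 1 ≤ B' := le_max_right _ _
  have hE : 0 < Real.exp (-(2 * p * Cb)) := Real.exp_pos _
  refine ⟨2 ^ p * B' ^ (p - 1) / ((1 / 2) ^ p * Real.exp (-(2 * p * Cb))), by positivity, ?_⟩
  intro s hs hs2
  have hζK1 : 1 ≤ zetaR K s := one_le_zetaR K hs
  have hζK0 : 0 < zetaR K s := lt_of_lt_of_le zero_lt_one hζK1
  have hζM0 : 0 < zetaR M s := lt_of_lt_of_le zero_lt_one (one_le_zetaR M hs)
  -- choose `S`
  have hev1 : ∀ᶠ S : Finset (HeightOneSpectrum (𝓞 K)) in atTop,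
      ∀ j : ZMod p, 1 / 2 < ‖∑' I, (coprimeSet S).indicator (gfun φ j s) I‖ := by
    rw [Filter.eventually_all]
    intro j
    have h := tendsto_sieve (gfun φ j s) (summable_norm_gfun φ j hs)
    have h2 := (continuous_norm.tendsto _).comp h
    rw [norm_one] at h2
    exact h2.eventually_const_lt (by norm_num)
  have hev2 : ∀ᶠ S : Finset (HeightOneSpectrum (𝓞 K)) in atTop,
      (∏ v ∈ S, (1 - xv K s v)) * zetaR K s < 2 :=
    (tendsto_sieveR K hs).eventually_lt_const (by norm_num)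
  obtain ⟨S, hS1, hS2⟩ := (hev1.and hev2).exists
  have key := key_ineq φ good hM hs (hCb s hs hs2) S
  -- lower bound for the left-hand side
  have hN : (1 / 2 : ℝ) ^ p ≤
      ∏ j : ZMod p, ‖∑' I, (coprimeSet S).indicator (gfun φ j s) I‖ := by
    have : (1 / 2 : ℝ) ^ p = ∏ _j : ZMod p, (1 / 2 : ℝ) := by
      rw [Finset.prod_const, Finset.card_univ, ZMod.card]
    rw [this]
    exact Finset.prod_le_prod (fun j _ => by norm_num) (fun j _ => (hS1 j).le)
  -- upper bound for the right-hand side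
  have hZ : ((∏ v ∈ S, (1 - xv K s v)) * zetaR K s) ^ p ≤ 2 ^ p :=
    pow_le_pow_left₀ (le_trans zero_le_one (one_le_sieveR K hs S)) hS2.le p
  have hΛ : ∏ j : ZMod p, ‖Lval φ j s‖ ≤ zetaR K s * B' ^ (p - 1) := by
    rw [← Finset.mul_prod_erase Finset.univ _ (Finset.mem_univ (0 : ZMod p)), Lval_zero,
      Complex.norm_real, Real.norm_of_nonneg hζK0.le]
    refine mul_le_mul_of_nonneg_left ?_ hζK0.le
    have hc : (Finset.univ.erase (0 : ZMod p)).card = p - 1 := by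
      rw [Finset.card_erase_of_mem (Finset.mem_univ _), Finset.card_univ, ZMod.card]
    rw [← hc, ← Finset.prod_const]
    refine Finset.prod_le_prod (fun j _ => norm_nonneg _) (fun j hj => ?_)
    exact (hB j (Finset.ne_of_mem_erase hj) s hs hs2).trans (le_max_left _ _)
  have hΛ0 : 0 ≤ ∏ j : ZMod p, ‖Lval φ j s‖ := Finset.prod_nonneg (fun j _ => norm_nonneg _)
  have hchain : (1 / 2 : ℝ) ^ p * Real.exp (-(2 * p * Cb)) * zetaR K s ^ p ≤
      2 ^ p * (zetaR K s * B' ^ (p - 1)) * zetaR M s := by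
    calc (1 / 2 : ℝ) ^ p * Real.exp (-(2 * p * Cb)) * zetaR K s ^ p
        ≤ (∏ j : ZMod p, ‖∑' I, (coprimeSet S).indicator (gfun φ j s) I‖) *
            Real.exp (-(2 * p * Cb)) * zetaR K s ^ p := by
          gcongr
      _ ≤ ((∏ v ∈ S, (1 - xv K s v)) * zetaR K s) ^ p * (∏ j : ZMod p, ‖Lval φ j s‖) *
            zetaR M s := key
      _ ≤ 2 ^ p * (zetaR K s * B' ^ (p - 1)) * zetaR M s := by
          gcongr
  have hpow : zetaR K s ^ p = zetaR K s ^ (p - 1) * zetaR K s := by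
    rw [← pow_succ, Nat.sub_add_cancel hp.one_le]
  rw [hpow] at hchain
  have h3 : ((1 / 2 : ℝ) ^ p * Real.exp (-(2 * p * Cb)) * zetaR K s ^ (p - 1)) * zetaR K s ≤
      (2 ^ p * B' ^ (p - 1) * zetaR M s) * zetaR K s := by
    calc ((1 / 2 : ℝ) ^ p * Real.exp (-(2 * p * Cb)) * zetaR K s ^ (p - 1)) * zetaR K s
        = (1 / 2 : ℝ) ^ p * Real.exp (-(2 * p * Cb)) * (zetaR K s ^ (p - 1) * zetaR K s) := by
          ring
      _ ≤ 2 ^ p * (zetaR K s * B' ^ (p - 1)) * zetaR M s := hchain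
      _ = (2 ^ p * B' ^ (p - 1) * zetaR M s) * zetaR K s := by ring
  have h4 := le_of_mul_le_mul_right h3 hζK0
  rw [div_mul_eq_mul_div, le_div_iff₀ (by positivity)]
  calc zetaR K s ^ (p - 1) * ((1 / 2) ^ p * Real.exp (-(2 * p * Cb)))
      = (1 / 2 : ℝ) ^ p * Real.exp (-(2 * p * Cb)) * zetaR K s ^ (p - 1) := by ring
    _ ≤ 2 ^ p * B' ^ (p - 1) * zetaR M s := h4

/-- **The analytic endgame** (log-free). Let `φ` be a nonzero homomorphism `Cl(K) → 𝔽_p`, `p ≥ 3`.
Suppose that the primes `v` of `K` with `φ([v]) ≠ 0` are, up to a set of primes whose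
`∑ N v^(-s)` is bounded on `(1,2]`, `good`, and that every finite set of `good` primes has
`p` times as many primes of the same norms in a number field `M`.  If the partial zeta functions
of the ideal classes of `K` differ by bounded functions on `(1,2]`, we get a contradiction. -/
theorem endgame_core (hp3 : 3 ≤ p) {M : Type*} [Field M] [NumberField M] (hφ : φ ≠ 0)
    (good : HeightOneSpectrum (𝓞 K) → Prop)
    (hM : ∀ T : Finset (HeightOneSpectrum (𝓞 K)), (∀ v ∈ T, good v) →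
      ∃ T' : Finset (HeightOneSpectrum (𝓞 M)), ∀ f : ℕ → ℝ,
        ∑ w ∈ T', f (absNorm w.asIdeal) = p * ∑ v ∈ T, f (absNorm v.asIdeal))
    (hbad : ∃ Cb : ℝ, ∀ s : ℝ, 1 < s → s ≤ 2 → ∀ T : Finset (HeightOneSpectrum (𝓞 K)),
      (∀ v ∈ T, φ (Additive.ofMul (cls v)) ≠ 0 ∧ ¬ good v) →
        ∑ v ∈ T, ((absNorm v.asIdeal : ℕ) : ℝ) ^ (-s) ≤ Cb)
    (hA3 : ∀ C C' : ClassGroup (𝓞 K), ∃ B : ℝ, ∀ s : ℝ, 1 < s → s ≤ 2 →
      |classZeta K C s - classZeta K C' s| ≤ B) : False := by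
  obtain ⟨D, hD, hineq⟩ := zeta_ineq φ hφ good hM hbad hA3
  obtain ⟨cK, CK, δK, hcK, hδK, hK⟩ := zetaR_bounds K
  obtain ⟨cM, CM, δM, hcM, hδM, hMb⟩ := zetaR_bounds M
  have hCM : 0 < CM := by
    have := hMb (1 + δM / 2) (by linarith) (by linarith)
    linarith [this.1, this.2]
  have hL : 0 < cK ^ (p - 1) := pow_pos hcK _
  set t := min (min (1 / 2) (δK / 2)) (min (δM / 2) (cK ^ (p - 1) / (2 * D * CM))) with ht
  have ht0 : 0 < t := by
    rw [ht]
    refine lt_min (lt_min (by norm_num) (by linarith)) (lt_min (by linarith) (by positivity))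
  have ht1 : t ≤ 1 / 2 := (min_le_left _ _).trans (min_le_left _ _)
  have ht2 : t ≤ δK / 2 := (min_le_left _ _).trans (min_le_right _ _)
  have ht3 : t ≤ δM / 2 := (min_le_right _ _).trans (min_le_left _ _)
  have ht4 : t ≤ cK ^ (p - 1) / (2 * D * CM) := (min_le_right _ _).trans (min_le_right _ _)
  have h1 := hineq (1 + t) (by linarith) (by linarith)
  have hKs := (hK (1 + t) (by linarith) (by linarith)).1
  have hMs := (hMb (1 + t) (by linarith) (by linarith)).2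
  rw [add_sub_cancel_left] at hKs hMs
  have hζM0 : 0 ≤ zetaR M (1 + t) := le_trans zero_le_one (one_le_zetaR M (by linarith))
  have hpow : t ^ (p - 1) = t ^ (p - 2) * t := by
    rw [← pow_succ]
    congr 1
    omega
  have htp : t ^ (p - 2) ≤ t := pow_le_of_le_one ht0.le (by linarith) (by omega)
  have h2 : cK ^ (p - 1) ≤ D * CM * t := by
    calc cK ^ (p - 1) ≤ (t * zetaR K (1 + t)) ^ (p - 1) := pow_le_pow_left₀ hcK.le hKs _
      _ = t ^ (p - 1) * zetaR K (1 + t) ^ (p - 1) := mul_pow _ _ _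
      _ ≤ t ^ (p - 1) * (D * zetaR M (1 + t)) :=
          mul_le_mul_of_nonneg_left h1 (pow_nonneg ht0.le _)
      _ = D * (t * zetaR M (1 + t)) * t ^ (p - 2) := by rw [hpow]; ring
      _ ≤ D * CM * t ^ (p - 2) := by
          have : D * (t * zetaR M (1 + t)) ≤ D * CM := mul_le_mul_of_nonneg_left hMs hD.le
          exact mul_le_mul_of_nonneg_right this (pow_nonneg ht0.le _)
      _ ≤ D * CM * t := mul_le_mul_of_nonneg_left htp (by positivity)
  have h3 : D * CM * t ≤ cK ^ (p - 1) / 2 := by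
    have hDC : 0 < D * CM := by positivity
    calc D * CM * t ≤ D * CM * (cK ^ (p - 1) / (2 * D * CM)) :=
          mul_le_mul_of_nonneg_left ht4 hDC.le
      _ = cK ^ (p - 1) / 2 := by field_simp
  linarith

end main

/-- (G) The density endgame, in the interface frozen by the package captain (helper222):
if the partial zeta functions of `K` differ by `O(1)`, `φ` is a nonzero homomorphism
`Cl(K) → 𝔽_p` (`p ≥ 3`), and every prime `v ∉ T` of prime norm with `φ([v]) ≠ 0` has `p` primes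
of the same norm above it in `M`, we get a contradiction. -/
theorem endgame {p : ℕ} [Fact p.Prime] (hp : 3 ≤ p) {K M : Type} [Field K] [NumberField K]
    [Field M] [NumberField M] [Algebra K M]
    (hB : ∀ C C' : ClassGroup (𝓞 K), ∃ B : ℝ, ∀ s : ℝ, 1 < s → s ≤ 2 →
      |(∑' I : {I : (Ideal (𝓞 K))⁰ // ClassGroup.mk0 I = C},
          (Ideal.absNorm (I.1 : Ideal (𝓞 K)) : ℝ) ^ (-s))
        - (∑' I : {I : (Ideal (𝓞 K))⁰ // ClassGroup.mk0 I = C'},
          (Ideal.absNorm (I.1 : Ideal (𝓞 K)) : ℝ) ^ (-s))| ≤ B)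
    (φ : Additive (ClassGroup (𝓞 K)) →+ ZMod p) (hφ : φ ≠ 0)
    (T : Finset (HeightOneSpectrum (𝓞 K)))
    (H : ∀ v : HeightOneSpectrum (𝓞 K), v ∉ T → (Ideal.absNorm v.asIdeal).Prime →
      φ (Additive.ofMul (cls v)) ≠ 0 →
        ∃ S : Finset (HeightOneSpectrum (𝓞 M)), S.card = p ∧
          ∀ w ∈ S, Ideal.absNorm w.asIdeal = Ideal.absNorm v.asIdeal ∧
            w.asIdeal.comap (algebraMap (𝓞 K) (𝓞 M)) = v.asIdeal) : False := by
  classical
  let good : HeightOneSpectrum (𝓞 K) → Prop := fun v =>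
    ∃ S : Finset (HeightOneSpectrum (𝓞 M)), S.card = p ∧
      ∀ w ∈ S, Ideal.absNorm w.asIdeal = Ideal.absNorm v.asIdeal ∧
        w.asIdeal.comap (algebraMap (𝓞 K) (𝓞 M)) = v.asIdeal
  refine endgame_core φ hp (M := M) hφ good ?_ ?_ hB
  · -- the primes of `M` above a finite set of good primes
    intro T₀ hT₀
    choose! Sv hcard hSv using hT₀
    refine ⟨T₀.biUnion Sv, fun f => ?_⟩
    rw [Finset.sum_biUnion]
    · rw [Finset.mul_sum]
      refine Finset.sum_congr rfl fun v hv => ?_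
      rw [Finset.sum_congr rfl (fun w hw => by rw [(hSv v hv w hw).1]), Finset.sum_const,
        hcard v hv, nsmul_eq_mul]
    · intro v hv v' hv' hne
      rw [Function.onFun, Finset.disjoint_left]
      intro w hw hw'
      apply hne
      apply HeightOneSpectrum.ext
      rw [← (hSv v hv w hw).2, ← (hSv v' hv' w hw').2]
  · -- the exceptional primes: those of `T` and those of non-prime norm
    obtain ⟨C, hC⟩ := PrimeSums.nonprime_norm_bound K
    refine ⟨(T.card : ℝ) + C, fun s hs _ T₀ hT₀ => ?_⟩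
    have hsplit : ∑ v ∈ T₀, ((absNorm v.asIdeal : ℕ) : ℝ) ^ (-s) =
        ∑ v ∈ T₀.filter (fun v => v ∈ T), ((absNorm v.asIdeal : ℕ) : ℝ) ^ (-s) +
        ∑ v ∈ T₀.filter (fun v => ¬ v ∈ T), ((absNorm v.asIdeal : ℕ) : ℝ) ^ (-s) :=
      (Finset.sum_filter_add_sum_filter_not T₀ _ _).symm
    rw [hsplit]
    refine add_le_add ?_ ?_
    · calc ∑ v ∈ T₀.filter (fun v => v ∈ T), ((absNorm v.asIdeal : ℕ) : ℝ) ^ (-s)
          ≤ ∑ v ∈ T₀.filter (fun v => v ∈ T), (1 : ℝ) :=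
            Finset.sum_le_sum (fun v _ => (xv_le_half K hs.le v).trans (by norm_num))
        _ = ((T₀.filter (fun v => v ∈ T)).card : ℝ) := by simp
        _ ≤ (T.card : ℝ) := by
            exact_mod_cast Finset.card_le_card (fun v hv => (Finset.mem_filter.mp hv).2)
    · refine hC s hs _ (fun v hv => ?_)
      obtain ⟨hvT₀, hvT⟩ := Finset.mem_filter.mp hv
      intro hprime
      exact (hT₀ v hvT₀).2 (H v hvT hprime (hT₀ v hvT₀).1)

end Fermat.Agent.S14.Analytic.Endgame
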