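import Mathlib

set_option autoImplicit false

/-!
# Coset comparison for sums over a group and a finite-index subgroup

`coset_comparison`: if `H ≤ A` has finite index, `F s : A → V` is a family of summable functions,
pointwise bounded uniformly in the parameter `s`, and for every shift `r` the differences
`F s (x + r) - F s x` (`x ∈ H`) are dominated, for all but finitely many `x`, by a constant times
a fixed summable weight `w x`, then `∑ A, F s - [A : H] • ∑ H, F s` is bounded uniformly in `s`.

`lattice_coset_comparison`: the special case of a discrete subgroup `L` of a finite-dimensional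
real normed space, a finite-index subgroup `L' ≤ L` and the weight `‖x‖ ^ e`, `e < - rank L`.
-/

namespace Fermat.Agent.S14.Analytic.LatticeSum

section Abstract

variable {A : Type*} [AddCommGroup A]

/-- The bijection `(A ⧸ H) × H ≃ A`, `(q, h) ↦ q.out + h`. -/
noncomputable def cosetEquiv (H : AddSubgroup A) : (A ⧸ H) × H ≃ A where
  toFun p := Quotient.out p.1 + (p.2 : A)
  invFun a := ((a : A ⧸ H), ⟨-(Quotient.out (a : A ⧸ H)) + a, by
    rw [← QuotientAddGroup.eq]; exact QuotientAddGroup.out_eq' _⟩)
  left_inv := by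
    rintro ⟨q, h⟩
    have h1 : ((Quotient.out q + (h : A) : A) : A ⧸ H) = q := by
      rw [QuotientAddGroup.mk_add_of_mem _ h.2]
      exact QuotientAddGroup.out_eq' _
    ext
    · exact h1
    · simp only [h1]
      simp
  right_inv a := by simp

@[simp] lemma cosetEquiv_apply (H : AddSubgroup A) (p : (A ⧸ H) × H) :
    cosetEquiv H p = Quotient.out p.1 + (p.2 : A) := rfl

variable {V : Type*} [NormedAddCommGroup V] [CompleteSpace V]

/-- Summing over `A` is summing over cosets of `H`. -/
theorem tsum_eq_sum_cosets (H : AddSubgroup A) [Fintype (A ⧸ H)] (f : A → V) (hf : Summable f) :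
    ∑' a, f a = ∑ q : A ⧸ H, ∑' h : H, f (Quotient.out q + (h : A)) := by
  have hf' : Summable (fun p : (A ⧸ H) × H => f (cosetEquiv H p)) :=
    (cosetEquiv H).summable_iff.mpr hf
  rw [← (cosetEquiv H).tsum_eq f, hf'.tsum_prod, tsum_fintype]
  rfl

/-- Summability of the shifted function on the subgroup. -/
theorem summable_shift (H : AddSubgroup A) (f : A → V) (hf : Summable f) (r : A) :
    Summable fun h : H => f ((h : A) + r) := by
  have hinj : Function.Injective (fun h : H => (h : A) + r) := fun x y hxy =>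
    Subtype.ext (add_right_cancel hxy)
  exact hf.comp_injective hinj

/-- **Coset comparison** (abstract form). -/
theorem coset_comparison (H : AddSubgroup A) [H.FiniteIndex] {ι : Type*} (F : ι → A → V)
    (w : H → ℝ) (hw : Summable w) (hsum : ∀ s, Summable (F s))
    (hbdd : ∀ a, ∃ B : ℝ, ∀ s, ‖F s a‖ ≤ B)
    (hlip : ∀ r : A, ∃ C : ℝ, ∀ᶠ x : H in Filter.cofinite,
      ∀ s, ‖F s ((x : A) + r) - F s x‖ ≤ C * w x) :
    ∃ C : ℝ, ∀ s, ‖∑' a, F s a - H.index • ∑' h : H, F s h‖ ≤ C := by
  classical
  have : Fintype (A ⧸ H) := Fintype.ofFinite _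
  -- for each shift `r`, a summable majorant of the differences, uniform in `s`
  have key : ∀ r : A, ∃ D : ℝ, ∀ s,
      ‖∑' h : H, F s ((h : A) + r) - ∑' h : H, F s h‖ ≤ D := by
    intro r
    obtain ⟨C, hC⟩ := hlip r
    rw [Filter.eventually_cofinite] at hC
    choose B hB using hbdd
    set S : Finset H := hC.toFinset with hS
    let M : H → ℝ := fun x => if x ∈ S then B ((x : A) + r) + B x else C * w x
    have hM : Summable M := by
      have h1 : Summable (fun x : H => M x - C * w x) := by
        refine summable_of_ne_finset_zero (s := S) ?_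
        intro x hx
        simp [M, hx]
      have h2 := h1.add (hw.mul_left C)
      refine h2.congr ?_
      intro x
      ring
    have hle : ∀ s, ∀ x : H, ‖F s ((x : A) + r) - F s x‖ ≤ M x := by
      intro s x
      by_cases hx : x ∈ S
      · simp only [M, hx, if_true]
        exact (norm_sub_le _ _).trans (add_le_add (hB _ s) (hB _ s))
      · simp only [M, hx, if_false]
        have : x ∉ {x : H | ¬ ∀ s, ‖F s ((x : A) + r) - F s x‖ ≤ C * w x} := by
          simpa [hS] using hx
        simp only [Set.mem_ofPred_eq, not_not] at this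
        exact this s
    refine ⟨∑' x, M x, fun s => ?_⟩
    have hs1 : Summable fun h : H => F s ((h : A) + r) := summable_shift H (F s) (hsum s) r
    have hs2 : Summable fun h : H => F s h := (hsum s).subtype _
    rw [← hs1.tsum_sub hs2]
    exact tsum_of_norm_bounded hM.hasSum (hle s)
  choose D hD using key
  refine ⟨∑ q : A ⧸ H, D (Quotient.out q), fun s => ?_⟩
  have hidx : H.index = Fintype.card (A ⧸ H) := by
    rw [AddSubgroup.index, Nat.card_eq_fintype_card]
  have h1 : ∑' a, F s a = ∑ q : A ⧸ H, ∑' h : H, F s (Quotient.out q + (h : A)) :=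
    tsum_eq_sum_cosets H (F s) (hsum s)
  have h2 : H.index • ∑' h : H, F s h = ∑ _q : A ⧸ H, ∑' h : H, F s h := by
    rw [Finset.sum_const, Finset.card_univ, hidx]
  rw [h1, h2, ← Finset.sum_sub_distrib]
  refine (norm_sum_le _ _).trans (Finset.sum_le_sum fun q _ => ?_)
  have := hD (Quotient.out q) s
  simpa [add_comm] using this

end Abstract

section Lattice

variable {E : Type*} [NormedAddCommGroup E] [NormedSpace ℝ E] [FiniteDimensional ℝ E]

/-- A discrete subgroup of a finite-dimensional normed space has finitely many points in any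
ball. -/
theorem finite_lattice_inter_closedBall (L : Submodule ℤ E) [DiscreteTopology L] (R : ℝ) :
    (Metric.closedBall (0 : E) R ∩ (L : Set E)).Finite := by
  have hcl : IsClosed (X := E) L := @AddSubgroup.isClosed_of_discrete _ _ _ _ _
    L.toAddSubgroup (inferInstanceAs (DiscreteTopology L))
  exact Metric.finite_isBounded_inter_isClosed DiscreteTopology.isDiscrete
    Metric.isBounded_closedBall hcl

variable {V : Type*} [NormedAddCommGroup V] [CompleteSpace V]

/-- **Coset comparison for lattices.** `L` is a discrete subgroup of `E`, `L' ≤ L` has finite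
index, `F s : E → V` is summable on `L`, pointwise bounded uniformly in `s`, and for each
`r ∈ L` one has `‖F s (x + r) - F s x‖ ≤ C ‖x‖ ^ e` for `x ∈ L'`, `‖x‖ ≥ R` (with `e < - rank L`).
Then `∑ L, F s - [L : L'] • ∑ L', F s` is bounded uniformly in `s`. -/
theorem lattice_coset_comparison (L L' : Submodule ℤ E) [DiscreteTopology L] (hle : L' ≤ L)
    (hfin : L'.toAddSubgroup.relIndex L.toAddSubgroup ≠ 0)
    {ι : Type*} (F : ι → E → V) (e : ℝ) (he : e < -(Module.finrank ℤ L : ℝ))
    (hsum : ∀ s, Summable fun x : L => F s x)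
    (hbdd : ∀ x : L, ∃ B : ℝ, ∀ s, ‖F s x‖ ≤ B)
    (hlip : ∀ r : L, ∃ C R : ℝ, ∀ s, ∀ x : L', R ≤ ‖(x : E)‖ →
      ‖F s ((x : E) + r) - F s x‖ ≤ C * ‖(x : E)‖ ^ e) :
    ∃ C : ℝ, ∀ s, ‖∑' x : L, F s x -
      (L'.toAddSubgroup.relIndex L.toAddSubgroup) • ∑' x : L', F s x‖ ≤ C := by
  classical
  set H : AddSubgroup L.toAddSubgroup := L'.toAddSubgroup.addSubgroupOf L.toAddSubgroup with hH
  have : H.FiniteIndex := ⟨hfin⟩
  have hle' : L'.toAddSubgroup ≤ L.toAddSubgroup := hle
  -- the weight
  have hw : Summable (fun h : H => ‖((h : L.toAddSubgroup) : E)‖ ^ e) := by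
    have h0 : Summable fun z : L => ‖(z : E)‖ ^ e := ZLattice.summable_norm_rpow L e he
    exact h0.comp_injective (f := fun z : L => ‖(z : E)‖ ^ e)
      (i := fun h : H => (⟨((h : L.toAddSubgroup) : E), (h : L.toAddSubgroup).2⟩ : L))
      (fun x y hxy => by
        have : ((x : L.toAddSubgroup) : E) = ((y : L.toAddSubgroup) : E) := congrArg Subtype.val hxy
        exact Subtype.ext (Subtype.ext this))
  obtain ⟨C, hC⟩ := coset_comparison H (fun s (a : L.toAddSubgroup) => F s (a : E))
    (fun h : H => ‖((h : L.toAddSubgroup) : E)‖ ^ e) hw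
    (fun s => hsum s) (fun a => hbdd ⟨a.1, a.2⟩)
    (by
      intro r
      obtain ⟨C, R, hCR⟩ := hlip ⟨r.1, r.2⟩
      refine ⟨C, ?_⟩
      rw [Filter.eventually_cofinite]
      have hfinR := finite_lattice_inter_closedBall L R
      have hinj : Function.Injective (fun h : H => ((h : L.toAddSubgroup) : E)) :=
        fun x y hxy => Subtype.ext (Subtype.ext hxy)
      refine (hfinR.preimage hinj.injOn).subset ?_
      intro x hx
      simp only [Set.mem_ofPred_eq] at hx
      simp only [Set.mem_preimage, Set.mem_inter_iff, Metric.mem_closedBall, dist_zero_right,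
        SetLike.mem_coe]
      refine ⟨?_, (x : L.toAddSubgroup).2⟩
      by_contra hcon
      push Not at hcon
      apply hx
      intro s
      have hxL' : ((x : L.toAddSubgroup) : E) ∈ L' := AddSubgroup.mem_addSubgroupOf.mp x.2
      exact hCR s ⟨_, hxL'⟩ hcon.le)
  refine ⟨C, fun s => ?_⟩
  have h1 : ∑' h : H, F s ((h : L.toAddSubgroup) : E) = ∑' x : L', F s x := by
    let eqv : H ≃ L' := (AddSubgroup.addSubgroupOfEquivOfLe hle').toEquiv
    have := eqv.tsum_eq (fun x : L' => F s (x : E))
    rw [← this]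
    rfl
  have h2 := hC s
  rw [h1] at h2
  exact h2

/-- Real-valued form of `lattice_coset_comparison`. -/
theorem lattice_coset_comparison_real (L L' : Submodule ℤ E) [DiscreteTopology L] (hle : L' ≤ L)
    (hfin : L'.toAddSubgroup.relIndex L.toAddSubgroup ≠ 0)
    {ι : Type*} (F : ι → E → ℝ) (e : ℝ) (he : e < -(Module.finrank ℤ L : ℝ))
    (hsum : ∀ s, Summable fun x : L => F s x)
    (hbdd : ∀ x : L, ∃ B : ℝ, ∀ s, |F s x| ≤ B)
    (hlip : ∀ r : L, ∃ C R : ℝ, ∀ s, ∀ x : L', R ≤ ‖(x : E)‖ →
      |F s ((x : E) + r) - F s x| ≤ C * ‖(x : E)‖ ^ e) :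
    ∃ C : ℝ, ∀ s, |∑' x : L, F s x -
      (L'.toAddSubgroup.relIndex L.toAddSubgroup : ℝ) * ∑' x : L', F s x| ≤ C := by
  obtain ⟨C, hC⟩ := lattice_coset_comparison L L' hle hfin F e he hsum hbdd hlip
  refine ⟨C, fun s => ?_⟩
  have := hC s
  rwa [Real.norm_eq_abs, nsmul_eq_mul] at this

end Lattice

end Fermat.Agent.S14.Analytic.LatticeSum
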