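import Mathlib
import Fermat.Agent.S14.Analytic.LatticeSum
import Fermat.Agent.S14.Analytic.ZetaIdeal

set_option autoImplicit false

/-!
# Partial zeta functions of ideal classes differ by a bounded amount (package N3c of S14)

`classZeta K C s = ∑_{I ∈ C} N(I)^(-s)`.  Given a *kernel* `g s : mixedSpace K → ℝ`
(in practice `g s y = ρ y * |N y|^(-s)` with `ρ` a partition of unity for the action of the
units) satisfying

* (A0) `g s 0 = 0`,
* (A1) `0 ≤ g s y`,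
* (A2) unfolding: `∑_{u ∈ (𝓞 K)ˣ} g s (u • x) = |N x|^(-s)` for nonzero integers `x`,
* (A3) two-point estimate: `|g s (x + r) - g s x| ≤ C_r * w x` for all but finitely many
  integers `x`, with `w` a fixed summable weight on `𝓞 K`,

all for `s ∈ (1, 2]`, we prove `classZeta_sub_bounded`:
`|classZeta K C s - classZeta K C' s| ≤ B` for `s ∈ (1, 2]`, and the corollary
`exists_bound_of_sum_eq_zero` for class functions of sum zero (class-group characters).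
-/

open scoped NumberField nonZeroDivisors
open NumberField NumberField.mixedEmbedding Ideal

namespace Fermat.Agent.S14.Analytic.ClassBound

variable (K : Type*) [Field K] [NumberField K]

/-- The partial zeta function of an ideal class (real variable). -/
noncomputable def classZeta (C : ClassGroup (𝓞 K)) (s : ℝ) : ℝ :=
  ∑' I : {I : (Ideal (𝓞 K))⁰ // ClassGroup.mk0 I = C},
    ((absNorm (I : Ideal (𝓞 K)) : ℕ) : ℝ) ^ (-s)

variable {K}

theorem norm_mixedEmbedding_eq (x : 𝓞 K) :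
    mixedEmbedding.norm (mixedEmbedding K (x : K)) = ((absNorm (span {x}) : ℕ) : ℝ) := by
  rw [norm_eq_norm, absNorm_span_singleton, Nat.cast_natAbs, ← Algebra.coe_norm_int]
  push_cast
  rfl

theorem one_le_absNorm_span {x : 𝓞 K} (hx : x ≠ 0) :
    (1 : ℝ) ≤ ((absNorm (span {x}) : ℕ) : ℝ) := by
  have h : absNorm (span {x}) ≠ 0 := by
    rw [Ne, absNorm_eq_zero_iff, span_singleton_eq_bot]
    exact hx
  exact_mod_cast Nat.one_le_iff_ne_zero.mpr h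

theorem one_le_absNorm (I : (Ideal (𝓞 K))⁰) :
    (1 : ℝ) ≤ ((absNorm (I : Ideal (𝓞 K)) : ℕ) : ℝ) := by
  exact_mod_cast absNorm_pos_of_nonZeroDivisors I

/-! ### Reindexing an ideal class by principal ideals -/

/-- Ideals in the class `C` correspond to principal ideals divisible by `J`, where `J` is a fixed
ideal in the class `C⁻¹`. -/
noncomputable def classEquiv {C : ClassGroup (𝓞 K)} (J : (Ideal (𝓞 K))⁰)
    (hJ : ClassGroup.mk0 J = C⁻¹) :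
    {I : (Ideal (𝓞 K))⁰ // ClassGroup.mk0 I = C} ≃
      {I : (Ideal (𝓞 K))⁰ // J ∣ I ∧ Submodule.IsPrincipal (I : Ideal (𝓞 K))} :=
  ((Equiv.dvd J).subtypeEquiv (p := fun I ↦ ClassGroup.mk0 I = C)
    (q := fun I' : {a // J ∣ a} ↦
      Submodule.IsPrincipal ((I' : (Ideal (𝓞 K))⁰) : Ideal (𝓞 K))) (fun I ↦ by
      rw [← ClassGroup.mk0_eq_one_iff (SetLike.coe_mem _)]
      have h : (⟨((Equiv.dvd J I : (Ideal (𝓞 K))⁰) : Ideal (𝓞 K)), SetLike.coe_mem _⟩ :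
          (Ideal (𝓞 K))⁰) = J * I := by
        ext1
        simp [Equiv.dvd_apply]
      rw [h, map_mul, hJ, inv_mul_eq_one, eq_comm])).trans
    (Equiv.subtypeSubtypeEquivSubtypeInter (fun I : (Ideal (𝓞 K))⁰ ↦ J ∣ I)
      (fun I : (Ideal (𝓞 K))⁰ ↦ Submodule.IsPrincipal (I : Ideal (𝓞 K))))

theorem classEquiv_coe {C : ClassGroup (𝓞 K)} (J : (Ideal (𝓞 K))⁰)
    (hJ : ClassGroup.mk0 J = C⁻¹) (I : {I : (Ideal (𝓞 K))⁰ // ClassGroup.mk0 I = C}) :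
    ((classEquiv J hJ I : (Ideal (𝓞 K))⁰) : Ideal (𝓞 K)) =
      (J : Ideal (𝓞 K)) * ((I : (Ideal (𝓞 K))⁰) : Ideal (𝓞 K)) := by
  simp [classEquiv, Equiv.dvd_apply]

/-- The sum over the principal ideals divisible by `J`. -/
noncomputable def prinSum (J : (Ideal (𝓞 K))⁰) (s : ℝ) : ℝ :=
  ∑' I : {I : (Ideal (𝓞 K))⁰ // J ∣ I ∧ Submodule.IsPrincipal (I : Ideal (𝓞 K))},
    ((absNorm (I : Ideal (𝓞 K)) : ℕ) : ℝ) ^ (-s)

theorem classZeta_eq {C : ClassGroup (𝓞 K)} (J : (Ideal (𝓞 K))⁰)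
    (hJ : ClassGroup.mk0 J = C⁻¹) (s : ℝ) :
    classZeta K C s = ((absNorm (J : Ideal (𝓞 K)) : ℕ) : ℝ) ^ s * prinSum J s := by
  have hJpos : (0 : ℝ) < ((absNorm (J : Ideal (𝓞 K)) : ℕ) : ℝ) := by
    exact_mod_cast absNorm_pos_of_nonZeroDivisors J
  rw [classZeta, prinSum, ← tsum_mul_left, ← (classEquiv J hJ).tsum_eq]
  refine tsum_congr fun I ↦ ?_
  rw [classEquiv_coe, map_mul, Nat.cast_mul, Real.mul_rpow hJpos.le (Nat.cast_nonneg _),
    ← mul_assoc, ← Real.rpow_add hJpos, add_neg_cancel, Real.rpow_zero, one_mul]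

theorem summable_prin (J : (Ideal (𝓞 K))⁰) {s : ℝ} (hs : 1 < s) :
    Summable (fun I : {I : (Ideal (𝓞 K))⁰ // J ∣ I ∧
      Submodule.IsPrincipal (I : Ideal (𝓞 K))} ↦
        ((absNorm ((I : (Ideal (𝓞 K))⁰) : Ideal (𝓞 K)) : ℕ) : ℝ) ^ (-s)) :=
  (ZetaIdeal.summable_normPow K hs).subtype _

theorem classZeta_nonneg (C : ClassGroup (𝓞 K)) (s : ℝ) : 0 ≤ classZeta K C s :=
  tsum_nonneg fun _ ↦ Real.rpow_nonneg (Nat.cast_nonneg _) _

theorem summable_class (C : ClassGroup (𝓞 K)) {s : ℝ} (hs : 1 < s) :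
    Summable (fun I : {I : (Ideal (𝓞 K))⁰ // ClassGroup.mk0 I = C} ↦
      ((absNorm ((I : (Ideal (𝓞 K))⁰) : Ideal (𝓞 K)) : ℕ) : ℝ) ^ (-s)) :=
  (ZetaIdeal.summable_normPow K hs).subtype _

theorem classZeta_le_zetaR (C : ClassGroup (𝓞 K)) {s : ℝ} (hs : 1 < s) :
    classZeta K C s ≤ ZetaIdeal.zetaR K s :=
  tsum_comp_le_tsum_of_inj (ZetaIdeal.summable_normPow K hs)
    (fun I ↦ ZetaIdeal.normPow_nonneg K s I) Subtype.val_injective

/-! ### Orbit decomposition -/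

/-- The principal ideal generated by a nonzero element of `J`. -/
noncomputable def toPrin (J : (Ideal (𝓞 K))⁰)
    (x : {x : 𝓞 K // x ∈ (J : Ideal (𝓞 K)) ∧ x ≠ 0}) :
    {I : (Ideal (𝓞 K))⁰ // J ∣ I ∧ Submodule.IsPrincipal (I : Ideal (𝓞 K))} :=
  ⟨⟨span {(x : 𝓞 K)}, mem_nonZeroDivisors_of_ne_zero
      (by simpa [span_singleton_eq_bot] using x.2.2)⟩,
    by rw [nonZeroDivisors_dvd_iff_dvd_coe]; exact dvd_span_singleton.mpr x.2.1, ⟨⟨x, rfl⟩⟩⟩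

theorem toPrin_coe (J : (Ideal (𝓞 K))⁰)
    (x : {x : 𝓞 K // x ∈ (J : Ideal (𝓞 K)) ∧ x ≠ 0}) :
    ((toPrin J x : (Ideal (𝓞 K))⁰) : Ideal (𝓞 K)) = span {(x : 𝓞 K)} := rfl

omit [NumberField K] in
theorem mixedEmbedding_unit_mul (u : (𝓞 K)ˣ) (x : 𝓞 K) :
    mixedEmbedding K ((((u : 𝓞 K) * x : 𝓞 K)) : K) = u • mixedEmbedding K (x : K) := by
  rw [unitSMul_smul, ← map_mul]
  rfl

theorem hasSum_fiber {g : mixedSpace K → ℝ} {s : ℝ}
    (A2 : ∀ x : 𝓞 K, x ≠ 0 → HasSum (fun u : (𝓞 K)ˣ ↦ g (u • mixedEmbedding K (x : K)))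
      (mixedEmbedding.norm (mixedEmbedding K (x : K)) ^ (-s)))
    (J : (Ideal (𝓞 K))⁰)
    (I : {I : (Ideal (𝓞 K))⁰ // J ∣ I ∧ Submodule.IsPrincipal (I : Ideal (𝓞 K))}) :
    HasSum (fun x : {x : {x : 𝓞 K // x ∈ (J : Ideal (𝓞 K)) ∧ x ≠ 0} // toPrin J x = I} ↦
      g (mixedEmbedding K (((x : {x : 𝓞 K // x ∈ (J : Ideal (𝓞 K)) ∧ x ≠ 0}) : 𝓞 K) : K)))
      (((absNorm ((I : (Ideal (𝓞 K))⁰) : Ideal (𝓞 K)) : ℕ) : ℝ) ^ (-s)) := by
  obtain ⟨x₀, hx₀⟩ := I.2.2.principal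
  have hx₀' : ((I : (Ideal (𝓞 K))⁰) : Ideal (𝓞 K)) = span {x₀} := hx₀
  have hx₀0 : x₀ ≠ 0 := by
    rintro rfl
    have h0 : ((I : (Ideal (𝓞 K))⁰) : Ideal (𝓞 K)) = ⊥ := by
      rw [hx₀']; simp
    exact (nonZeroDivisors.coe_ne_zero (I : (Ideal (𝓞 K))⁰)) h0
  have hx₀J : x₀ ∈ (J : Ideal (𝓞 K)) := by
    have h := I.2.1
    rw [nonZeroDivisors_dvd_iff_dvd_coe, hx₀'] at h
    exact dvd_span_singleton.mp h
  let e : (𝓞 K)ˣ → {x : {x : 𝓞 K // x ∈ (J : Ideal (𝓞 K)) ∧ x ≠ 0} // toPrin J x = I} :=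
    fun u ↦ ⟨⟨(u : 𝓞 K) * x₀, Ideal.mul_mem_left _ _ hx₀J, mul_ne_zero u.ne_zero hx₀0⟩, by
      apply Subtype.ext
      apply Subtype.ext
      rw [toPrin_coe, hx₀', span_singleton_eq_span_singleton]
      exact (associated_unit_mul_left x₀ (u : 𝓞 K) u.isUnit)⟩
  have he : Function.Bijective e := by
    constructor
    · intro u v huv
      have h : (u : 𝓞 K) * x₀ = (v : 𝓞 K) * x₀ := congrArg (fun z ↦ ((z : {x : {x : 𝓞 K //
        x ∈ (J : Ideal (𝓞 K)) ∧ x ≠ 0} // toPrin J x = I}) : {x : 𝓞 K //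
        x ∈ (J : Ideal (𝓞 K)) ∧ x ≠ 0}).1) huv
      exact Units.ext (mul_right_cancel₀ hx₀0 h)
    · rintro ⟨⟨x, hxJ, hx0⟩, hx⟩
      have h1 : span {x} = span {x₀} := by
        rw [← hx₀', ← hx]
        rfl
      obtain ⟨u, hu⟩ := (span_singleton_eq_span_singleton.mp h1).symm
      refine ⟨u, ?_⟩
      apply Subtype.ext
      apply Subtype.ext
      show (u : 𝓞 K) * x₀ = x
      rw [mul_comm]; exact hu
  rw [← (Equiv.ofBijective e he).hasSum_iff]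
  have h3 : ((fun x : {x : {x : 𝓞 K // x ∈ (J : Ideal (𝓞 K)) ∧ x ≠ 0} // toPrin J x = I} ↦
      g (mixedEmbedding K (((x : {x : 𝓞 K // x ∈ (J : Ideal (𝓞 K)) ∧ x ≠ 0}) : 𝓞 K) : K))) ∘
      (Equiv.ofBijective e he)) = fun u : (𝓞 K)ˣ ↦ g (u • mixedEmbedding K (x₀ : K)) := by
    funext u
    show g (mixedEmbedding K ((((u : 𝓞 K) * x₀ : 𝓞 K)) : K)) = _
    rw [mixedEmbedding_unit_mul]
  rw [h3, hx₀', ← norm_mixedEmbedding_eq]
  exact A2 x₀ hx₀0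

/-- Orbit decomposition: the sum of the kernel over the nonzero elements of `J` is the sum of
`N(I)^(-s)` over the principal ideals `I` divisible by `J`. -/
theorem hasSum_nonzero {g : mixedSpace K → ℝ} {s : ℝ} (hs : 1 < s) (A1 : ∀ y, 0 ≤ g y)
    (A2 : ∀ x : 𝓞 K, x ≠ 0 → HasSum (fun u : (𝓞 K)ˣ ↦ g (u • mixedEmbedding K (x : K)))
      (mixedEmbedding.norm (mixedEmbedding K (x : K)) ^ (-s)))
    (J : (Ideal (𝓞 K))⁰) :
    HasSum (fun x : {x : 𝓞 K // x ∈ (J : Ideal (𝓞 K)) ∧ x ≠ 0} ↦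
      g (mixedEmbedding K ((x : 𝓞 K) : K))) (prinSum J s) := by
  rw [← (Equiv.sigmaFiberEquiv (toPrin J)).hasSum_iff]
  refine HasSum.sigma_of_hasSum (summable_prin J hs).hasSum (fun I ↦ hasSum_fiber A2 J I) ?_
  refine (summable_sigma_of_nonneg (fun x ↦ A1 _)).mpr ?_
  refine ⟨fun I ↦ (hasSum_fiber A2 J I).summable, ?_⟩
  refine (summable_prin J hs).congr fun I ↦ ?_
  exact (hasSum_fiber A2 J I).tsum_eq.symm

/-- The sum of the kernel over all elements of the ideal `J` (as an indicator sum). -/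
theorem hasSum_indicator {g : mixedSpace K → ℝ} {s : ℝ} (hs : 1 < s) (A0 : g 0 = 0)
    (A1 : ∀ y, 0 ≤ g y)
    (A2 : ∀ x : 𝓞 K, x ≠ 0 → HasSum (fun u : (𝓞 K)ˣ ↦ g (u • mixedEmbedding K (x : K)))
      (mixedEmbedding.norm (mixedEmbedding K (x : K)) ^ (-s)))
    (J : (Ideal (𝓞 K))⁰) :
    HasSum (((J : Ideal (𝓞 K)) : Set (𝓞 K)).indicator
      (fun x : 𝓞 K ↦ g (mixedEmbedding K (x : K)))) (prinSum J s) := by
  have h := hasSum_nonzero hs A1 A2 J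
  have h' : HasSum (({x : 𝓞 K | x ∈ (J : Ideal (𝓞 K)) ∧ x ≠ 0}).indicator
      (fun x : 𝓞 K ↦ g (mixedEmbedding K (x : K)))) (prinSum J s) :=
    hasSum_subtype_iff_indicator.mp h
  have heq : ({x : 𝓞 K | x ∈ (J : Ideal (𝓞 K)) ∧ x ≠ 0}).indicator
      (fun x : 𝓞 K ↦ g (mixedEmbedding K (x : K))) =
      (((J : Ideal (𝓞 K)) : Set (𝓞 K))).indicator
        (fun x : 𝓞 K ↦ g (mixedEmbedding K (x : K))) := by
    funext x
    by_cases hx : x = 0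
    · subst hx
      simp [Set.indicator, A0]
    · by_cases hxJ : x ∈ (J : Ideal (𝓞 K)) <;> simp [Set.indicator, hx, hxJ]
  rw [heq] at h'
  exact h'

theorem hasSum_ideal {g : mixedSpace K → ℝ} {s : ℝ} (hs : 1 < s) (A0 : g 0 = 0)
    (A1 : ∀ y, 0 ≤ g y)
    (A2 : ∀ x : 𝓞 K, x ≠ 0 → HasSum (fun u : (𝓞 K)ˣ ↦ g (u • mixedEmbedding K (x : K)))
      (mixedEmbedding.norm (mixedEmbedding K (x : K)) ^ (-s)))
    (J : (Ideal (𝓞 K))⁰) :
    HasSum (fun h : (J : Ideal (𝓞 K)).toAddSubgroup ↦ g (mixedEmbedding K ((h : 𝓞 K) : K)))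
      (prinSum J s) :=
  hasSum_subtype_iff_indicator.mpr (hasSum_indicator hs A0 A1 A2 J)

theorem summable_kernel {g : mixedSpace K → ℝ} {s : ℝ} (hs : 1 < s) (A0 : g 0 = 0)
    (A1 : ∀ y, 0 ≤ g y)
    (A2 : ∀ x : 𝓞 K, x ≠ 0 → HasSum (fun u : (𝓞 K)ˣ ↦ g (u • mixedEmbedding K (x : K)))
      (mixedEmbedding.norm (mixedEmbedding K (x : K)) ^ (-s))) :
    Summable (fun x : 𝓞 K ↦ g (mixedEmbedding K (x : K))) := by
  have h := hasSum_indicator hs A0 A1 A2 (1 : (Ideal (𝓞 K))⁰)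
  have h1 : (((1 : (Ideal (𝓞 K))⁰) : Ideal (𝓞 K)) : Set (𝓞 K)) = Set.univ := by
    ext x; simp
  rw [h1, Set.indicator_univ] at h
  exact h.summable

/-- The kernel is bounded by `1` at integral points. -/
theorem abs_kernel_le_one {g : mixedSpace K → ℝ} {s : ℝ} (hs : 1 < s) (A0 : g 0 = 0)
    (A1 : ∀ y, 0 ≤ g y)
    (A2 : ∀ x : 𝓞 K, x ≠ 0 → HasSum (fun u : (𝓞 K)ˣ ↦ g (u • mixedEmbedding K (x : K)))
      (mixedEmbedding.norm (mixedEmbedding K (x : K)) ^ (-s)))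
    (x : 𝓞 K) : |g (mixedEmbedding K (x : K))| ≤ 1 := by
  rw [abs_of_nonneg (A1 _)]
  by_cases hx : x = 0
  · subst hx
    simp [A0]
  · have h1 := le_hasSum (A2 x hx) 1 (fun u _ ↦ A1 _)
    rw [one_smul, norm_mixedEmbedding_eq] at h1
    exact h1.trans (Real.rpow_le_one_of_one_le_of_nonpos (one_le_absNorm_span hx) (by linarith))

/-! ### The weight and the index -/

open scoped Classical in
/-- A summable weight on `𝓞 K` (for the owners of the kernel: the two-point estimate is stated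
with this weight, or any other summable weight). -/
theorem summable_weight :
    Summable (fun x : 𝓞 K ↦ ‖mixedEmbedding K (x : K)‖ ^ (-((Module.finrank ℚ K : ℝ) + 1))) := by
  have hrank : Module.finrank ℤ (mixedEmbedding.integerLattice K) = Module.finrank ℚ K := by
    rw [ZLattice.rank ℝ (mixedEmbedding.integerLattice K), mixedEmbedding.finrank]
  have h0 : Summable fun z : mixedEmbedding.integerLattice K ↦
      ‖(z : mixedSpace K)‖ ^ (-((Module.finrank ℚ K : ℝ) + 1)) :=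
    ZLattice.summable_norm_rpow _ _ (by rw [hrank]; linarith)
  exact h0.comp_injective (i := fun x : 𝓞 K ↦
    (⟨mixedEmbedding K (x : K), ⟨x, rfl⟩⟩ : mixedEmbedding.integerLattice K))
    (fun x y hxy ↦ by
      have h : mixedEmbedding K (x : K) = mixedEmbedding K (y : K) := congrArg Subtype.val hxy
      exact RingOfIntegers.coe_injective (mixedEmbedding_injective K h))

theorem index_eq (J : (Ideal (𝓞 K))⁰) :
    (J : Ideal (𝓞 K)).toAddSubgroup.index = absNorm (J : Ideal (𝓞 K)) := by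
  rw [absNorm_apply, Submodule.cardQuot_apply]
  rfl

/-! ### Coset comparison and the main bound -/

/-- Coset comparison between `𝓞 K` and the ideal `J`, uniformly in `s ∈ (1, 2]`. -/
theorem exists_bound_ideal {g : ℝ → mixedSpace K → ℝ}
    (A0 : ∀ s : ℝ, 1 < s → s ≤ 2 → g s 0 = 0)
    (A1 : ∀ s : ℝ, 1 < s → s ≤ 2 → ∀ y, 0 ≤ g s y)
    (A2 : ∀ s : ℝ, 1 < s → s ≤ 2 → ∀ x : 𝓞 K, x ≠ 0 →
      HasSum (fun u : (𝓞 K)ˣ ↦ g s (u • mixedEmbedding K (x : K)))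
        (mixedEmbedding.norm (mixedEmbedding K (x : K)) ^ (-s)))
    {w : 𝓞 K → ℝ} (hw : Summable w)
    (A3 : ∀ r : 𝓞 K, ∃ C : ℝ, ∀ᶠ x : 𝓞 K in Filter.cofinite, ∀ s : ℝ, 1 < s → s ≤ 2 →
      |g s (mixedEmbedding K ((x + r : 𝓞 K) : K)) - g s (mixedEmbedding K (x : K))| ≤ C * w x)
    (J : (Ideal (𝓞 K))⁰) :
    ∃ B : ℝ, ∀ s : ℝ, 1 < s → s ≤ 2 →
      |∑' a : 𝓞 K, g s (mixedEmbedding K (a : K)) -
        ((absNorm (J : Ideal (𝓞 K)) : ℕ) : ℝ) * prinSum J s| ≤ B := by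
  have hfi : (J : Ideal (𝓞 K)).toAddSubgroup.FiniteIndex :=
    ⟨by rw [index_eq]; exact absNorm_ne_zero_of_nonZeroDivisors J⟩
  obtain ⟨B, hB⟩ := LatticeSum.coset_comparison (J : Ideal (𝓞 K)).toAddSubgroup
    (ι := {s : ℝ // 1 < s ∧ s ≤ 2}) (fun s a ↦ g (s : ℝ) (mixedEmbedding K (a : K)))
    (fun h ↦ w (h : 𝓞 K))
    (hw.comp_injective Subtype.val_injective)
    (fun s ↦ summable_kernel s.2.1 (A0 s s.2.1 s.2.2) (A1 s s.2.1 s.2.2) (A2 s s.2.1 s.2.2))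
    (fun a ↦ ⟨1, fun s ↦ by
      rw [Real.norm_eq_abs]
      exact abs_kernel_le_one s.2.1 (A0 s s.2.1 s.2.2) (A1 s s.2.1 s.2.2) (A2 s s.2.1 s.2.2) a⟩)
    (fun r ↦ by
      obtain ⟨C, hC⟩ := A3 r
      refine ⟨C, ?_⟩
      have h := (Subtype.val_injective (p := fun x : 𝓞 K ↦
        x ∈ (J : Ideal (𝓞 K)).toAddSubgroup)).tendsto_cofinite.eventually hC
      filter_upwards [h] with x hx s
      rw [Real.norm_eq_abs]
      exact hx (s : ℝ) s.2.1 s.2.2)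
  refine ⟨B, fun s hs1 hs2 ↦ ?_⟩
  have h := hB ⟨s, hs1, hs2⟩
  rw [Real.norm_eq_abs, nsmul_eq_mul, index_eq,
    (hasSum_ideal hs1 (A0 s hs1 hs2) (A1 s hs1 hs2) (A2 s hs1 hs2) J).tsum_eq] at h
  exact h

variable (K) in
/-- `(s - 1) ζ_K(s)` is bounded above on `(1, 2]`. -/
theorem exists_zeta_bound :
    ∃ C : ℝ, ∀ s : ℝ, 1 < s → s ≤ 2 → (s - 1) * ZetaIdeal.zetaR K s ≤ C := by
  obtain ⟨c, C, δ, hc, hδ, h⟩ := ZetaIdeal.zetaR_bounds K
  refine ⟨max C (ZetaIdeal.zetaR K (1 + δ / 2)), fun s hs1 hs2 ↦ ?_⟩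
  by_cases hs : s < 1 + δ
  · exact (h s hs1 hs).2.trans (le_max_left _ _)
  · have hs' : 1 + δ / 2 ≤ s := by linarith [not_lt.mp hs]
    have h1 : (1 : ℝ) < 1 + δ / 2 := by linarith
    have hmono : ZetaIdeal.zetaR K s ≤ ZetaIdeal.zetaR K (1 + δ / 2) := by
      refine Summable.tsum_le_tsum (fun I ↦ ?_) (ZetaIdeal.summable_normPow K hs1)
        (ZetaIdeal.summable_normPow K h1)
      rw [ZetaIdeal.normPow_apply, ZetaIdeal.normPow_apply]
      exact Real.rpow_le_rpow_of_exponent_le (one_le_absNorm I) (by linarith)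
    have h0 : 0 ≤ ZetaIdeal.zetaR K (1 + δ / 2) :=
      tsum_nonneg fun I ↦ ZetaIdeal.normPow_nonneg K _ I
    have h2 : 0 ≤ ZetaIdeal.zetaR K s := tsum_nonneg fun I ↦ ZetaIdeal.normPow_nonneg K _ I
    calc (s - 1) * ZetaIdeal.zetaR K s ≤ 1 * ZetaIdeal.zetaR K (1 + δ / 2) := by
          apply mul_le_mul _ hmono h2 zero_le_one
          linarith
      _ = ZetaIdeal.zetaR K (1 + δ / 2) := one_mul _
      _ ≤ _ := le_max_right _ _

/-- `0 ≤ (1 - N^(1-s)) ζ(s, C) ≤ log N * (s - 1) ζ_K(s)`. -/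
theorem one_sub_rpow_mul_le (C : ClassGroup (𝓞 K)) (J : (Ideal (𝓞 K))⁰) {s : ℝ} (hs : 1 < s) :
    |classZeta K C s - ((absNorm (J : Ideal (𝓞 K)) : ℕ) : ℝ) ^ (1 - s) * classZeta K C s| ≤
      Real.log ((absNorm (J : Ideal (𝓞 K)) : ℕ) : ℝ) * ((s - 1) * ZetaIdeal.zetaR K s) := by
  set N : ℝ := ((absNorm (J : Ideal (𝓞 K)) : ℕ) : ℝ) with hN
  have hN1 : 1 ≤ N := one_le_absNorm J
  have hNpos : 0 < N := by linarith
  have h1 : N ^ (1 - s) ≤ 1 := Real.rpow_le_one_of_one_le_of_nonpos hN1 (by linarith)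
  have h2 : 1 - N ^ (1 - s) ≤ Real.log N * (s - 1) := by
    rw [Real.rpow_def_of_pos hNpos]
    have := Real.add_one_le_exp (Real.log N * (1 - s))
    nlinarith
  have hlog : 0 ≤ Real.log N := Real.log_nonneg hN1
  have hz := classZeta_nonneg C s
  have hz' := classZeta_le_zetaR C hs
  have h3 : classZeta K C s - N ^ (1 - s) * classZeta K C s =
      (1 - N ^ (1 - s)) * classZeta K C s := by ring
  rw [h3, abs_of_nonneg (mul_nonneg (by linarith) hz)]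
  calc (1 - N ^ (1 - s)) * classZeta K C s ≤ (Real.log N * (s - 1)) * ZetaIdeal.zetaR K s := by
        apply mul_le_mul h2 hz' hz
        exact mul_nonneg hlog (by linarith)
    _ = _ := by ring

/-- **Main bound**: the partial zeta functions of two ideal classes differ by a bounded amount
on `(1, 2]`, given a kernel `g` for the unit action. -/
theorem classZeta_sub_bounded {g : ℝ → mixedSpace K → ℝ}
    (A0 : ∀ s : ℝ, 1 < s → s ≤ 2 → g s 0 = 0)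
    (A1 : ∀ s : ℝ, 1 < s → s ≤ 2 → ∀ y, 0 ≤ g s y)
    (A2 : ∀ s : ℝ, 1 < s → s ≤ 2 → ∀ x : 𝓞 K, x ≠ 0 →
      HasSum (fun u : (𝓞 K)ˣ ↦ g s (u • mixedEmbedding K (x : K)))
        (mixedEmbedding.norm (mixedEmbedding K (x : K)) ^ (-s)))
    {w : 𝓞 K → ℝ} (hw : Summable w)
    (A3 : ∀ r : 𝓞 K, ∃ C : ℝ, ∀ᶠ x : 𝓞 K in Filter.cofinite, ∀ s : ℝ, 1 < s → s ≤ 2 →
      |g s (mixedEmbedding K ((x + r : 𝓞 K) : K)) - g s (mixedEmbedding K (x : K))| ≤ C * w x)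
    (C C' : ClassGroup (𝓞 K)) :
    ∃ B : ℝ, ∀ s : ℝ, 1 < s → s ≤ 2 → |classZeta K C s - classZeta K C' s| ≤ B := by
  obtain ⟨J, hJ⟩ := ClassGroup.mk0_surjective C⁻¹
  obtain ⟨J', hJ'⟩ := ClassGroup.mk0_surjective C'⁻¹
  obtain ⟨B, hB⟩ := exists_bound_ideal A0 A1 A2 hw A3 J
  obtain ⟨B', hB'⟩ := exists_bound_ideal A0 A1 A2 hw A3 J'
  obtain ⟨Z, hZ⟩ := exists_zeta_bound K
  set N : ℝ := ((absNorm (J : Ideal (𝓞 K)) : ℕ) : ℝ) with hN
  set N' : ℝ := ((absNorm (J' : Ideal (𝓞 K)) : ℕ) : ℝ) with hN'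
  have hN1 : 1 ≤ N := one_le_absNorm J
  have hN1' : 1 ≤ N' := one_le_absNorm J'
  refine ⟨B + B' + Real.log N * Z + Real.log N' * Z, fun s hs1 hs2 ↦ ?_⟩
  have e1 : N * prinSum J s = N ^ (1 - s) * classZeta K C s := by
    rw [classZeta_eq J hJ s, ← mul_assoc, ← Real.rpow_add (by linarith)]
    simp
  have e2 : N' * prinSum J' s = N' ^ (1 - s) * classZeta K C' s := by
    rw [classZeta_eq J' hJ' s, ← mul_assoc, ← Real.rpow_add (by linarith)]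
    simp
  have b1 := hB s hs1 hs2
  have b2 := hB' s hs1 hs2
  rw [e1] at b1
  rw [e2] at b2
  have b3 := one_sub_rpow_mul_le C J hs1
  have b4 := one_sub_rpow_mul_le C' J' hs1
  have hz := hZ s hs1 hs2
  have b3' : |classZeta K C s - N ^ (1 - s) * classZeta K C s| ≤ Real.log N * Z :=
    b3.trans (mul_le_mul_of_nonneg_left hz (Real.log_nonneg hN1))
  have b4' : |classZeta K C' s - N' ^ (1 - s) * classZeta K C' s| ≤ Real.log N' * Z :=
    b4.trans (mul_le_mul_of_nonneg_left hz (Real.log_nonneg hN1'))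
  rw [abs_le] at b1 b2 b3' b4' ⊢
  constructor <;> linarith [b1.1, b1.2, b2.1, b2.2, b3'.1, b3'.2, b4'.1, b4'.2]

/-! ### Adapters for the hypotheses -/

/-- Kernel of the form `ρ y * |N y|^(-s)`: (A0), (A1), (A2) follow from `0 ≤ ρ` and
`∑_u ρ (u • x) = 1`. -/
theorem kernel_of_smoothing {ρ : mixedSpace K → ℝ} (H1 : ∀ y, 0 ≤ ρ y)
    (H2 : ∀ x : 𝓞 K, x ≠ 0 → HasSum (fun u : (𝓞 K)ˣ ↦ ρ (u • mixedEmbedding K (x : K))) 1) :
    (∀ s : ℝ, 1 < s → s ≤ 2 → ρ 0 * mixedEmbedding.norm (0 : mixedSpace K) ^ (-s) = 0) ∧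
    (∀ s : ℝ, 1 < s → s ≤ 2 → ∀ y, 0 ≤ ρ y * mixedEmbedding.norm y ^ (-s)) ∧
    (∀ s : ℝ, 1 < s → s ≤ 2 → ∀ x : 𝓞 K, x ≠ 0 →
      HasSum (fun u : (𝓞 K)ˣ ↦ ρ (u • mixedEmbedding K (x : K)) *
        mixedEmbedding.norm (u • mixedEmbedding K (x : K)) ^ (-s))
        (mixedEmbedding.norm (mixedEmbedding K (x : K)) ^ (-s))) := by
  refine ⟨fun s hs1 _ ↦ ?_, fun s _ _ y ↦ ?_, fun s _ _ x hx ↦ ?_⟩
  · rw [map_zero, Real.zero_rpow (by linarith), mul_zero]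
  · exact mul_nonneg (H1 y) (Real.rpow_nonneg (mixedEmbedding.norm_nonneg _) _)
  · simp_rw [norm_unit_smul]
    simpa using (H2 x hx).mul_right (mixedEmbedding.norm (mixedEmbedding K (x : K)) ^ (-s))

open scoped Classical in
/-- The two-point estimate in geometric form implies (A3) with the weight of
`summable_weight`. -/
theorem two_point_of_geometric {g : ℝ → mixedSpace K → ℝ}
    (h : ∃ C : ℝ, ∀ s : ℝ, 1 < s → s ≤ 2 → ∀ x r : mixedSpace K, 1 ≤ ‖x‖ → 2 * ‖r‖ ≤ ‖x‖ →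
      |g s (x + r) - g s x| ≤ C * ‖r‖ * ‖x‖ ^ (-((Module.finrank ℚ K : ℝ) + 1))) :
    ∀ r : 𝓞 K, ∃ C : ℝ, ∀ᶠ x : 𝓞 K in Filter.cofinite, ∀ s : ℝ, 1 < s → s ≤ 2 →
      |g s (mixedEmbedding K ((x + r : 𝓞 K) : K)) - g s (mixedEmbedding K (x : K))| ≤
        C * ‖mixedEmbedding K (x : K)‖ ^ (-((Module.finrank ℚ K : ℝ) + 1)) := by
  obtain ⟨C, hC⟩ := h
  intro r
  refine ⟨C * ‖mixedEmbedding K (r : K)‖, ?_⟩
  rw [Filter.eventually_cofinite]
  set R : ℝ := max 1 (2 * ‖mixedEmbedding K (r : K)‖) with hR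
  have hfin := LatticeSum.finite_lattice_inter_closedBall (mixedEmbedding.integerLattice K) R
  have hinj : Function.Injective (fun x : 𝓞 K ↦ mixedEmbedding K (x : K)) := fun x y hxy ↦
    RingOfIntegers.coe_injective (mixedEmbedding_injective K hxy)
  refine (hfin.preimage hinj.injOn).subset ?_
  intro x hx
  simp only [Set.mem_ofPred_eq] at hx
  simp only [Set.mem_preimage, Set.mem_inter_iff, Metric.mem_closedBall, dist_zero_right,
    SetLike.mem_coe]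
  refine ⟨?_, ⟨x, rfl⟩⟩
  by_contra hcon
  push Not at hcon
  apply hx
  intro s hs1 hs2
  have h1 : 1 ≤ ‖mixedEmbedding K (x : K)‖ := (le_max_left _ _).trans hcon.le
  have h2 : 2 * ‖mixedEmbedding K (r : K)‖ ≤ ‖mixedEmbedding K (x : K)‖ :=
    (le_max_right _ _).trans hcon.le
  have h3 := hC s hs1 hs2 (mixedEmbedding K (x : K)) (mixedEmbedding K (r : K)) h1 h2
  have h4 : mixedEmbedding K ((x + r : 𝓞 K) : K) =
      mixedEmbedding K (x : K) + mixedEmbedding K (r : K) := by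
    rw [← map_add]
    rfl
  rw [h4]
  exact h3

/-! ### Class functions of sum zero -/

/-- A linear combination of partial zeta functions with coefficients of sum zero is bounded on
`(1, 2]`. -/
theorem exists_bound_of_sum_eq_zero
    (hcz : ∀ C C' : ClassGroup (𝓞 K), ∃ B : ℝ, ∀ s : ℝ, 1 < s → s ≤ 2 →
      |classZeta K C s - classZeta K C' s| ≤ B)
    (f : ClassGroup (𝓞 K) → ℂ) (hf : ∑ C : ClassGroup (𝓞 K), f C = 0) :
    ∃ B : ℝ, ∀ s : ℝ, 1 < s → s ≤ 2 →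
      ‖∑ C : ClassGroup (𝓞 K), f C * ((classZeta K C s : ℝ) : ℂ)‖ ≤ B := by
  choose Bd hBd using fun C ↦ hcz C 1
  refine ⟨∑ C : ClassGroup (𝓞 K), ‖f C‖ * Bd C, fun s hs1 hs2 ↦ ?_⟩
  have h1 : ∑ C : ClassGroup (𝓞 K), f C * ((classZeta K C s : ℝ) : ℂ) =
      ∑ C : ClassGroup (𝓞 K), f C * (((classZeta K C s - classZeta K 1 s : ℝ)) : ℂ) := by
    have h2 : ∑ C : ClassGroup (𝓞 K), f C * (((classZeta K C s - classZeta K 1 s : ℝ)) : ℂ) =
        ∑ C : ClassGroup (𝓞 K), f C * ((classZeta K C s : ℝ) : ℂ) -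
          (∑ C : ClassGroup (𝓞 K), f C) * ((classZeta K 1 s : ℝ) : ℂ) := by
      rw [Finset.sum_mul, ← Finset.sum_sub_distrib]
      refine Finset.sum_congr rfl fun C _ ↦ ?_
      push_cast
      ring
    rw [h2, hf, zero_mul, sub_zero]
  rw [h1]
  refine (norm_sum_le _ _).trans (Finset.sum_le_sum fun C _ ↦ ?_)
  rw [norm_mul, Complex.norm_real, Real.norm_eq_abs]
  exact mul_le_mul_of_nonneg_left (hBd C s hs1 hs2) (norm_nonneg _)

/-- For a nontrivial character of the class group, the combination of partial zeta functions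
(= the class `L`-series) is bounded on `(1, 2]`. -/
theorem exists_bound_of_character
    (hcz : ∀ C C' : ClassGroup (𝓞 K), ∃ B : ℝ, ∀ s : ℝ, 1 < s → s ≤ 2 →
      |classZeta K C s - classZeta K C' s| ≤ B)
    (χ : ClassGroup (𝓞 K) →* ℂ) (hχ : χ ≠ 1) :
    ∃ B : ℝ, ∀ s : ℝ, 1 < s → s ≤ 2 →
      ‖∑ C : ClassGroup (𝓞 K), χ C * ((classZeta K C s : ℝ) : ℂ)‖ ≤ B :=
  exists_bound_of_sum_eq_zero hcz (fun C ↦ χ C) (sum_hom_units_eq_zero χ hχ)

end Fermat.Agent.S14.Analytic.ClassBound
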