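import Mathlib

/-! S14 package N, part N3a: a smoothing kernel on the mixed space of a number field.

`kernel K s x = rho x * N x ^ (-s)` where `rho` is a Lipschitz partition of unity for the action
of the units on the mixed space (`∑ over units u, rho (u • x) = 1`), built from a tent function
on `logSpace K` divided by the sum of its translates under the unit lattice. -/

set_option autoImplicit false

open NumberField NumberField.mixedEmbedding NumberField.Units
  NumberField.Units.dirichletUnitTheorem NumberField.InfinitePlace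
open scoped Classical

namespace Fermat.Agent.S14.Analytic.Smoothing

variable (K : Type*) [Field K] [NumberField K]

/-! ### A partition of unity on `logSpace K` for the unit lattice -/

/-- The log embedding of a unit. -/
noncomputable def lam (u : (𝓞 K)ˣ) : logSpace K := logEmbedding K (Additive.ofMul u)

lemma lam_mul (u v : (𝓞 K)ˣ) : lam K (u * v) = lam K u + lam K v := by
  unfold lam
  rw [ofMul_mul, map_add]

lemma lam_one : lam K 1 = 0 := by
  unfold lam
  rw [ofMul_one, map_zero]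

lemma finite_lam_le (r : ℝ) : {u : (𝓞 K)ˣ | ‖lam K u‖ ≤ r}.Finite := by
  classical
  obtain hr | hr := lt_or_ge r 0
  · have : {u : (𝓞 K)ˣ | ‖lam K u‖ ≤ r} = ∅ := by
      ext u
      simp only [Set.mem_ofPred_eq, Set.mem_empty_iff_false, iff_false, not_le]
      exact lt_of_lt_of_le hr (norm_nonneg _)
    rw [this]
    exact Set.finite_empty
  · have hfin : {x : (𝓞 K)ˣ | IsIntegral ℤ (x : K) ∧
        ∀ (φ : K →+* ℂ), ‖φ x‖ ≤ Real.exp ((Fintype.card (InfinitePlace K)) * r)}.Finite := by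
      refine Set.Finite.of_finite_image ?_ (coe_injective K).injOn
      refine (Embeddings.finite_of_norm_le K ℂ
          (Real.exp ((Fintype.card (InfinitePlace K)) * r))).subset ?_
      rintro _ ⟨x, ⟨⟨h_int, h_le⟩, rfl⟩⟩
      exact ⟨h_int, h_le⟩
    refine hfin.subset ?_
    intro x hx
    refine ⟨x.val.prop, (le_iff_le _ _).mp (fun w ↦ (Real.log_le_iff_le_exp ?_).mp ?_)⟩
    · exact pos_iff.mpr (coe_ne_zero x)
    · exact (le_abs_self _).trans (log_le_of_logEmbedding_le hr hx w)

lemma exists_cov : ∃ R₀ : ℝ, 0 ≤ R₀ ∧ ∀ v : logSpace K, ∃ u : (𝓞 K)ˣ, ‖lam K u + v‖ ≤ R₀ := by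
  classical
  let B := (basisUnitLattice K).ofZLatticeBasis ℝ
  obtain ⟨R₀, hR₀⟩ := (isBounded_iff_forall_norm_le).mp (ZSpan.fundamentalDomain_isBounded B)
  refine ⟨max R₀ 0, le_max_right _ _, fun v => ?_⟩
  obtain ⟨⟨e, h₁⟩, h₂, -⟩ := ZSpan.exist_unique_vadd_mem_fundamentalDomain B v
  have he : e ∈ unitLattice K := by
    rwa [← Module.Basis.ofZLatticeBasis_span ℝ (unitLattice K)]
  obtain ⟨u, -, rfl⟩ := he
  refine ⟨Additive.toMul u, ?_⟩
  have h3 := hR₀ _ h₂
  rw [AddSubmonoid.mk_vadd, vadd_eq_add] at h3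
  exact h3.trans (le_max_left _ _)

/-- The radius of the tent function. -/
noncomputable def rad : ℝ := (exists_cov K).choose + 1

lemma one_le_rad : 1 ≤ rad K := by
  have := (exists_cov K).choose_spec.1
  unfold rad
  linarith

lemma exists_lam_add_le (v : logSpace K) : ∃ u : (𝓞 K)ˣ, ‖lam K u + v‖ ≤ rad K - 1 := by
  obtain ⟨u, hu⟩ := (exists_cov K).choose_spec.2 v
  exact ⟨u, by unfold rad; linarith⟩

/-- The tent function on `logSpace K`. -/
noncomputable def tent (v : logSpace K) : ℝ := max (rad K - ‖v‖) 0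

lemma tent_nonneg (v : logSpace K) : 0 ≤ tent K v := le_max_right _ _

lemma tent_le (v : logSpace K) : tent K v ≤ rad K :=
  max_le (by linarith [norm_nonneg v]) (by linarith [one_le_rad K])

lemma tent_eq_zero {v : logSpace K} (h : rad K ≤ ‖v‖) : tent K v = 0 :=
  max_eq_right (by linarith)

lemma lt_of_tent_ne_zero {v : logSpace K} (h : tent K v ≠ 0) : ‖v‖ < rad K := by
  by_contra hc
  exact h (tent_eq_zero K (not_lt.mp hc))

lemma one_le_tent {v : logSpace K} (h : ‖v‖ ≤ rad K - 1) : 1 ≤ tent K v :=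
  le_max_of_le_left (by linarith)

lemma tent_sub_le (v v' : logSpace K) : |tent K v - tent K v'| ≤ ‖v - v'‖ := by
  unfold tent
  refine (abs_max_sub_max_le_abs _ _ _).trans ?_
  have h2 : (rad K - ‖v‖) - (rad K - ‖v'‖) = ‖v'‖ - ‖v‖ := by ring
  rw [h2, norm_sub_rev]
  exact abs_norm_sub_norm_le v' v

/-- The finite set of units whose log embedding has norm at most `2 * rad K`. -/
noncomputable def nbhd : Finset (𝓞 K)ˣ := (finite_lam_le K (2 * rad K)).toFinset

lemma mem_nbhd {u : (𝓞 K)ˣ} : u ∈ nbhd K ↔ ‖lam K u‖ ≤ 2 * rad K := by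
  simp [nbhd]

/-- The (truncated) denominator: sum of the translates of the tent function. -/
noncomputable def den (v : logSpace K) : ℝ := max (∑ u ∈ nbhd K, tent K (lam K u + v)) 1

lemma one_le_den (v : logSpace K) : 1 ≤ den K v := le_max_right _ _

lemma den_sub_le (v v' : logSpace K) : |den K v - den K v'| ≤ (nbhd K).card * ‖v - v'‖ := by
  unfold den
  refine (abs_max_sub_max_le_abs _ _ _).trans ?_
  rw [← Finset.sum_sub_distrib]
  refine (Finset.abs_sum_le_sum_abs _ _).trans ?_
  refine (Finset.sum_le_card_nsmul _ _ _ fun u _ => ?_).trans (by rw [nsmul_eq_mul])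
  have := tent_sub_le K (lam K u + v) (lam K u + v')
  simpa using this

/-- The partition function on `logSpace K`. -/
noncomputable def psi (v : logSpace K) : ℝ := tent K v / den K v

lemma psi_nonneg (v : logSpace K) : 0 ≤ psi K v :=
  div_nonneg (tent_nonneg K v) (by linarith [one_le_den K v])

lemma psi_eq_zero {v : logSpace K} (h : rad K ≤ ‖v‖) : psi K v = 0 := by
  unfold psi
  rw [tent_eq_zero K h, zero_div]

lemma lt_of_psi_ne_zero {v : logSpace K} (h : psi K v ≠ 0) : ‖v‖ < rad K := by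
  by_contra hc
  exact h (psi_eq_zero K (not_lt.mp hc))

lemma psi_le_one (v : logSpace K) : psi K v ≤ 1 := by
  unfold psi
  rw [div_le_one (by linarith [one_le_den K v])]
  unfold den
  refine le_max_of_le_left ?_
  have h1 : (1 : (𝓞 K)ˣ) ∈ nbhd K := by
    rw [mem_nbhd, lam_one, norm_zero]
    linarith [one_le_rad K]
  have := Finset.single_le_sum (f := fun u => tent K (lam K u + v))
    (fun u _ => tent_nonneg K _) h1
  simpa [lam_one] using this

lemma psi_sub_le (v v' : logSpace K) :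
    |psi K v - psi K v'| ≤ (1 + rad K * (nbhd K).card) * ‖v - v'‖ := by
  have hD := one_le_den K v
  have hD' := one_le_den K v'
  have hDpos : 0 < den K v := by linarith
  have hDpos' : 0 < den K v' := by linarith
  have e : psi K v - psi K v' = (tent K v - tent K v') / den K v
      + tent K v' * (den K v' - den K v) / (den K v * den K v') := by
    unfold psi
    field_simp
    ring
  rw [e]
  have h1 : |(tent K v - tent K v') / den K v| ≤ ‖v - v'‖ := by
    rw [abs_div, abs_of_pos hDpos]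
    exact (div_le_self (abs_nonneg _) hD).trans (tent_sub_le K v v')
  have h2 : |tent K v' * (den K v' - den K v) / (den K v * den K v')|
      ≤ rad K * ((nbhd K).card * ‖v - v'‖) := by
    rw [abs_div, abs_mul, abs_of_nonneg (tent_nonneg K v'),
      abs_of_pos (mul_pos hDpos hDpos')]
    have h3 : 1 ≤ den K v * den K v' := by nlinarith
    refine (div_le_self (mul_nonneg (tent_nonneg K v') (abs_nonneg _)) h3).trans ?_
    refine mul_le_mul (tent_le K v') ?_ (abs_nonneg _) (by linarith [one_le_rad K])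
    rw [abs_sub_comm]
    exact den_sub_le K v v'
  calc |(tent K v - tent K v') / den K v
        + tent K v' * (den K v' - den K v) / (den K v * den K v')|
      ≤ |(tent K v - tent K v') / den K v|
        + |tent K v' * (den K v' - den K v) / (den K v * den K v')| := abs_add_le _ _
    _ ≤ ‖v - v'‖ + rad K * ((nbhd K).card * ‖v - v'‖) := add_le_add h1 h2
    _ = (1 + rad K * (nbhd K).card) * ‖v - v'‖ := by ring

/-- The full sum of the translates of the tent function. -/
noncomputable def full (v : logSpace K) : ℝ := ∑ᶠ u : (𝓞 K)ˣ, tent K (lam K u + v)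

lemma norm_lam_le (u : (𝓞 K)ˣ) (v : logSpace K) : ‖lam K u‖ ≤ ‖lam K u + v‖ + ‖v‖ := by
  have := norm_sub_le (lam K u + v) v
  simpa using this

lemma support_tent_finite (v : logSpace K) :
    (Function.support fun u : (𝓞 K)ˣ => tent K (lam K u + v)).Finite := by
  refine (finite_lam_le K (rad K + ‖v‖)).subset ?_
  intro u hu
  have h := lt_of_tent_ne_zero K hu
  have h2 := norm_lam_le K u v
  simp only [Set.mem_ofPred_eq]
  linarith

lemma full_lam_add (u₁ : (𝓞 K)ˣ) (v : logSpace K) : full K (lam K u₁ + v) = full K v := by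
  unfold full
  have : (fun u : (𝓞 K)ˣ => tent K (lam K u + (lam K u₁ + v)))
      = fun u => (fun u' => tent K (lam K u' + v)) (Equiv.mulRight u₁ u) := by
    funext u
    simp only [Equiv.coe_mulRight, lam_mul, add_assoc]
  rw [this]
  exact finsum_comp_equiv (Equiv.mulRight u₁) (f := fun u' => tent K (lam K u' + v))

lemma one_le_full (v : logSpace K) : 1 ≤ full K v := by
  obtain ⟨u, hu⟩ := exists_lam_add_le K v
  have h1 := one_le_tent K hu
  have h2 := single_le_finsum u (support_tent_finite K v) (fun u => tent_nonneg K _)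
  exact h1.trans h2

lemma sum_nbhd_eq_full {v : logSpace K} (h : ‖v‖ < rad K) :
    ∑ u ∈ nbhd K, tent K (lam K u + v) = full K v := by
  unfold full
  symm
  refine finsum_eq_sum_of_support_subset _ ?_
  intro u hu
  have h1 := lt_of_tent_ne_zero K hu
  rw [Finset.mem_coe, mem_nbhd]
  have h2 := norm_lam_le K u v
  linarith

lemma den_eq_full {v : logSpace K} (h : ‖v‖ < rad K) : den K v = full K v := by
  unfold den
  rw [sum_nbhd_eq_full K h]
  exact max_eq_left (one_le_full K v)

/-- The translates of `psi` under the unit lattice sum to `1`. -/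
lemma hasSum_psi (v : logSpace K) : HasSum (fun u : (𝓞 K)ˣ => psi K (lam K u + v)) 1 := by
  have e : (fun u : (𝓞 K)ˣ => psi K (lam K u + v))
      = fun u => tent K (lam K u + v) * (full K v)⁻¹ := by
    funext u
    by_cases h : ‖lam K u + v‖ < rad K
    · unfold psi
      rw [den_eq_full K h, full_lam_add, div_eq_mul_inv]
    · rw [psi_eq_zero K (not_lt.mp h), tent_eq_zero K (not_lt.mp h), zero_mul]
  rw [e]
  have hs : HasSum (fun u : (𝓞 K)ˣ => tent K (lam K u + v)) (full K v) := by
    have hfin := support_tent_finite K v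
    have h1 : HasSum (fun u : (𝓞 K)ˣ => tent K (lam K u + v))
        (∑ u ∈ hfin.toFinset, tent K (lam K u + v)) :=
      hasSum_sum_of_ne_finset_zero (fun u hu => by
        rw [Set.Finite.mem_toFinset] at hu
        simpa [Function.mem_support] using hu)
    have h2 : full K v = ∑ u ∈ hfin.toFinset, tent K (lam K u + v) := by
      unfold full
      exact finsum_eq_sum_of_support_subset _ (by simp)
    rw [h2]
    exact h1
  have := hs.mul_right (full K v)⁻¹
  rwa [mul_inv_cancel₀ (by linarith [one_le_full K v] : full K v ≠ 0)] at this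

/-! ### The kernel on the mixed space -/

/-- The partition of unity on the mixed space for the action of the units. -/
noncomputable def rho (x : mixedSpace K) : ℝ :=
  if mixedEmbedding.norm x = 0 then 0 else psi K (logMap x)

/-- The smoothing kernel `rho x * N x ^ (-s)`. -/
noncomputable def kernel (s : ℝ) (x : mixedSpace K) : ℝ :=
  rho K x * mixedEmbedding.norm x ^ (-s)

lemma rho_nonneg (x : mixedSpace K) : 0 ≤ rho K x := by
  unfold rho
  split_ifs
  exacts [le_rfl, psi_nonneg K _]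

lemma rho_le_one (x : mixedSpace K) : rho K x ≤ 1 := by
  unfold rho
  split_ifs
  exacts [zero_le_one, psi_le_one K _]

lemma rho_of_norm_eq_zero {x : mixedSpace K} (h : mixedEmbedding.norm x = 0) : rho K x = 0 :=
  if_pos h

lemma rho_of_norm_ne_zero {x : mixedSpace K} (h : mixedEmbedding.norm x ≠ 0) :
    rho K x = psi K (logMap x) := if_neg h

lemma rho_ne_zero {x : mixedSpace K} (h : rho K x ≠ 0) :
    mixedEmbedding.norm x ≠ 0 ∧ ‖logMap x‖ < rad K := by
  have h1 : mixedEmbedding.norm x ≠ 0 := fun h0 => h (rho_of_norm_eq_zero K h0)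
  refine ⟨h1, lt_of_psi_ne_zero K ?_⟩
  rwa [rho_of_norm_ne_zero K h1] at h

theorem kernel_nonneg (s : ℝ) (x : mixedSpace K) : 0 ≤ kernel K s x :=
  mul_nonneg (rho_nonneg K x) (Real.rpow_nonneg (mixedEmbedding.norm_nonneg x) _)

theorem kernel_eq_zero_of_norm_eq_zero {x : mixedSpace K} (hx : mixedEmbedding.norm x = 0)
    (s : ℝ) : kernel K s x = 0 := by
  unfold kernel
  rw [rho_of_norm_eq_zero K hx, zero_mul]

theorem kernel_zero (s : ℝ) : kernel K s 0 = 0 :=
  kernel_eq_zero_of_norm_eq_zero K (map_zero _) s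

theorem kernel_le (s : ℝ) (x : mixedSpace K) : kernel K s x ≤ mixedEmbedding.norm x ^ (-s) := by
  unfold kernel
  exact mul_le_of_le_one_left (Real.rpow_nonneg (mixedEmbedding.norm_nonneg x) _) (rho_le_one K x)

/-- **Unfolding.** Summing the kernel over the orbit of `x` under all units gives `N x ^ (-s)`. -/
theorem hasSum_kernel_unit_smul {x : mixedSpace K} (hx : mixedEmbedding.norm x ≠ 0) (s : ℝ) :
    HasSum (fun u : (𝓞 K)ˣ => kernel K s (u • x)) (mixedEmbedding.norm x ^ (-s)) := by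
  have e : (fun u : (𝓞 K)ˣ => kernel K s (u • x))
      = fun u => psi K (lam K u + logMap x) * mixedEmbedding.norm x ^ (-s) := by
    funext u
    unfold kernel
    have h1 : mixedEmbedding.norm (u • x) = mixedEmbedding.norm x := norm_unit_smul u x
    rw [rho_of_norm_ne_zero K (by rwa [h1]), h1, logMap_unit_smul u hx]
    rfl
  rw [e]
  have := (hasSum_psi K (logMap x)).mul_right (mixedEmbedding.norm x ^ (-s))
  rwa [one_mul] at this

/-! ### Coordinates on the support of the kernel -/

lemma normAtPlace_le_norm (w : InfinitePlace K) (x : mixedSpace K) : normAtPlace w x ≤ ‖x‖ := by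
  rw [norm_eq_sup'_normAtPlace]
  exact Finset.le_sup' (fun w => normAtPlace w x) (Finset.mem_univ w)

lemma exists_normAtPlace_eq_norm (x : mixedSpace K) :
    ∃ w : InfinitePlace K, normAtPlace w x = ‖x‖ := by
  rw [norm_eq_sup'_normAtPlace]
  obtain ⟨w, -, hw⟩ := Finset.exists_mem_eq_sup' Finset.univ_nonempty (fun w => normAtPlace w x)
  exact ⟨w, hw.symm⟩

lemma abs_normAtPlace_sub_le (w : InfinitePlace K) (x y : mixedSpace K) :
    |normAtPlace w x - normAtPlace w y| ≤ ‖x - y‖ := by
  have h1 : normAtPlace w x ≤ normAtPlace w y + normAtPlace w (x - y) := by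
    have := normAtPlace_add_le w y (x - y)
    simpa using this
  have h2 : normAtPlace w y ≤ normAtPlace w x + normAtPlace w (x - y) := by
    have := normAtPlace_add_le w x (-(x - y))
    rw [normAtPlace_neg] at this
    simpa using this
  have h3 := normAtPlace_le_norm K w (x - y)
  rw [abs_le]
  constructor <;> linarith

lemma log_norm_eq (x : mixedSpace K) (hx : mixedEmbedding.norm x ≠ 0) :
    Real.log (mixedEmbedding.norm x)
      = ∑ w : InfinitePlace K, (mult w : ℝ) * Real.log (normAtPlace w x) := by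
  rw [mixedEmbedding.norm_apply, Real.log_prod]
  · refine Finset.sum_congr rfl fun w _ => ?_
    rw [Real.log_pow]
  · intro w _
    exact pow_ne_zero _ (mixedEmbedding.norm_ne_zero_iff.mp hx w)

lemma sum_mult_mul_dev (x : mixedSpace K) (hx : mixedEmbedding.norm x ≠ 0) :
    ∑ w : InfinitePlace K, (mult w : ℝ) * (Real.log (normAtPlace w x)
      - Real.log (mixedEmbedding.norm x) * (Module.finrank ℚ K : ℝ)⁻¹) = 0 := by
  have hn : (Module.finrank ℚ K : ℝ) ≠ 0 := Nat.cast_ne_zero.mpr Module.finrank_pos.ne'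
  simp_rw [mul_sub]
  rw [Finset.sum_sub_distrib, ← log_norm_eq K x hx, ← Finset.sum_mul, ← Nat.cast_sum, sum_mult_eq]
  field_simp
  ring

lemma abs_dev_le (x : mixedSpace K) (hx : mixedEmbedding.norm x ≠ 0) {R : ℝ}
    (hR : ‖logMap x‖ ≤ R) (w : InfinitePlace K) :
    |Real.log (normAtPlace w x) - Real.log (mixedEmbedding.norm x) * (Module.finrank ℚ K : ℝ)⁻¹|
      ≤ Fintype.card (InfinitePlace K) * R := by
  have hR0 : 0 ≤ R := (norm_nonneg _).trans hR
  have hcard : (1 : ℝ) ≤ Fintype.card (InfinitePlace K) := by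
    exact_mod_cast Fintype.card_pos
  set t : InfinitePlace K → ℝ := fun w => Real.log (normAtPlace w x)
    - Real.log (mixedEmbedding.norm x) * (Module.finrank ℚ K : ℝ)⁻¹ with ht
  have hcomp : ∀ w' : {w : InfinitePlace K // w ≠ w₀}, |(mult w'.val : ℝ) * t w'.val| ≤ R := by
    intro w'
    have := norm_le_pi_norm (logMap x) w'
    rw [Real.norm_eq_abs, logMap_apply] at this
    exact this.trans hR
  have tool : ∀ w : InfinitePlace K, |t w| ≤ |(mult w : ℝ) * t w| := by
    intro w
    rw [abs_mul, Nat.abs_cast]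
    exact le_mul_of_one_le_left (abs_nonneg _) one_le_mult
  by_cases hw : w = w₀
  · have hsum := sum_mult_mul_dev K x hx
    rw [Fintype.sum_eq_add_sum_subtype_ne _ w₀] at hsum
    have h1 : (mult (w₀ : InfinitePlace K) : ℝ) * t w₀
        = -∑ w' : {w : InfinitePlace K // w ≠ w₀}, (mult w'.val : ℝ) * t w'.val := by
      simp only [ht]
      linarith
    have h2 : |(mult (w₀ : InfinitePlace K) : ℝ) * t w₀| ≤ Fintype.card (InfinitePlace K) * R := by
      rw [h1, abs_neg]
      refine (Finset.abs_sum_le_sum_abs _ _).trans ?_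
      refine (Finset.sum_le_card_nsmul _ _ _ fun w' _ => hcomp w').trans ?_
      rw [nsmul_eq_mul]
      refine mul_le_mul_of_nonneg_right ?_ hR0
      rw [Finset.card_univ]
      exact_mod_cast Fintype.card_subtype_le _
    rw [hw]
    exact (tool w₀).trans h2
  · exact ((tool w).trans (hcomp ⟨w, hw⟩)).trans (le_mul_of_one_le_left hR0 hcard)

/-- The comparison constant for the coordinates on the support of `rho`. -/
noncomputable def delta : ℝ := Real.exp (-(2 * (Fintype.card (InfinitePlace K) * rad K)))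

lemma delta_pos : 0 < delta K := Real.exp_pos _

lemma delta_le_one : delta K ≤ 1 := by
  unfold delta
  rw [Real.exp_le_one_iff]
  have h1 := one_le_rad K
  have h2 : (0 : ℝ) ≤ Fintype.card (InfinitePlace K) := Nat.cast_nonneg _
  nlinarith

/-- On the support of `rho` all coordinates are comparable to the sup norm. -/
lemma delta_mul_norm_le {x : mixedSpace K} (hx : mixedEmbedding.norm x ≠ 0)
    (hR : ‖logMap x‖ ≤ rad K) (w : InfinitePlace K) : delta K * ‖x‖ ≤ normAtPlace w x := by
  obtain ⟨w', hw'⟩ := exists_normAtPlace_eq_norm K x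
  have hpos : ∀ w, 0 < normAtPlace w x := fun w =>
    lt_of_le_of_ne (normAtPlace_nonneg w x) (Ne.symm (mixedEmbedding.norm_ne_zero_iff.mp hx w))
  have h1 := abs_dev_le K x hx hR w
  have h2 := abs_dev_le K x hx hR w'
  have h3 : Real.log (normAtPlace w' x)
      ≤ Real.log (normAtPlace w x) + 2 * (Fintype.card (InfinitePlace K) * rad K) := by
    have := (abs_le.mp h1).1
    have := (abs_le.mp h2).2
    linarith
  have h4 : normAtPlace w' x
      ≤ normAtPlace w x * Real.exp (2 * (Fintype.card (InfinitePlace K) * rad K)) := by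
    calc normAtPlace w' x = Real.exp (Real.log (normAtPlace w' x)) := (Real.exp_log (hpos w')).symm
      _ ≤ Real.exp (Real.log (normAtPlace w x) + 2 * (Fintype.card (InfinitePlace K) * rad K)) :=
          Real.exp_le_exp.mpr h3
      _ = normAtPlace w x * Real.exp (2 * (Fintype.card (InfinitePlace K) * rad K)) := by
          rw [Real.exp_add, Real.exp_log (hpos w)]
  rw [← hw']
  unfold delta
  calc Real.exp (-(2 * (Fintype.card (InfinitePlace K) * rad K))) * normAtPlace w' x
      ≤ Real.exp (-(2 * (Fintype.card (InfinitePlace K) * rad K)))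
        * (normAtPlace w x * Real.exp (2 * (Fintype.card (InfinitePlace K) * rad K))) :=
        mul_le_mul_of_nonneg_left h4 (Real.exp_pos _).le
    _ = normAtPlace w x := by
        rw [mul_comm (normAtPlace w x), ← mul_assoc, ← Real.exp_add, neg_add_cancel, Real.exp_zero,
          one_mul]

lemma pow_le_mixedNorm {x : mixedSpace K} {d : ℝ} (hd : 0 ≤ d)
    (h : ∀ w : InfinitePlace K, d ≤ normAtPlace w x) :
    d ^ Module.finrank ℚ K ≤ mixedEmbedding.norm x := by
  rw [mixedEmbedding.norm_apply, ← sum_mult_eq, ← Finset.prod_pow_eq_pow_sum]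
  exact Finset.prod_le_prod (fun w _ => pow_nonneg hd _) (fun w _ => pow_le_pow_left₀ hd (h w) _)

/-- **Decay.** The kernel is `O(‖x‖ ^ (-n s))` uniformly for `s ∈ [1, 2]`. -/
theorem exists_kernel_le : ∃ C : ℝ, ∀ s ∈ Set.Icc (1 : ℝ) 2, ∀ x : mixedSpace K,
    kernel K s x ≤ C * ‖x‖ ^ (-((Module.finrank ℚ K : ℝ) * s)) := by
  have hδ := delta_pos K
  have hδ1 := delta_le_one K
  refine ⟨delta K ^ (-(2 * (Module.finrank ℚ K : ℝ))), fun s hs x => ?_⟩
  have hC : 0 ≤ delta K ^ (-(2 * (Module.finrank ℚ K : ℝ))) := Real.rpow_nonneg hδ.le _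
  by_cases hr : rho K x = 0
  · have : kernel K s x = 0 := by
      unfold kernel
      rw [hr, zero_mul]
    rw [this]
    exact mul_nonneg hC (Real.rpow_nonneg (norm_nonneg _) _)
  · obtain ⟨h1, h2⟩ := rho_ne_zero K hr
    have hxpos : 0 < ‖x‖ := by
      rw [norm_pos_iff]
      rintro rfl
      exact h1 (map_zero _)
    have h3 : (delta K * ‖x‖) ^ Module.finrank ℚ K ≤ mixedEmbedding.norm x :=
      pow_le_mixedNorm K (by positivity) (fun w => delta_mul_norm_le K h1 h2.le w)
    have hpos : 0 < (delta K * ‖x‖) ^ Module.finrank ℚ K := by positivity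
    have hn : (0 : ℝ) < Module.finrank ℚ K := Nat.cast_pos.mpr Module.finrank_pos
    calc kernel K s x ≤ mixedEmbedding.norm x ^ (-s) := kernel_le K s x
      _ ≤ ((delta K * ‖x‖) ^ Module.finrank ℚ K) ^ (-s) :=
          Real.rpow_le_rpow_of_nonpos hpos h3 (by linarith [hs.1])
      _ = (delta K * ‖x‖) ^ (-((Module.finrank ℚ K : ℝ) * s)) := by
          rw [← Real.rpow_natCast, ← Real.rpow_mul (by positivity), mul_neg]
      _ = delta K ^ (-((Module.finrank ℚ K : ℝ) * s))
            * ‖x‖ ^ (-((Module.finrank ℚ K : ℝ) * s)) := Real.mul_rpow hδ.le (norm_nonneg _)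
      _ ≤ delta K ^ (-(2 * (Module.finrank ℚ K : ℝ)))
            * ‖x‖ ^ (-((Module.finrank ℚ K : ℝ) * s)) := by
          refine mul_le_mul_of_nonneg_right ?_ (Real.rpow_nonneg (norm_nonneg _) _)
          refine Real.rpow_le_rpow_of_exponent_ge hδ hδ1 ?_
          nlinarith [hs.2]

/-! ### Lipschitz estimates -/

lemma log_sub_log_le {a b d : ℝ} (hd : 0 < d) (ha : d ≤ a) (hb : d ≤ b) :
    Real.log a - Real.log b ≤ |a - b| / d := by
  have ha' : 0 < a := lt_of_lt_of_le hd ha
  have hb' : 0 < b := lt_of_lt_of_le hd hb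
  have h1 : Real.log a - Real.log b ≤ (a - b) / b := by
    rw [← Real.log_div ha'.ne' hb'.ne']
    have := Real.log_le_sub_one_of_pos (div_pos ha' hb')
    have e : a / b - 1 = (a - b) / b := by
      field_simp
    linarith
  have h2 : (a - b) / b ≤ |a - b| / b := div_le_div_of_nonneg_right (le_abs_self _) hb'.le
  have h3 : |a - b| / b ≤ |a - b| / d := div_le_div_of_nonneg_left (abs_nonneg _) hd hb
  linarith

lemma exp_sub_exp_le (a b : ℝ) :
    Real.exp b - Real.exp a ≤ Real.exp b * (b - a) := by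
  have h1 : Real.exp b - Real.exp a = Real.exp b * (1 - Real.exp (a - b)) := by
    rw [mul_sub, mul_one, ← Real.exp_add]
    ring_nf
  have h2 : 1 - Real.exp (a - b) ≤ b - a := by
    have := Real.add_one_le_exp (a - b)
    linarith
  rw [h1]
  exact mul_le_mul_of_nonneg_left h2 (Real.exp_pos b).le

lemma abs_exp_sub_exp_le (a b : ℝ) :
    |Real.exp a - Real.exp b| ≤ max (Real.exp a) (Real.exp b) * |a - b| := by
  rcases le_total a b with h | h
  · rw [abs_sub_comm, abs_of_nonneg (sub_nonneg.mpr (Real.exp_le_exp.mpr h)), abs_sub_comm,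
      abs_of_nonneg (sub_nonneg.mpr h)]
    exact (exp_sub_exp_le a b).trans
      (mul_le_mul_of_nonneg_right (le_max_right _ _) (sub_nonneg.mpr h))
  · rw [abs_of_nonneg (sub_nonneg.mpr (Real.exp_le_exp.mpr h)), abs_of_nonneg (sub_nonneg.mpr h)]
    exact (exp_sub_exp_le b a).trans
      (mul_le_mul_of_nonneg_right (le_max_left _ _) (sub_nonneg.mpr h))

lemma abs_log_normAtPlace_sub_le {x y : mixedSpace K} {d : ℝ} (hd : 0 < d)
    (hx : ∀ w : InfinitePlace K, d ≤ normAtPlace w x)
    (hy : ∀ w : InfinitePlace K, d ≤ normAtPlace w y) (w : InfinitePlace K) :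
    |Real.log (normAtPlace w x) - Real.log (normAtPlace w y)| ≤ ‖x - y‖ / d := by
  have h := abs_normAtPlace_sub_le K w x y
  rw [abs_le]
  constructor
  · have h1 := log_sub_log_le hd (hy w) (hx w)
    have h2 : |normAtPlace w y - normAtPlace w x| / d ≤ ‖x - y‖ / d :=
      div_le_div_of_nonneg_right (by rwa [abs_sub_comm]) hd.le
    linarith
  · have h1 := log_sub_log_le hd (hx w) (hy w)
    have h2 : |normAtPlace w x - normAtPlace w y| / d ≤ ‖x - y‖ / d :=
      div_le_div_of_nonneg_right h hd.le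
    linarith

lemma mixedNorm_ne_zero_of_le {x : mixedSpace K} {d : ℝ} (hd : 0 < d)
    (hx : ∀ w : InfinitePlace K, d ≤ normAtPlace w x) : mixedEmbedding.norm x ≠ 0 :=
  mixedEmbedding.norm_ne_zero_iff.mpr fun w => (lt_of_lt_of_le hd (hx w)).ne'

lemma abs_log_mixedNorm_sub_le {x y : mixedSpace K} {d : ℝ} (hd : 0 < d)
    (hx : ∀ w : InfinitePlace K, d ≤ normAtPlace w x)
    (hy : ∀ w : InfinitePlace K, d ≤ normAtPlace w y) :
    |Real.log (mixedEmbedding.norm x) - Real.log (mixedEmbedding.norm y)|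
      ≤ (Module.finrank ℚ K : ℝ) * (‖x - y‖ / d) := by
  rw [log_norm_eq K x (mixedNorm_ne_zero_of_le K hd hx),
    log_norm_eq K y (mixedNorm_ne_zero_of_le K hd hy), ← Finset.sum_sub_distrib]
  refine (Finset.abs_sum_le_sum_abs _ _).trans ?_
  have : ∀ w ∈ (Finset.univ : Finset (InfinitePlace K)),
      |(mult w : ℝ) * Real.log (normAtPlace w x) - (mult w : ℝ) * Real.log (normAtPlace w y)|
        ≤ (mult w : ℝ) * (‖x - y‖ / d) := by
    intro w _
    rw [← mul_sub, abs_mul, Nat.abs_cast]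
    exact mul_le_mul_of_nonneg_left (abs_log_normAtPlace_sub_le K hd hx hy w) (Nat.cast_nonneg _)
  refine (Finset.sum_le_sum this).trans ?_
  rw [← Finset.sum_mul, ← Nat.cast_sum, sum_mult_eq]

lemma norm_logMap_sub_le {x y : mixedSpace K} {d : ℝ} (hd : 0 < d)
    (hx : ∀ w : InfinitePlace K, d ≤ normAtPlace w x)
    (hy : ∀ w : InfinitePlace K, d ≤ normAtPlace w y) :
    ‖logMap x - logMap y‖ ≤ 4 * (‖x - y‖ / d) := by
  have hn : (0 : ℝ) < Module.finrank ℚ K := Nat.cast_pos.mpr Module.finrank_pos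
  rw [pi_norm_le_iff_of_nonneg (by positivity)]
  intro w
  rw [Pi.sub_apply, logMap_apply, logMap_apply, Real.norm_eq_abs, ← mul_sub, abs_mul, Nat.abs_cast]
  have h1 := abs_log_normAtPlace_sub_le K hd hx hy w.val
  have h2 := abs_log_mixedNorm_sub_le K hd hx hy
  have h3 : |(Real.log (normAtPlace w.val x)
        - Real.log (mixedEmbedding.norm x) * (Module.finrank ℚ K : ℝ)⁻¹)
      - (Real.log (normAtPlace w.val y)
        - Real.log (mixedEmbedding.norm y) * (Module.finrank ℚ K : ℝ)⁻¹)|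
      ≤ 2 * (‖x - y‖ / d) := by
    have e : (Real.log (normAtPlace w.val x)
          - Real.log (mixedEmbedding.norm x) * (Module.finrank ℚ K : ℝ)⁻¹)
        - (Real.log (normAtPlace w.val y)
          - Real.log (mixedEmbedding.norm y) * (Module.finrank ℚ K : ℝ)⁻¹)
        = (Real.log (normAtPlace w.val x) - Real.log (normAtPlace w.val y))
          - (Real.log (mixedEmbedding.norm x) - Real.log (mixedEmbedding.norm y))
            * (Module.finrank ℚ K : ℝ)⁻¹ := by ring
    rw [e]
    refine (abs_sub _ _).trans ?_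
    rw [abs_mul, abs_of_pos (inv_pos.mpr hn)]
    have h4 : |Real.log (mixedEmbedding.norm x) - Real.log (mixedEmbedding.norm y)|
        * (Module.finrank ℚ K : ℝ)⁻¹ ≤ ‖x - y‖ / d := by
      rw [← div_eq_mul_inv, div_le_iff₀ hn]
      linarith
    linarith
  have hm : (mult w.val : ℝ) ≤ 2 := by
    unfold mult
    split_ifs <;> norm_num
  calc (mult w.val : ℝ) * |(Real.log (normAtPlace w.val x)
          - Real.log (mixedEmbedding.norm x) * (Module.finrank ℚ K : ℝ)⁻¹)
        - (Real.log (normAtPlace w.val y)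
          - Real.log (mixedEmbedding.norm y) * (Module.finrank ℚ K : ℝ)⁻¹)|
      ≤ 2 * (2 * (‖x - y‖ / d)) := mul_le_mul hm h3 (abs_nonneg _) (by norm_num)
    _ = 4 * (‖x - y‖ / d) := by ring

lemma rpow_neg_le {x : mixedSpace K} {d : ℝ} (hd : 0 < d) (hd1 : d ≤ 1)
    (hx : ∀ w : InfinitePlace K, d ≤ normAtPlace w x) {s : ℝ} (hs : s ∈ Set.Icc (1 : ℝ) 2) :
    mixedEmbedding.norm x ^ (-s) ≤ (d ^ Module.finrank ℚ K) ^ (-2 : ℝ) := by
  have h1 := pow_le_mixedNorm K hd.le hx
  have hdn : 0 < d ^ Module.finrank ℚ K := pow_pos hd _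
  have hdn1 : d ^ Module.finrank ℚ K ≤ 1 := pow_le_one₀ hd.le hd1
  calc mixedEmbedding.norm x ^ (-s) ≤ (d ^ Module.finrank ℚ K) ^ (-s) :=
        Real.rpow_le_rpow_of_nonpos hdn h1 (by linarith [hs.1])
    _ ≤ (d ^ Module.finrank ℚ K) ^ (-2 : ℝ) :=
        Real.rpow_le_rpow_of_exponent_ge hdn hdn1 (by linarith [hs.2])

/-- Lipschitz estimate for the kernel on the region where all coordinates are `≥ d`. -/
lemma kernel_sub_le_of_good {x y : mixedSpace K} {d : ℝ} (hd : 0 < d) (hd1 : d ≤ 1)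
    (hx : ∀ w : InfinitePlace K, d ≤ normAtPlace w x)
    (hy : ∀ w : InfinitePlace K, d ≤ normAtPlace w y) {s : ℝ} (hs : s ∈ Set.Icc (1 : ℝ) 2) :
    |kernel K s x - kernel K s y|
      ≤ ((4 * (1 + rad K * (nbhd K).card) + 2 * (Module.finrank ℚ K : ℝ))
          * (d ^ Module.finrank ℚ K) ^ (-2 : ℝ) / d) * ‖x - y‖ := by
  set M : ℝ := (d ^ Module.finrank ℚ K) ^ (-2 : ℝ) with hM
  have hM0 : 0 ≤ M := Real.rpow_nonneg (pow_nonneg hd.le _) _
  have hNx := mixedNorm_ne_zero_of_le K hd hx
  have hNy := mixedNorm_ne_zero_of_le K hd hy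
  have hNxpos : 0 < mixedEmbedding.norm x :=
    lt_of_le_of_ne (mixedEmbedding.norm_nonneg x) (Ne.symm hNx)
  have hNypos : 0 < mixedEmbedding.norm y :=
    lt_of_le_of_ne (mixedEmbedding.norm_nonneg y) (Ne.symm hNy)
  have hMx : mixedEmbedding.norm x ^ (-s) ≤ M := rpow_neg_le K hd hd1 hx hs
  have hMy : mixedEmbedding.norm y ^ (-s) ≤ M := rpow_neg_le K hd hd1 hy hs
  have hpsi := psi_sub_le K (logMap x) (logMap y)
  have hlog := norm_logMap_sub_le K hd hx hy
  have hlogN := abs_log_mixedNorm_sub_le K hd hx hy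
  have hc0 : (0 : ℝ) ≤ 1 + rad K * (nbhd K).card := by
    have := one_le_rad K
    positivity
  have hpow : |mixedEmbedding.norm x ^ (-s) - mixedEmbedding.norm y ^ (-s)|
      ≤ M * (2 * ((Module.finrank ℚ K : ℝ) * (‖x - y‖ / d))) := by
    rw [Real.rpow_def_of_pos hNxpos, Real.rpow_def_of_pos hNypos]
    refine (abs_exp_sub_exp_le _ _).trans ?_
    refine mul_le_mul ?_ ?_ (abs_nonneg _) hM0
    · rw [← Real.rpow_def_of_pos hNxpos, ← Real.rpow_def_of_pos hNypos]
      exact max_le hMx hMy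
    · rw [← sub_mul, abs_mul, abs_neg, abs_of_nonneg (by linarith [hs.1] : (0 : ℝ) ≤ s), mul_comm]
      exact mul_le_mul hs.2 hlogN (abs_nonneg _) (by norm_num)
  unfold kernel
  rw [rho_of_norm_ne_zero K hNx, rho_of_norm_ne_zero K hNy]
  have e : psi K (logMap x) * mixedEmbedding.norm x ^ (-s)
        - psi K (logMap y) * mixedEmbedding.norm y ^ (-s)
      = (psi K (logMap x) - psi K (logMap y)) * mixedEmbedding.norm x ^ (-s)
        + psi K (logMap y) * (mixedEmbedding.norm x ^ (-s) - mixedEmbedding.norm y ^ (-s)) := by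
    ring
  rw [e]
  refine (abs_add_le _ _).trans ?_
  rw [abs_mul, abs_mul, abs_of_nonneg (Real.rpow_nonneg hNxpos.le _),
    abs_of_nonneg (psi_nonneg K _)]
  have t1 : |psi K (logMap x) - psi K (logMap y)| * mixedEmbedding.norm x ^ (-s)
      ≤ ((1 + rad K * (nbhd K).card) * (4 * (‖x - y‖ / d))) * M := by
    refine mul_le_mul (hpsi.trans (mul_le_mul_of_nonneg_left hlog hc0)) hMx
      (Real.rpow_nonneg hNxpos.le _) ?_
    positivity
  have t2 : psi K (logMap y) * |mixedEmbedding.norm x ^ (-s) - mixedEmbedding.norm y ^ (-s)|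
      ≤ 1 * (M * (2 * ((Module.finrank ℚ K : ℝ) * (‖x - y‖ / d)))) :=
    mul_le_mul (psi_le_one K _) hpow (abs_nonneg _) zero_le_one
  calc |psi K (logMap x) - psi K (logMap y)| * mixedEmbedding.norm x ^ (-s)
        + psi K (logMap y) * |mixedEmbedding.norm x ^ (-s) - mixedEmbedding.norm y ^ (-s)|
      ≤ ((1 + rad K * (nbhd K).card) * (4 * (‖x - y‖ / d))) * M
        + 1 * (M * (2 * ((Module.finrank ℚ K : ℝ) * (‖x - y‖ / d)))) := add_le_add t1 t2
    _ = ((4 * (1 + rad K * (nbhd K).card) + 2 * (Module.finrank ℚ K : ℝ)) * M / d) * ‖x - y‖ := by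
        ring

/-- **Lipschitz estimate** away from the origin, uniform in `s ∈ [1, 2]`. -/
theorem exists_kernel_lipschitz : ∃ L : ℝ, 0 ≤ L ∧ ∀ s ∈ Set.Icc (1 : ℝ) 2,
    ∀ x y : mixedSpace K, 1 / 2 ≤ ‖x‖ → 1 / 2 ≤ ‖y‖ →
      |kernel K s x - kernel K s y| ≤ L * ‖x - y‖ := by
  have hδ := delta_pos K
  have hδ1 := delta_le_one K
  set d : ℝ := delta K / 4 with hd
  have hdpos : 0 < d := by positivity
  have hd1 : d ≤ 1 := by linarith
  set M : ℝ := (d ^ Module.finrank ℚ K) ^ (-2 : ℝ) with hM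
  have hM0 : 0 ≤ M := Real.rpow_nonneg (pow_nonneg hdpos.le _) _
  set L1 : ℝ := (4 * (1 + rad K * (nbhd K).card) + 2 * (Module.finrank ℚ K : ℝ)) * M / d with hL1
  have hL10 : 0 ≤ L1 := by
    have := one_le_rad K
    positivity
  have hMd : 0 ≤ M / d := by positivity
  have side : ∀ s ∈ Set.Icc (1 : ℝ) 2, ∀ x y : mixedSpace K, 1 / 2 ≤ ‖x‖ → 1 / 2 ≤ ‖y‖ →
      (¬ ∀ w : InfinitePlace K, d ≤ normAtPlace w x) →
      |kernel K s x - kernel K s y| ≤ (M / d) * ‖x - y‖ := by
    intro s hs x y hxn hyn hx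
    push Not at hx
    obtain ⟨w, hw⟩ := hx
    have hrx : rho K x = 0 := by
      by_contra h
      obtain ⟨h1, h2⟩ := rho_ne_zero K h
      have h3 := delta_mul_norm_le K h1 h2.le w
      nlinarith
    have hkx : kernel K s x = 0 := by
      unfold kernel
      rw [hrx, zero_mul]
    rw [hkx, zero_sub, abs_neg, abs_of_nonneg (kernel_nonneg K s y)]
    by_cases hry : rho K y = 0
    · have : kernel K s y = 0 := by
        unfold kernel
        rw [hry, zero_mul]
      rw [this]
      positivity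
    · obtain ⟨h1, h2⟩ := rho_ne_zero K hry
      have hy' : ∀ w : InfinitePlace K, d ≤ normAtPlace w y := fun w => by
        have := delta_mul_norm_le K h1 h2.le w
        nlinarith
      have hdist : d ≤ ‖x - y‖ := by
        have h3 := delta_mul_norm_le K h1 h2.le w
        have h4 := abs_normAtPlace_sub_le K w x y
        have h5 := (abs_le.mp h4).1
        nlinarith
      calc kernel K s y ≤ mixedEmbedding.norm y ^ (-s) := kernel_le K s y
        _ ≤ M := rpow_neg_le K hdpos hd1 hy' hs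
        _ = (M / d) * d := by field_simp
        _ ≤ (M / d) * ‖x - y‖ := mul_le_mul_of_nonneg_left hdist hMd
  refine ⟨L1 + M / d, by positivity, fun s hs x y hx hy => ?_⟩
  by_cases hgx : ∀ w : InfinitePlace K, d ≤ normAtPlace w x
  · by_cases hgy : ∀ w : InfinitePlace K, d ≤ normAtPlace w y
    · refine (kernel_sub_le_of_good K hdpos hd1 hgx hgy hs).trans ?_
      exact mul_le_mul_of_nonneg_right (le_add_of_nonneg_right hMd) (norm_nonneg _)
    · have := side s hs y x hy hx hgy
      rw [abs_sub_comm, norm_sub_rev] at this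
      exact this.trans (mul_le_mul_of_nonneg_right (le_add_of_nonneg_left hL10) (norm_nonneg _))
  · exact (side s hs x y hx hy hgx).trans
      (mul_le_mul_of_nonneg_right (le_add_of_nonneg_left hL10) (norm_nonneg _))

/-- **Homogeneity** of the kernel. -/
theorem kernel_smul {t : ℝ} (ht : 0 < t) (s : ℝ) (x : mixedSpace K) :
    kernel K s (t • x) = t ^ (-((Module.finrank ℚ K : ℝ) * s)) * kernel K s x := by
  by_cases hx : mixedEmbedding.norm x = 0
  · have : mixedEmbedding.norm (t • x) = 0 := by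
      rw [mixedEmbedding.norm_smul, hx, mul_zero]
    rw [kernel_eq_zero_of_norm_eq_zero K this, kernel_eq_zero_of_norm_eq_zero K hx, mul_zero]
  · have hN : mixedEmbedding.norm (t • x) = t ^ Module.finrank ℚ K * mixedEmbedding.norm x := by
      rw [mixedEmbedding.norm_smul, abs_of_pos ht]
    have hN0 : mixedEmbedding.norm (t • x) ≠ 0 := by
      rw [hN]
      exact mul_ne_zero (pow_ne_zero _ ht.ne') hx
    unfold kernel
    rw [rho_of_norm_ne_zero K hN0, rho_of_norm_ne_zero K hx, logMap_real_smul hx ht.ne', hN,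
      Real.mul_rpow (pow_nonneg ht.le _) (mixedEmbedding.norm_nonneg x), ← Real.rpow_natCast,
      ← Real.rpow_mul ht.le, mul_neg]
    ring

/-- **Two-point estimate**, uniform in `s ∈ [1, 2]`. -/
theorem exists_kernel_two_point : ∃ C : ℝ, ∀ s ∈ Set.Icc (1 : ℝ) 2, ∀ x r : mixedSpace K,
    1 ≤ ‖x‖ → 2 * ‖r‖ ≤ ‖x‖ →
      |kernel K s (x + r) - kernel K s x|
        ≤ C * ‖r‖ * ‖x‖ ^ (-(Module.finrank ℚ K : ℝ) - 1) := by
  obtain ⟨L, hL0, hL⟩ := exists_kernel_lipschitz K
  refine ⟨L, fun s hs x r hx hr => ?_⟩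
  have hX : 0 < ‖x‖ := by linarith
  set X : ℝ := ‖x‖ with hXdef
  have hn : (0 : ℝ) < Module.finrank ℚ K := Nat.cast_pos.mpr Module.finrank_pos
  have htpos : 0 < X⁻¹ := inv_pos.mpr hX
  have h1 : ‖X⁻¹ • x‖ = 1 := by
    rw [_root_.norm_smul, Real.norm_eq_abs, abs_of_pos htpos, ← hXdef, inv_mul_cancel₀ hX.ne']
  have h2 : ‖X⁻¹ • r‖ ≤ 1 / 2 := by
    rw [_root_.norm_smul, Real.norm_eq_abs, abs_of_pos htpos, inv_mul_le_iff₀ hX]
    linarith
  have h3 : 1 / 2 ≤ ‖X⁻¹ • (x + r)‖ := by
    rw [smul_add]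
    have := norm_sub_norm_le (X⁻¹ • x) (-(X⁻¹ • r))
    rw [sub_neg_eq_add, norm_neg, h1] at this
    linarith
  have key := hL s hs (X⁻¹ • (x + r)) (X⁻¹ • x) h3 (by rw [h1]; norm_num)
  have h4 : ‖X⁻¹ • (x + r) - X⁻¹ • x‖ = X⁻¹ * ‖r‖ := by
    rw [← smul_sub, add_sub_cancel_left, _root_.norm_smul, Real.norm_eq_abs, abs_of_pos htpos]
  rw [kernel_smul K htpos, kernel_smul K htpos, ← mul_sub, abs_mul,
    abs_of_pos (Real.rpow_pos_of_pos htpos _), h4, Real.inv_rpow hX.le, Real.rpow_neg hX.le,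
    inv_inv] at key
  -- key : X ^ (n * s) * |Δ| ≤ L * (X⁻¹ * ‖r‖)
  set E : ℝ := X ^ ((Module.finrank ℚ K : ℝ) * s) with hE
  have hE1 : X ^ (Module.finrank ℚ K : ℝ) ≤ E :=
    Real.rpow_le_rpow_of_exponent_le hx (by nlinarith [hs.1])
  have hXn : 0 < X ^ (Module.finrank ℚ K : ℝ) := Real.rpow_pos_of_pos hX _
  have hEpos : 0 < E := lt_of_lt_of_le hXn hE1
  have e1 : X ^ (-(Module.finrank ℚ K : ℝ) - 1) = (X ^ (Module.finrank ℚ K : ℝ) * X)⁻¹ := by
    rw [show -(Module.finrank ℚ K : ℝ) - 1 = -((Module.finrank ℚ K : ℝ) + 1) by ring,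
      Real.rpow_neg hX.le, Real.rpow_add_one hX.ne']
  rw [e1]
  set D : ℝ := |kernel K s (x + r) - kernel K s x| with hD
  have hD0 : 0 ≤ D := abs_nonneg _
  have hr0 : 0 ≤ ‖r‖ := norm_nonneg _
  -- D ≤ L * ‖r‖ / (X * E) ≤ L * ‖r‖ / (X ^ n * X)
  have h5 : X ^ (Module.finrank ℚ K : ℝ) * D ≤ L * (X⁻¹ * ‖r‖) :=
    (mul_le_mul_of_nonneg_right hE1 hD0).trans key
  have h6 : D ≤ L * (X⁻¹ * ‖r‖) / X ^ (Module.finrank ℚ K : ℝ) := by
    rw [le_div_iff₀ hXn]
    linarith
  calc D ≤ L * (X⁻¹ * ‖r‖) / X ^ (Module.finrank ℚ K : ℝ) := h6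
    _ = L * ‖r‖ * (X ^ (Module.finrank ℚ K : ℝ) * X)⁻¹ := by
        field_simp

/-! ### Variants with nonnegative constants, and summability over lattices -/

theorem exists_kernel_le' : ∃ C : ℝ, 0 ≤ C ∧ ∀ s ∈ Set.Icc (1 : ℝ) 2, ∀ x : mixedSpace K,
    kernel K s x ≤ C * ‖x‖ ^ (-((Module.finrank ℚ K : ℝ) * s)) := by
  obtain ⟨C, hC⟩ := exists_kernel_le K
  refine ⟨max C 0, le_max_right _ _, fun s hs x => (hC s hs x).trans ?_⟩
  exact mul_le_mul_of_nonneg_right (le_max_left _ _) (Real.rpow_nonneg (norm_nonneg _) _)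

theorem exists_kernel_two_point' : ∃ C : ℝ, 0 ≤ C ∧ ∀ s ∈ Set.Icc (1 : ℝ) 2,
    ∀ x r : mixedSpace K, 1 ≤ ‖x‖ → 2 * ‖r‖ ≤ ‖x‖ →
      |kernel K s (x + r) - kernel K s x|
        ≤ C * ‖r‖ * ‖x‖ ^ (-(Module.finrank ℚ K : ℝ) - 1) := by
  obtain ⟨C, hC⟩ := exists_kernel_two_point K
  refine ⟨max C 0, le_max_right _ _, fun s hs x r hx hr => (hC s hs x r hx hr).trans ?_⟩
  exact mul_le_mul_of_nonneg_right
    (mul_le_mul_of_nonneg_right (le_max_left _ _) (norm_nonneg _))
    (Real.rpow_nonneg (norm_nonneg _) _)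

/-- The kernel is summable over every full lattice of the mixed space when `1 < s ≤ 2`. -/
theorem summable_kernel (L : Submodule ℤ (mixedSpace K)) [DiscreteTopology L] [IsZLattice ℝ L]
    {s : ℝ} (hs1 : 1 < s) (hs2 : s ≤ 2) :
    Summable fun x : L => kernel K s (x : mixedSpace K) := by
  obtain ⟨C, hC0, hC⟩ := exists_kernel_le' K
  have hn : (0 : ℝ) < Module.finrank ℚ K := Nat.cast_pos.mpr Module.finrank_pos
  have hrank : Module.finrank ℤ L = Module.finrank ℚ K := by
    rw [ZLattice.rank ℝ L, mixedEmbedding.finrank]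
  have hsum := ZLattice.summable_norm_rpow L (-((Module.finrank ℚ K : ℝ) * s))
    (by rw [hrank]; nlinarith)
  refine Summable.of_nonneg_of_le (fun x => kernel_nonneg K s _) (fun x => ?_) (hsum.mul_left C)
  exact hC s ⟨hs1.le, hs2⟩ x

end Fermat.Agent.S14.Analytic.Smoothing
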