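import Mathlib
import Fermat.Agent.S14.Analytic.ClassBound
import Fermat.Agent.S14.Analytic.Smoothing

set_option autoImplicit false

/-!
# Partial zeta functions of ideal classes differ by a bounded amount: unconditional form

Second, independent proof of the key bound of package N of S14 (smoothing track):
`ClassBound.classZeta_sub_bounded` applied to the kernel of `Smoothing`.
-/

open scoped NumberField nonZeroDivisors
open NumberField NumberField.mixedEmbedding Ideal

namespace Fermat.Agent.S14.Analytic.ClassBoundFinal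

open scoped Classical in
/-- The partial zeta functions of two ideal classes differ by a bounded amount on `(1, 2]`. -/
theorem classZeta_sub_bounded (K : Type*) [Field K] [NumberField K] (C C' : ClassGroup (𝓞 K)) :
    ∃ B : ℝ, ∀ s : ℝ, 1 < s → s ≤ 2 →
      |ClassBound.classZeta K C s - ClassBound.classZeta K C' s| ≤ B := by
  refine ClassBound.classZeta_sub_bounded (g := Smoothing.kernel K)
    (fun s _ _ ↦ Smoothing.kernel_zero K s) (fun s _ _ y ↦ Smoothing.kernel_nonneg K s y)
    (fun s _ _ x hx ↦ Smoothing.hasSum_kernel_unit_smul K ?_ s)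
    ClassBound.summable_weight (ClassBound.two_point_of_geometric ?_) C C'
  · rw [ClassBound.norm_mixedEmbedding_eq]
    have := ClassBound.one_le_absNorm_span hx
    linarith
  · obtain ⟨A, hA⟩ := Smoothing.exists_kernel_two_point K
    refine ⟨A, fun s hs1 hs2 x r hx hr ↦ ?_⟩
    have h := hA s ⟨hs1.le, hs2⟩ x r hx hr
    have e : -((Module.finrank ℚ K : ℝ) + 1) = -(Module.finrank ℚ K : ℝ) - 1 := by ring
    rw [e]
    exact h

/-- Literal form (sum over the subtype of a class, `absNorm` cast to `ℝ`). -/
theorem classZeta_sub_bounded' (K : Type*) [Field K] [NumberField K] (C C' : ClassGroup (𝓞 K)) :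
    ∃ B : ℝ, ∀ s : ℝ, 1 < s → s ≤ 2 →
      |(∑' I : {I : (Ideal (𝓞 K))⁰ // ClassGroup.mk0 I = C},
          (Ideal.absNorm (I.1 : Ideal (𝓞 K)) : ℝ) ^ (-s)) -
        (∑' I : {I : (Ideal (𝓞 K))⁰ // ClassGroup.mk0 I = C'},
          (Ideal.absNorm (I.1 : Ideal (𝓞 K)) : ℝ) ^ (-s))| ≤ B :=
  classZeta_sub_bounded K C C'

end Fermat.Agent.S14.Analytic.ClassBoundFinal
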