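import Fermat.Agent.S14.Analytic.LSeries
import Fermat.Agent.S14.ClassZetaFinal

set_option autoImplicit false

/-!
N3c: the `L`-series of a nontrivial character of the class group is bounded on `(1, 2]`
(from the boundedness of differences of partial zeta functions, `ClassZetaFinal`).
-/

open scoped NumberField nonZeroDivisors
open Fermat.Agent.S14.Analytic.LSeries

namespace Fermat.Agent.S14.Analytic.ClassLBound

variable {K : Type*} [Field K] [NumberField K]

/-- The values of a nontrivial character of a finite group sum to zero. -/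
theorem sum_classChar_eq_zero (χ : ClassGroup (𝓞 K) →* ℂ) (hχ : χ ≠ 1) :
    ∑ C : ClassGroup (𝓞 K), χ C = 0 := by
  obtain ⟨g, hg⟩ : ∃ g, χ g ≠ 1 := by
    by_contra h
    exact hχ (MonoidHom.ext fun g => by_contra fun hg => h ⟨g, hg⟩)
  have h1 : χ g * ∑ C, χ C = ∑ C, χ C := by
    rw [Finset.mul_sum]
    exact Fintype.sum_equiv (Equiv.mulLeft g) _ _ (fun C => by simp [map_mul])
  have h2 : (χ g - 1) * ∑ C, χ C = 0 := by rw [sub_mul, one_mul, h1, sub_self]
  rcases mul_eq_zero.mp h2 with h | h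
  · exact absurd (sub_eq_zero.mp h) hg
  · exact h

/-- **N3c**: for a nontrivial character `χ` of the class group, `L(s, χ)` is bounded on
`(1, 2]`. -/
theorem classL_bounded (χ : ClassGroup (𝓞 K) →* ℂ) (hχ : χ ≠ 1) :
    ∃ B : ℝ, ∀ s : ℝ, 1 < s → s ≤ 2 → ‖classL χ s‖ ≤ B := by
  classical
  have hsum := sum_classChar_eq_zero χ hχ
  choose B hB using fun C : ClassGroup (𝓞 K) =>
    Fermat.Agent.S14.ClassZetaFinal.classZeta_sub_bounded K C 1
  refine ⟨∑ C, B C, fun s hs hs2 => ?_⟩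
  rw [classL_eq_sum χ hs]
  set Z : ClassGroup (𝓞 K) → ℝ := fun C =>
    ∑' I : {I : (Ideal (𝓞 K))⁰ // ClassGroup.mk0 I = C},
      ((Ideal.absNorm (I.1 : Ideal (𝓞 K)) : ℕ) : ℝ) ^ (-s) with hZ
  have h1 : ∑ C, χ C * ((Z C : ℝ) : ℂ) = ∑ C, χ C * ((Z C - Z 1 : ℝ) : ℂ) := by
    have h2 : ∑ C, χ C * ((Z C - Z 1 : ℝ) : ℂ) =
        ∑ C, χ C * ((Z C : ℝ) : ℂ) - (∑ C, χ C) * ((Z 1 : ℝ) : ℂ) := by
      rw [Finset.sum_mul, ← Finset.sum_sub_distrib]
      refine Finset.sum_congr rfl fun C _ => ?_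
      push_cast
      ring
    rw [h2, hsum, zero_mul, sub_zero]
  rw [h1]
  refine (norm_sum_le _ _).trans (Finset.sum_le_sum fun C _ => ?_)
  rw [norm_mul, norm_classChar, one_mul, Complex.norm_real, Real.norm_eq_abs]
  exact hB C s hs hs2

end Fermat.Agent.S14.Analytic.ClassLBound
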