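import Mathlib

set_option autoImplicit false

/-!
# Geometry of the mixed space on the cone `‖logMap y‖ ≤ M`

Design-independent estimates for the two-point bound of unit-smoothed kernels:

* `cone`: on `{‖logMap y‖ ≤ M, norm y ≠ 0}` all coordinates are comparable to `‖y‖`.
* `stability`: if all `normAtPlace w y ≥ δ` and `‖z - y‖ ≤ δ / 2`, then all
  `normAtPlace w z ≥ δ / 2` and the logarithms of the coordinates move by `≤ 2 ‖z - y‖ / δ`.
* `log_norm_sub_le`, `logMap_sub_le`: the resulting bounds for `log (norm ·)` and `logMap`.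
-/

namespace Fermat.Agent.S14.Analytic.Cone

open NumberField NumberField.InfinitePlace NumberField.mixedEmbedding NumberField.Units
  NumberField.Units.dirichletUnitTheorem Module

open scoped Classical

variable {K : Type*} [Field K] [NumberField K]

/-- `normAtPlace w x ≤ ‖x‖`. -/
lemma normAtPlace_le_norm (w : InfinitePlace K) (x : mixedSpace K) : normAtPlace w x ≤ ‖x‖ := by
  classical
  rw [norm_eq_sup'_normAtPlace]
  exact Finset.le_sup' (fun w => normAtPlace w x) (Finset.mem_univ w)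

/-- Some place attains the sup norm. -/
lemma exists_normAtPlace_eq_norm (x : mixedSpace K) : ∃ w, normAtPlace w x = ‖x‖ := by
  classical
  rw [norm_eq_sup'_normAtPlace]
  obtain ⟨w, -, hw⟩ := Finset.exists_mem_eq_sup' Finset.univ_nonempty
    (fun w => normAtPlace w x)
  exact ⟨w, hw.symm⟩

lemma abs_normAtPlace_sub_le (w : InfinitePlace K) (x y : mixedSpace K) :
    |normAtPlace w x - normAtPlace w y| ≤ ‖x - y‖ := by
  have h1 : normAtPlace w x ≤ normAtPlace w (x - y) + normAtPlace w y := by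
    have := normAtPlace_add_le w (x - y) y
    rwa [sub_add_cancel] at this
  have h2 : normAtPlace w y ≤ normAtPlace w (y - x) + normAtPlace w x := by
    have := normAtPlace_add_le w (y - x) x
    rwa [sub_add_cancel] at this
  have h3 : normAtPlace w (y - x) = normAtPlace w (x - y) := by
    rw [← normAtPlace_neg, neg_sub]
  have h4 := normAtPlace_le_norm w (x - y)
  rw [abs_le]
  constructor <;> linarith

/-- `log (norm x) = ∑ w, mult w * log (normAtPlace w x)`. -/
lemma log_norm_eq {x : mixedSpace K} (hx : mixedEmbedding.norm x ≠ 0) :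
    Real.log (mixedEmbedding.norm x) = ∑ w, (mult w : ℝ) * Real.log (normAtPlace w x) := by
  rw [mixedEmbedding.norm_apply, Real.log_prod]
  · refine Finset.sum_congr rfl fun w _ => ?_
    rw [Real.log_pow]
  · intro w _
    exact pow_ne_zero _ (mixedEmbedding.norm_ne_zero_iff.mp hx w)

lemma sum_mult_real : ∑ w : InfinitePlace K, (mult w : ℝ) = (finrank ℚ K : ℝ) := by
  rw [← Nat.cast_sum, sum_mult_eq]

lemma finrank_pos_real : (0 : ℝ) < (finrank ℚ K : ℝ) := Nat.cast_pos.mpr finrank_pos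

/-- Log-Lipschitz: `|log a - log b| ≤ |a - b| / m` for `a, b ≥ m > 0`. -/
lemma abs_log_sub_log_le {m a b : ℝ} (hm : 0 < m) (ha : m ≤ a) (hb : m ≤ b) :
    |Real.log a - Real.log b| ≤ |a - b| / m := by
  have key : ∀ {a b : ℝ}, m ≤ a → a ≤ b → Real.log b - Real.log a ≤ (b - a) / m := by
    intro a b ha hab
    have ha0 : 0 < a := lt_of_lt_of_le hm ha
    have hb0 : 0 < b := lt_of_lt_of_le ha0 hab
    have h1 : Real.log b - Real.log a = Real.log (b / a) := by
      rw [Real.log_div hb0.ne' ha0.ne']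
    have h2 : Real.log (b / a) ≤ b / a - 1 := Real.log_le_sub_one_of_pos (div_pos hb0 ha0)
    have h3 : b / a - 1 = (b - a) / a := by field_simp
    rw [h1]
    refine h2.trans ?_
    rw [h3]
    exact div_le_div_of_nonneg_left (by linarith) hm ha
  rcases le_total a b with hab | hab
  · have h := key ha hab
    have h0 : Real.log a ≤ Real.log b := Real.log_le_log (lt_of_lt_of_le hm ha) hab
    rw [abs_of_nonpos (by linarith), abs_of_nonpos (by linarith)]
    simpa using h
  · have h := key hb hab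
    have h0 : Real.log b ≤ Real.log a := Real.log_le_log (lt_of_lt_of_le hm hb) hab
    rw [abs_of_nonneg (by linarith), abs_of_nonneg (by linarith)]
    exact h

/-- **Cone lemma.** On `‖logMap y‖ ≤ M`, every coordinate of `y` is at least `c ‖y‖`. -/
theorem cone (M : ℝ) : ∃ c : ℝ, 0 < c ∧ ∀ y : mixedSpace K, mixedEmbedding.norm y ≠ 0 →
    ‖logMap y‖ ≤ M → ∀ w, c * ‖y‖ ≤ normAtPlace w y := by
  classical
  set n : ℝ := (finrank ℚ K : ℝ) with hn
  have hn0 : 0 < n := finrank_pos_real
  have hn1 : (1 : ℝ) ≤ n := by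
    rw [hn]; exact_mod_cast (finrank_pos : 0 < finrank ℚ K)
  refine ⟨Real.exp (-(2 * n * M)), Real.exp_pos _, fun y hy hM w => ?_⟩
  have hM0 : 0 ≤ M := (norm_nonneg _).trans hM
  have hpos : ∀ w, 0 < normAtPlace w y := fun w =>
    lt_of_le_of_ne (normAtPlace_nonneg w y) (Ne.symm (mixedEmbedding.norm_ne_zero_iff.mp hy w))
  set L : ℝ := Real.log (mixedEmbedding.norm y) / n with hL
  set d : InfinitePlace K → ℝ := fun w => Real.log (normAtPlace w y) - L with hd
  -- the weighted sum of the `d w` vanishes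
  have hsum : ∑ w, (mult w : ℝ) * d w = 0 := by
    simp only [hd, mul_sub]
    rw [Finset.sum_sub_distrib, ← log_norm_eq hy, ← Finset.sum_mul, sum_mult_real, hL]
    field_simp
    ring
  -- coordinates away from `w₀`
  have hne : ∀ w : {w : InfinitePlace K // w ≠ w₀}, |(mult w.1 : ℝ) * d w.1| ≤ M := by
    intro w
    have h1 : logMap y w = (mult w.1 : ℝ) * d w.1 := by
      rw [logMap_apply, hd, hL]
      ring
    rw [← h1]
    exact (norm_le_pi_norm (logMap y) w).trans hM
  -- all coordinates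
  have hall : ∀ w, |d w| ≤ n * M := by
    intro w
    have hmult : (1 : ℝ) ≤ mult w := one_le_mult
    have h1 : |d w| ≤ |(mult w : ℝ) * d w| := by
      rw [abs_mul, abs_of_nonneg (by linarith : (0 : ℝ) ≤ mult w)]
      exact le_mul_of_one_le_left (abs_nonneg _) hmult
    refine h1.trans ?_
    by_cases hw : w = w₀
    · subst hw
      rw [Fintype.sum_eq_add_sum_subtype_ne _ w₀] at hsum
      have h2 : (mult (w₀ : InfinitePlace K) : ℝ) * d w₀ =
          -∑ w : {w : InfinitePlace K // w ≠ w₀}, (mult w.1 : ℝ) * d w.1 := by linarith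
      rw [h2, abs_neg]
      refine (Finset.abs_sum_le_sum_abs _ _).trans ?_
      calc ∑ w : {w : InfinitePlace K // w ≠ w₀}, |(mult w.1 : ℝ) * d w.1|
          ≤ ∑ w : {w : InfinitePlace K // w ≠ w₀}, (mult w.1 : ℝ) * M :=
            Finset.sum_le_sum fun w _ => (hne w).trans
              (le_mul_of_one_le_left hM0 one_le_mult)
        _ ≤ (mult (w₀ : InfinitePlace K) : ℝ) * M +
            ∑ w : {w : InfinitePlace K // w ≠ w₀}, (mult w.1 : ℝ) * M :=
            le_add_of_nonneg_left (mul_nonneg (Nat.cast_nonneg _) hM0)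
        _ = ∑ w : InfinitePlace K, (mult w : ℝ) * M :=
            (Fintype.sum_eq_add_sum_subtype_ne (fun w : InfinitePlace K => (mult w : ℝ) * M)
              w₀).symm
        _ = n * M := by rw [← Finset.sum_mul, sum_mult_real]
    · exact (hne ⟨w, hw⟩).trans (le_mul_of_one_le_left hM0 hn1)
  have hexp : ∀ w, normAtPlace w y = Real.exp (L + d w) := by
    intro w
    rw [hd]
    simp only [add_sub_cancel]
    exact (Real.exp_log (hpos w)).symm
  obtain ⟨w₁, hw₁⟩ := exists_normAtPlace_eq_norm y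
  have hupper : ‖y‖ ≤ Real.exp (L + n * M) := by
    rw [← hw₁, hexp w₁]
    exact Real.exp_le_exp.mpr (by linarith [(abs_le.mp (hall w₁)).2])
  have hlower : Real.exp (L - n * M) ≤ normAtPlace w y := by
    rw [hexp w]
    exact Real.exp_le_exp.mpr (by linarith [(abs_le.mp (hall w)).1])
  calc Real.exp (-(2 * n * M)) * ‖y‖ ≤ Real.exp (-(2 * n * M)) * Real.exp (L + n * M) :=
        mul_le_mul_of_nonneg_left hupper (Real.exp_pos _).le
    _ = Real.exp (L - n * M) := by rw [← Real.exp_add]; congr 1; ring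
    _ ≤ normAtPlace w y := hlower

/-- Lower bound of the norm on a set where all coordinates are bounded below. -/
theorem pow_le_norm {δ : ℝ} (hδ : 0 ≤ δ) {y : mixedSpace K} (hy : ∀ w, δ ≤ normAtPlace w y) :
    δ ^ finrank ℚ K ≤ mixedEmbedding.norm y := by
  classical
  rw [mixedEmbedding.norm_apply, ← sum_mult_eq, ← Finset.prod_pow_eq_pow_sum]
  exact Finset.prod_le_prod (fun w _ => pow_nonneg hδ _)
    fun w _ => pow_le_pow_left₀ hδ (hy w) _

/-- **Stability.** -/
theorem stability {δ : ℝ} (hδ : 0 < δ) {y z : mixedSpace K} (hy : ∀ w, δ ≤ normAtPlace w y)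
    (hz : ‖z - y‖ ≤ δ / 2) :
    (∀ w, δ / 2 ≤ normAtPlace w z) ∧
      ∀ w, |Real.log (normAtPlace w z) - Real.log (normAtPlace w y)| ≤ 2 * ‖z - y‖ / δ := by
  have h1 : ∀ w, δ / 2 ≤ normAtPlace w z := by
    intro w
    have := abs_le.mp (abs_normAtPlace_sub_le w z y)
    linarith [hy w]
  refine ⟨h1, fun w => ?_⟩
  have h2 := abs_log_sub_log_le (half_pos hδ) (h1 w) ((half_le_self hδ.le).trans (hy w))
  refine h2.trans ?_
  have h3 : 2 * ‖z - y‖ / δ = ‖z - y‖ / (δ / 2) := by field_simp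
  rw [h3]
  exact div_le_div_of_nonneg_right (abs_normAtPlace_sub_le w z y) (half_pos hδ).le

theorem norm_ne_zero_of_stability {δ : ℝ} (hδ : 0 < δ) {y z : mixedSpace K}
    (hy : ∀ w, δ ≤ normAtPlace w y) (hz : ‖z - y‖ ≤ δ / 2) : mixedEmbedding.norm z ≠ 0 := by
  rw [mixedEmbedding.norm_ne_zero_iff]
  intro w
  have := (stability hδ hy hz).1 w
  have h2 : 0 < δ / 2 := half_pos hδ
  linarith

theorem log_norm_sub_le {δ : ℝ} (hδ : 0 < δ) {y z : mixedSpace K}
    (hy : ∀ w, δ ≤ normAtPlace w y) (hz : ‖z - y‖ ≤ δ / 2) :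
    |Real.log (mixedEmbedding.norm z) - Real.log (mixedEmbedding.norm y)| ≤
      (finrank ℚ K : ℝ) * (2 * ‖z - y‖ / δ) := by
  have hyn : mixedEmbedding.norm y ≠ 0 := by
    rw [mixedEmbedding.norm_ne_zero_iff]
    intro w
    linarith [hy w]
  have hzn := norm_ne_zero_of_stability hδ hy hz
  rw [log_norm_eq hzn, log_norm_eq hyn, ← Finset.sum_sub_distrib]
  refine (Finset.abs_sum_le_sum_abs _ _).trans ?_
  rw [← sum_mult_real, Finset.sum_mul]
  refine Finset.sum_le_sum fun w _ => ?_
  rw [← mul_sub, abs_mul, abs_of_nonneg (Nat.cast_nonneg _)]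
  exact mul_le_mul_of_nonneg_left ((stability hδ hy hz).2 w) (Nat.cast_nonneg _)

theorem logMap_sub_le {δ : ℝ} (hδ : 0 < δ) {y z : mixedSpace K}
    (hy : ∀ w, δ ≤ normAtPlace w y) (hz : ‖z - y‖ ≤ δ / 2) :
    ‖logMap z - logMap y‖ ≤ 8 * ‖z - y‖ / δ := by
  have ht0 : 0 ≤ 2 * ‖z - y‖ / δ := by positivity
  rw [pi_norm_le_iff_of_nonneg (by positivity)]
  intro w
  rw [Pi.sub_apply, logMap_apply, logMap_apply, Real.norm_eq_abs]
  have h1 := (stability hδ hy hz).2 w.1
  have h2 := log_norm_sub_le hδ hy hz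
  have hn0 : (0 : ℝ) < (finrank ℚ K : ℝ) := finrank_pos_real
  have h3 : |(Real.log (mixedEmbedding.norm z) - Real.log (mixedEmbedding.norm y)) *
      (finrank ℚ K : ℝ)⁻¹| ≤ 2 * ‖z - y‖ / δ := by
    rw [abs_mul, abs_of_pos (inv_pos.mpr hn0)]
    calc |Real.log (mixedEmbedding.norm z) - Real.log (mixedEmbedding.norm y)| *
          (finrank ℚ K : ℝ)⁻¹ ≤ ((finrank ℚ K : ℝ) * (2 * ‖z - y‖ / δ)) * (finrank ℚ K : ℝ)⁻¹ :=
          mul_le_mul_of_nonneg_right h2 (inv_pos.mpr hn0).le
      _ = 2 * ‖z - y‖ / δ := by field_simp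
  have hmult : (mult w.1 : ℝ) ≤ 2 := by
    have : mult w.1 ≤ 2 := by unfold mult; split_ifs <;> norm_num
    exact_mod_cast this
  have e : (mult w.1 : ℝ) * (Real.log (normAtPlace w.1 z) -
        Real.log (mixedEmbedding.norm z) * (finrank ℚ K : ℝ)⁻¹) -
      (mult w.1 : ℝ) * (Real.log (normAtPlace w.1 y) -
        Real.log (mixedEmbedding.norm y) * (finrank ℚ K : ℝ)⁻¹) =
      (mult w.1 : ℝ) * ((Real.log (normAtPlace w.1 z) - Real.log (normAtPlace w.1 y)) -
        (Real.log (mixedEmbedding.norm z) - Real.log (mixedEmbedding.norm y)) *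
          (finrank ℚ K : ℝ)⁻¹) := by ring
  rw [e, abs_mul, abs_of_nonneg (Nat.cast_nonneg _)]
  have h4 := abs_sub _ _ |>.trans (add_le_add h1 h3) |> fun h => h
  calc (mult w.1 : ℝ) * |(Real.log (normAtPlace w.1 z) - Real.log (normAtPlace w.1 y)) -
        (Real.log (mixedEmbedding.norm z) - Real.log (mixedEmbedding.norm y)) *
          (finrank ℚ K : ℝ)⁻¹| ≤ 2 * (2 * ‖z - y‖ / δ + 2 * ‖z - y‖ / δ) :=
        mul_le_mul hmult ((abs_sub _ _).trans (add_le_add h1 h3)) (abs_nonneg _) (by norm_num)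
    _ = 8 * ‖z - y‖ / δ := by ring

end Fermat.Agent.S14.Analytic.Cone
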