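import Fermat.Agent.S14.Defs
import Fermat.Agent.S14.ClassZetaFinal
import Fermat.Agent.S14.Analytic.LSeries
import Fermat.Agent.S14.Analytic.PrimeSums
import Fermat.Agent.S14.KummerSplitSum

set_option autoImplicit false
set_option linter.unusedSectionVars false

open scoped NumberField nonZeroDivisors
open IsDedekindDomain Fermat.Agent.S14.Defs

namespace Fermat.Agent.S14.Analytic.CoreLog

variable {K : Type} [Field K] [NumberField K]

/-- A nontrivial class character has bounded L-series on `(1, 2]`. -/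
theorem classL_bounded (χ : ClassGroup (𝓞 K) →* ℂ) (hχ : χ ≠ 1) :
    ∃ B : ℝ, ∀ s : ℝ, 1 < s → s ≤ 2 → ‖LSeries.classL χ s‖ ≤ B := by
  classical
  have hsum : ∑ C : ClassGroup (𝓞 K), χ C = 0 := sum_hom_units_eq_zero χ hχ
  have hB : ∀ C : ClassGroup (𝓞 K), ∃ B : ℝ, ∀ s : ℝ, 1 < s → s ≤ 2 →
      |(∑' I : {I : (Ideal (𝓞 K))⁰ // ClassGroup.mk0 I = C},
          (Ideal.absNorm (I.1 : Ideal (𝓞 K)) : ℝ) ^ (-s))
        - (∑' I : {I : (Ideal (𝓞 K))⁰ // ClassGroup.mk0 I = 1},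
          (Ideal.absNorm (I.1 : Ideal (𝓞 K)) : ℝ) ^ (-s))| ≤ B :=
    fun C => ClassZetaFinal.classZeta_sub_bounded K C 1
  choose B hB using hB
  refine ⟨∑ C : ClassGroup (𝓞 K), B C, fun s hs1 hs2 => ?_⟩
  rw [LSeries.classL_eq_sum χ hs1]
  set z : ClassGroup (𝓞 K) → ℝ := fun C =>
    ∑' I : {I : (Ideal (𝓞 K))⁰ // ClassGroup.mk0 I = C},
      (Ideal.absNorm (I.1 : Ideal (𝓞 K)) : ℝ) ^ (-s) with hz
  have h1 : ∑ C : ClassGroup (𝓞 K), χ C * ((z C : ℝ) : ℂ) =
      ∑ C : ClassGroup (𝓞 K), χ C * (((z C - z 1 : ℝ)) : ℂ) := by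
    have : ∑ C : ClassGroup (𝓞 K), χ C * (((z C - z 1 : ℝ)) : ℂ) =
        ∑ C : ClassGroup (𝓞 K), χ C * ((z C : ℝ) : ℂ) -
          (∑ C : ClassGroup (𝓞 K), χ C) * ((z 1 : ℝ) : ℂ) := by
      rw [Finset.sum_mul, ← Finset.sum_sub_distrib]
      refine Finset.sum_congr rfl fun C _ => ?_
      push_cast; ring
    rw [this, hsum, zero_mul, sub_zero]
  rw [h1]
  refine (norm_sum_le _ _).trans (Finset.sum_le_sum fun C _ => ?_)
  rw [norm_mul, LSeries.norm_classChar, one_mul, Complex.norm_real, Real.norm_eq_abs]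
  exact hB C s hs1 hs2

variable {p : ℕ} [Fact p.Prime]

/-- The characters `χ_j = exp(2πi j φ / p)` of the class group attached to `φ : Cl → 𝔽_p`. -/
noncomputable def chi (φ : Additive (ClassGroup (𝓞 K)) →+ ZMod p) (j : ZMod p) :
    ClassGroup (𝓞 K) →* ℂ where
  toFun C := ZMod.stdAddChar (j * φ (Additive.ofMul C))
  map_one' := by simp
  map_mul' C C' := by
    rw [ofMul_mul, map_add, mul_add, AddChar.map_add_eq_mul]

theorem chi_apply (φ : Additive (ClassGroup (𝓞 K)) →+ ZMod p) (j : ZMod p)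
    (C : ClassGroup (𝓞 K)) : chi φ j C = ZMod.stdAddChar (j * φ (Additive.ofMul C)) := rfl

theorem chi_zero (φ : Additive (ClassGroup (𝓞 K)) →+ ZMod p) : chi φ (0 : ZMod p) = 1 := by
  ext C
  simp [chi_apply]

theorem chi_ne_one (φ : Additive (ClassGroup (𝓞 K)) →+ ZMod p) (hφ : φ ≠ 0) (j : ZMod p)
    (hj : j ≠ 0) : chi φ j ≠ 1 := by
  intro h
  apply hφ
  ext x
  have h1 : chi φ j x = 1 := by rw [h]; rfl
  rw [chi_apply, ← AddChar.map_zero_eq_one (ZMod.stdAddChar (N := p))] at h1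
  have h2 := ZMod.injective_stdAddChar h1
  rcases mul_eq_zero.mp h2 with h3 | h3
  · exact absurd h3 hj
  · simpa using h3

theorem sum_chi (φ : Additive (ClassGroup (𝓞 K)) →+ ZMod p) (C : ClassGroup (𝓞 K)) :
    ∑ j : ZMod p, chi φ j C = if φ (Additive.ofMul C) = 0 then (p : ℂ) else 0 := by
  have h := AddChar.sum_mulShift (φ (Additive.ofMul C)) (ZMod.isPrimitive_stdAddChar p)
  simp only [chi_apply]
  rw [h]
  split_ifs <;> simp [ZMod.card]

/-- Primes in the kernel of `φ` have "density at most `1/p`": `p` times their prime sum is at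
most the full prime sum plus a constant. -/
theorem zero_set_bound (φ : Additive (ClassGroup (𝓞 K)) →+ ZMod p) (hφ : φ ≠ 0) :
    ∃ D : ℝ, ∀ s : ℝ, 1 < s → s ≤ 2 →
      (p : ℝ) * ∑' v : HeightOneSpectrum (𝓞 K),
          (if φ (Additive.ofMul (cls v)) = 0 then ((Ideal.absNorm v.asIdeal : ℕ) : ℝ) ^ (-s)
            else 0) ≤
        ∑' v : HeightOneSpectrum (𝓞 K), ((Ideal.absNorm v.asIdeal : ℕ) : ℝ) ^ (-s) + D := by
  classical
  have hE : ∀ j : ZMod p, ∃ E : ℝ, j ≠ 0 → ∀ s : ℝ, 1 < s → s ≤ 2 →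
      (∑' v : HeightOneSpectrum (𝓞 K),
        chi φ j (cls v) * ((((Ideal.absNorm v.asIdeal : ℕ) : ℝ) ^ (-s) : ℝ) : ℂ)).re ≤ E := by
    intro j
    by_cases hj : j = 0
    · exact ⟨0, fun h => absurd hj h⟩
    · obtain ⟨B, hB⟩ := classL_bounded (chi φ j) (chi_ne_one φ hφ j hj)
      obtain ⟨C, hC⟩ := LSeries.re_prime_sum_le (chi φ j)
      refine ⟨Real.log (max B 1) + C, fun _ s hs1 hs2 => ?_⟩
      refine (hC s hs1 hs2).trans ?_
      have hpos : 0 < ‖LSeries.classL (chi φ j) s‖ :=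
        norm_pos_iff.mpr (LSeries.classL_ne_zero (chi φ j) hs1)
      have hle : ‖LSeries.classL (chi φ j) s‖ ≤ max B 1 := (hB s hs1 hs2).trans (le_max_left _ _)
      linarith [Real.log_le_log hpos hle]
  choose E hE using hE
  refine ⟨∑ j ∈ Finset.univ.erase (0 : ZMod p), E j, fun s hs1 hs2 => ?_⟩
  set a : HeightOneSpectrum (𝓞 K) → ℝ := fun v => ((Ideal.absNorm v.asIdeal : ℕ) : ℝ) ^ (-s)
    with ha
  set T : ZMod p → ℂ := fun j => ∑' v : HeightOneSpectrum (𝓞 K), chi φ j (cls v) * ((a v : ℝ) : ℂ)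
    with hT
  have hsummj : ∀ j : ZMod p, Summable fun v : HeightOneSpectrum (𝓞 K) =>
      chi φ j (cls v) * ((a v : ℝ) : ℂ) := fun j => LSeries.summable_prime_chi (chi φ j) hs1
  have key : ∑ j : ZMod p, T j =
      ∑' v : HeightOneSpectrum (𝓞 K), (∑ j : ZMod p, chi φ j (cls v)) * ((a v : ℝ) : ℂ) := by
    rw [hT]
    simp only
    rw [← Summable.tsum_finsetSum (fun j _ => hsummj j)]
    refine tsum_congr fun v => ?_
    rw [Finset.sum_mul]
  have key2 : ∑' v : HeightOneSpectrum (𝓞 K), (∑ j : ZMod p, chi φ j (cls v)) * ((a v : ℝ) : ℂ) =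
      (((p : ℝ) * ∑' v : HeightOneSpectrum (𝓞 K),
        (if φ (Additive.ofMul (cls v)) = 0 then a v else 0) : ℝ) : ℂ) := by
    rw [← tsum_mul_left, Complex.ofReal_tsum]
    refine tsum_congr fun v => ?_
    rw [sum_chi]
    split_ifs <;> simp
  have hre : ∑ j : ZMod p, (T j).re = (p : ℝ) * ∑' v : HeightOneSpectrum (𝓞 K),
      (if φ (Additive.ofMul (cls v)) = 0 then a v else 0) := by
    rw [← Complex.re_sum, key, key2, Complex.ofReal_re]
  have hT0 : (T 0).re = ∑' v : HeightOneSpectrum (𝓞 K), a v := by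
    rw [hT]
    simp only [chi_zero, MonoidHom.one_apply, one_mul]
    rw [← Complex.ofReal_tsum, Complex.ofReal_re]
  have hsplit : ∑ j : ZMod p, (T j).re =
      (T 0).re + ∑ j ∈ Finset.univ.erase (0 : ZMod p), (T j).re :=
    (Finset.add_sum_erase _ _ (Finset.mem_univ _)).symm
  have hrest : ∑ j ∈ Finset.univ.erase (0 : ZMod p), (T j).re ≤
      ∑ j ∈ Finset.univ.erase (0 : ZMod p), E j :=
    Finset.sum_le_sum fun j hj => hE j (Finset.ne_of_mem_erase hj) s hs1 hs2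
  rw [← hre, hsplit, hT0]
  linarith

/-- Each prime term is at most `1`. -/
theorem term_le_one {F : Type*} [Field F] [NumberField F] (v : HeightOneSpectrum (𝓞 F)) {s : ℝ}
    (hs : 0 ≤ s) : ((Ideal.absNorm v.asIdeal : ℕ) : ℝ) ^ (-s) ≤ 1 := by
  have h1 : (1 : ℝ) ≤ ((Ideal.absNorm v.asIdeal : ℕ) : ℝ) := by
    have h0 : Ideal.absNorm v.asIdeal ≠ 0 := by
      rw [Ne, Ideal.absNorm_eq_zero_iff]
      exact v.ne_bot
    exact_mod_cast Nat.one_le_iff_ne_zero.mpr h0
  exact Real.rpow_le_one_of_one_le_of_nonpos h1 (by linarith)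

/-- The analytic core, conditional on the bound for primes of non-prime norm. -/
theorem analytic_core_of (hp : 3 ≤ p) {ζ : K} (hζ : IsPrimitiveRoot ζ p) (c : (𝓞 K)ˣ)
    (hc : ¬ ∃ t : K, ((c : 𝓞 K) : K) = t ^ p)
    (φ : Additive (ClassGroup (𝓞 K)) →+ ZMod p) (hφ : φ ≠ 0)
    (H : ∀ v : HeightOneSpectrum (𝓞 K), (Ideal.absNorm v.asIdeal).Prime →
      ((p : ℕ) : 𝓞 K) ∉ v.asIdeal → φ (Additive.ofMul (cls v)) ≠ 0 →
        ∃ t : 𝓞 K, (c : 𝓞 K) - t ^ p ∈ v.asIdeal)
    (hnp : ∃ C : ℝ, ∀ s : ℝ, 1 < s → ∀ T : Finset (HeightOneSpectrum (𝓞 K)),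
      (∀ w ∈ T, ¬ (Ideal.absNorm w.asIdeal).Prime) →
        ∑ w ∈ T, ((Ideal.absNorm w.asIdeal : ℕ) : ℝ) ^ (-s) ≤ C) : False := by
  classical
  have hpr : p.Prime := Fact.out
  obtain ⟨M, iF, iN, hM⟩ := KummerSplit.exists_kummer_field_sum hζ c hc
  obtain ⟨CK, hCK⟩ := PrimeSums.prime_sum_bound K
  obtain ⟨CM, hCM⟩ := PrimeSums.prime_sum_bound M
  obtain ⟨D, hD⟩ := zero_set_bound φ hφ
  obtain ⟨Cnp, hCnp⟩ := hnp
  have hp0 : Ideal.span {((p : ℕ) : 𝓞 K)} ≠ 0 := by
    rw [Ne, Ideal.zero_eq_bot, Ideal.span_singleton_eq_bot]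
    exact_mod_cast hpr.ne_zero
  have hfin : {v : HeightOneSpectrum (𝓞 K) | v.asIdeal ∣ Ideal.span {((p : ℕ) : 𝓞 K)}}.Finite :=
    Ideal.finite_factors hp0
  set np : ℝ := (hfin.toFinset.card : ℝ) with hnpdef
  set R : ℝ := ((p : ℝ) - 1) * CK + CM + D + (p : ℝ) * (Cnp + np) with hR
  have hp3 : (3 : ℝ) ≤ (p : ℝ) := by exact_mod_cast hp
  have main : ∀ s : ℝ, 1 < s → s ≤ 2 → ((p : ℝ) - 2) * Real.log (1 / (s - 1)) ≤ R := by
    intro s hs1 hs2
    set a : HeightOneSpectrum (𝓞 K) → ℝ := fun v => ((Ideal.absNorm v.asIdeal : ℕ) : ℝ) ^ (-s)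
      with ha
    set aM : HeightOneSpectrum (𝓞 M) → ℝ := fun w => ((Ideal.absNorm w.asIdeal : ℕ) : ℝ) ^ (-s)
      with haM
    have ha0 : ∀ v, 0 ≤ a v := fun v => Real.rpow_nonneg (Nat.cast_nonneg _) _
    have haM0 : ∀ w, 0 ≤ aM w := fun w => Real.rpow_nonneg (Nat.cast_nonneg _) _
    have hsa : Summable a := PrimeSums.summable_primes K hs1
    have hsaM : Summable aM := PrimeSums.summable_primes M hs1
    set PK : ℝ := ∑' v, a v with hPK
    set PM : ℝ := ∑' w, aM w with hPM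
    set SZ : ℝ := ∑' v : HeightOneSpectrum (𝓞 K),
      (if φ (Additive.ofMul (cls v)) = 0 then a v else 0) with hSZ
    set SN : ℝ := ∑' v : HeightOneSpectrum (𝓞 K),
      (if φ (Additive.ofMul (cls v)) = 0 then 0 else a v) with hSN
    have hsZ : Summable fun v : HeightOneSpectrum (𝓞 K) =>
        (if φ (Additive.ofMul (cls v)) = 0 then a v else 0) :=
      Summable.of_nonneg_of_le (fun v => by split_ifs <;> simp [ha0 v])
        (fun v => by split_ifs <;> simp [ha0 v]) hsa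
    have hsN : Summable fun v : HeightOneSpectrum (𝓞 K) =>
        (if φ (Additive.ofMul (cls v)) = 0 then 0 else a v) :=
      Summable.of_nonneg_of_le (fun v => by split_ifs <;> simp [ha0 v])
        (fun v => by split_ifs <;> simp [ha0 v]) hsa
    have hsplit : PK = SZ + SN := by
      rw [hSZ, hSN, ← hsZ.tsum_add hsN, hPK]
      refine tsum_congr fun v => ?_
      split_ifs <;> simp
    have hDs : (p : ℝ) * SZ ≤ PK + D := hD s hs1 hs2
    -- the primes with `φ ≠ 0` mostly split in `M`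
    have hSNle : SN ≤ PM / p + Cnp + np := by
      rw [hSN]
      refine Real.tsum_le_of_sum_le (fun v => by split_ifs <;> simp [ha0 v]) fun T => ?_
      set T1 : Finset (HeightOneSpectrum (𝓞 K)) := T.filter fun v =>
        φ (Additive.ofMul (cls v)) ≠ 0 ∧ (Ideal.absNorm v.asIdeal).Prime ∧
          ((p : ℕ) : 𝓞 K) ∉ v.asIdeal with hT1
      set T2 : Finset (HeightOneSpectrum (𝓞 K)) := T.filter fun v =>
        ¬ (Ideal.absNorm v.asIdeal).Prime with hT2
      set T3 : Finset (HeightOneSpectrum (𝓞 K)) := T.filter fun v =>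
        ((p : ℕ) : 𝓞 K) ∈ v.asIdeal with hT3
      have hpt : ∀ v ∈ T, (if φ (Additive.ofMul (cls v)) = 0 then 0 else a v) ≤
          (if φ (Additive.ofMul (cls v)) ≠ 0 ∧ (Ideal.absNorm v.asIdeal).Prime ∧
            ((p : ℕ) : 𝓞 K) ∉ v.asIdeal then a v else 0) +
          (if ¬ (Ideal.absNorm v.asIdeal).Prime then a v else 0) +
          (if ((p : ℕ) : 𝓞 K) ∈ v.asIdeal then a v else 0) := by
        intro v _
        have := ha0 v
        by_cases h1 : φ (Additive.ofMul (cls v)) = 0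
        · simp only [h1, if_true]
          positivity
        · by_cases h2 : (Ideal.absNorm v.asIdeal).Prime
          · by_cases h3 : ((p : ℕ) : 𝓞 K) ∈ v.asIdeal
            · simp [h1, h2, h3]
            · simp [h1, h2, h3]
          · by_cases h3 : ((p : ℕ) : 𝓞 K) ∈ v.asIdeal
            · simp [h1, h2, h3, this]
            · simp [h1, h2, h3]
      have hsum := Finset.sum_le_sum hpt
      rw [Finset.sum_add_distrib, Finset.sum_add_distrib, ← Finset.sum_filter, ← Finset.sum_filter,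
        ← Finset.sum_filter] at hsum
      -- first part: split primes
      have h1 : ∑ v ∈ T1, a v ≤ PM / p := by
        obtain ⟨T', hT'⟩ := hM T1 (fun v hv => by
          rw [hT1, Finset.mem_filter] at hv
          exact ⟨hv.2.2.2, H v hv.2.2.1 hv.2.2.2 hv.2.1⟩)
        have h := hT' (fun n => ((n : ℕ) : ℝ) ^ (-s))
        have h' : ∑ w ∈ T', aM w ≤ PM := hsaM.sum_le_tsum T' (fun w _ => haM0 w)
        have hppos : (0 : ℝ) < p := by linarith
        rw [le_div_iff₀ hppos, mul_comm]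
        calc (p : ℝ) * ∑ v ∈ T1, a v = ∑ w ∈ T', aM w := h.symm
          _ ≤ PM := h'
      -- second part: primes of non-prime norm
      have h2 : ∑ v ∈ T2, a v ≤ Cnp := hCnp s hs1 T2 (fun w hw => by
        rw [hT2, Finset.mem_filter] at hw
        exact hw.2)
      -- third part: primes above `p`
      have h3 : ∑ v ∈ T3, a v ≤ np := by
        have hsub : T3 ⊆ hfin.toFinset := by
          intro v hv
          rw [hT3, Finset.mem_filter] at hv
          rw [Set.Finite.mem_toFinset]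
          show v.asIdeal ∣ Ideal.span {((p : ℕ) : 𝓞 K)}
          rw [Ideal.dvd_span_singleton]
          exact hv.2
        calc ∑ v ∈ T3, a v ≤ ∑ v ∈ T3, (1 : ℝ) :=
              Finset.sum_le_sum fun v _ => term_le_one v (by linarith)
          _ = (T3.card : ℝ) := by simp
          _ ≤ np := by
              rw [hnpdef]
              exact_mod_cast Finset.card_le_card hsub
      linarith
    set L : ℝ := Real.log (1 / (s - 1)) with hL
    have hK : -CK ≤ PK - L ∧ PK - L ≤ CK := abs_le.mp (hCK s hs1 hs2)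
    have hMb : -CM ≤ PM - L ∧ PM - L ≤ CM := abs_le.mp (hCM s hs1 hs2)
    have hppos : (0 : ℝ) < p := by linarith
    -- (p-1) PK ≤ PM + D + p (Cnp + np)
    have e1 : (p : ℝ) * SN ≤ PM + (p : ℝ) * (Cnp + np) := by
      have := mul_le_mul_of_nonneg_left hSNle hppos.le
      have e : (p : ℝ) * (PM / p + Cnp + np) = PM + (p : ℝ) * (Cnp + np) := by
        field_simp
        ring
      linarith
    have e2 : ((p : ℝ) - 1) * PK ≤ PM + D + (p : ℝ) * (Cnp + np) := by
      have : (p : ℝ) * PK = (p : ℝ) * SZ + (p : ℝ) * SN := by rw [hsplit]; ring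
      linarith
    have e3 : ((p : ℝ) - 1) * (L - CK) ≤ ((p : ℝ) - 1) * PK :=
      mul_le_mul_of_nonneg_left (by linarith [hK.1]) (by linarith)
    have e4 : ((p : ℝ) - 2) * L = ((p : ℝ) - 1) * (L - CK) - L + ((p : ℝ) - 1) * CK := by ring
    rw [hR, e4]
    linarith [hMb.2]
  -- contradiction at `s = 1 + exp (-(R' + 1))`
  set R' : ℝ := max R 0 with hR'
  have hR'0 : 0 ≤ R' := le_max_right _ _
  have hRR' : R ≤ R' := le_max_left _ _
  have hs1 : 1 < 1 + Real.exp (-(R' + 1)) := by linarith [Real.exp_pos (-(R' + 1))]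
  have hs2 : 1 + Real.exp (-(R' + 1)) ≤ 2 := by
    have : Real.exp (-(R' + 1)) ≤ 1 := Real.exp_le_one_iff.mpr (by linarith)
    linarith
  have hlog : Real.log (1 / (1 + Real.exp (-(R' + 1)) - 1)) = R' + 1 := by
    rw [add_sub_cancel_left, one_div, Real.log_inv, Real.log_exp, neg_neg]
  have h := main _ hs1 hs2
  rw [hlog] at h
  nlinarith

/-- PACKAGE N (analytic density argument), log form. EXACT frozen statement of
`Analytic.analytic_core`. -/
theorem analytic_core {p : ℕ} [Fact p.Prime] (hp : 3 ≤ p) {K : Type} [Field K] [NumberField K]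
    {ζ : K} (hζ : IsPrimitiveRoot ζ p) (c : (𝓞 K)ˣ) (hc : ¬ ∃ t : K, ((c : 𝓞 K) : K) = t ^ p)
    (φ : Additive (ClassGroup (𝓞 K)) →+ ZMod p) (hφ : φ ≠ 0)
    (H : ∀ v : HeightOneSpectrum (𝓞 K), (Ideal.absNorm v.asIdeal).Prime →
      ((p : ℕ) : 𝓞 K) ∉ v.asIdeal → φ (Additive.ofMul (cls v)) ≠ 0 →
        ∃ t : 𝓞 K, (c : 𝓞 K) - t ^ p ∈ v.asIdeal) : False :=
  analytic_core_of hp hζ c hc φ hφ H (PrimeSums.nonprime_norm_bound K)

end Fermat.Agent.S14.Analytic.CoreLog
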