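import Fermat.Agent.S14.Analytic.Endgame
import Fermat.Agent.S14.Analytic.PrimeSums

/-!
# Package N, block G: the density endgame in the frozen interface shape

`EndgameGlue.endgame` is the statement used by `Analytic.analytic_core`; it is deduced from the
log-free conditional theorem `Endgame.endgame_core` with
`good v := v ∉ T ∧ N v prime ∧ φ([v]) ≠ 0`, using `PrimeSums.nonprime_norm_bound` for the primes
of non-prime norm.
-/

set_option autoImplicit false

open scoped NumberField nonZeroDivisors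
open IsDedekindDomain Fermat.Agent.S14.Defs

namespace Fermat.Agent.S14.Analytic.EndgameGlue

/-- (G) The density endgame: if the partial zeta functions of `K` differ by `O(1)`, `φ` is a
nonzero homomorphism `Cl(K) → 𝔽_p` (`p ≥ 3`), and every prime `v ∉ T` of prime norm with
`φ([v]) ≠ 0` has `p` primes of the same norm above it in `M`, we get a contradiction. -/
theorem endgame {p : ℕ} [Fact p.Prime] (hp : 3 ≤ p) {K M : Type} [Field K] [NumberField K]
    [Field M] [NumberField M] [Algebra K M]
    (hB : ∀ C C' : ClassGroup (𝓞 K), ∃ B : ℝ, ∀ s : ℝ, 1 < s → s ≤ 2 →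
      |(∑' I : {I : (Ideal (𝓞 K))⁰ // ClassGroup.mk0 I = C},
          (Ideal.absNorm (I.1 : Ideal (𝓞 K)) : ℝ) ^ (-s))
        - (∑' I : {I : (Ideal (𝓞 K))⁰ // ClassGroup.mk0 I = C'},
          (Ideal.absNorm (I.1 : Ideal (𝓞 K)) : ℝ) ^ (-s))| ≤ B)
    (φ : Additive (ClassGroup (𝓞 K)) →+ ZMod p) (hφ : φ ≠ 0)
    (T : Finset (HeightOneSpectrum (𝓞 K)))
    (H : ∀ v : HeightOneSpectrum (𝓞 K), v ∉ T → (Ideal.absNorm v.asIdeal).Prime →
      φ (Additive.ofMul (cls v)) ≠ 0 →
        ∃ S : Finset (HeightOneSpectrum (𝓞 M)), S.card = p ∧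
          ∀ w ∈ S, Ideal.absNorm w.asIdeal = Ideal.absNorm v.asIdeal ∧
            w.asIdeal.comap (algebraMap (𝓞 K) (𝓞 M)) = v.asIdeal) : False := by
  classical
  set good : HeightOneSpectrum (𝓞 K) → Prop := fun v =>
    v ∉ T ∧ (Ideal.absNorm v.asIdeal).Prime ∧ φ (Additive.ofMul (cls v)) ≠ 0 with hgood
  refine Endgame.endgame_core φ hp (M := M) hφ good ?_ ?_ ?_
  · -- the `p` primes above each good prime
    intro T₀ hT₀
    choose! S hS using fun v (hv : good v) => H v hv.1 hv.2.1 hv.2.2
    refine ⟨T₀.biUnion S, fun f => ?_⟩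
    rw [Finset.sum_biUnion]
    · rw [Finset.mul_sum]
      refine Finset.sum_congr rfl fun v hv => ?_
      obtain ⟨hcard, hw⟩ := hS v (hT₀ v hv)
      rw [Finset.sum_congr rfl (fun w hw' => by rw [(hw w hw').1]), Finset.sum_const, hcard,
        nsmul_eq_mul]
    · intro v hv v' hv' hne
      rw [Function.onFun, Finset.disjoint_left]
      intro w hw hw'
      apply hne
      have h1 := ((hS v (hT₀ v hv)).2 w hw).2
      have h2 := ((hS v' (hT₀ v' hv')).2 w hw').2
      exact HeightOneSpectrum.ext (h1.symm.trans h2)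
  · -- the bad primes: those of `T` and those of non-prime norm
    obtain ⟨C, hC⟩ := PrimeSums.nonprime_norm_bound K
    refine ⟨T.card + C, fun s hs1 _ T₀ hT₀ => ?_⟩
    rw [← Finset.sum_filter_add_sum_filter_not T₀ (fun v => v ∈ T)]
    refine add_le_add ?_ ?_
    · calc ∑ v ∈ T₀.filter (fun v => v ∈ T), ((Ideal.absNorm v.asIdeal : ℕ) : ℝ) ^ (-s)
          ≤ ∑ v ∈ T₀.filter (fun v => v ∈ T), (1 : ℝ) := by
            refine Finset.sum_le_sum fun v _ => ?_
            refine Real.rpow_le_one_of_one_le_of_nonpos ?_ (by linarith)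
            have := PrimeSums.two_le_absNorm K v
            exact_mod_cast (by omega : 1 ≤ Ideal.absNorm v.asIdeal)
        _ = ((T₀.filter (fun v => v ∈ T)).card : ℝ) := by simp
        _ ≤ (T.card : ℝ) := by
            exact_mod_cast Finset.card_le_card (fun v hv => (Finset.mem_filter.mp hv).2)
    · refine hC s hs1 _ fun v hv hprime => ?_
      rw [Finset.mem_filter] at hv
      exact (hT₀ v hv.1).2 ⟨hv.2, hprime, (hT₀ v hv.1).1⟩
  · -- the partial zeta functions
    intro C C'
    obtain ⟨B, hB'⟩ := hB C C'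
    exact ⟨B, fun s hs1 hs2 => hB' s hs1 hs2⟩

end Fermat.Agent.S14.Analytic.EndgameGlue
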