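import Mathlib

set_option autoImplicit false

/-!
# S14, package N, brick N4: Kummer splitting of primes

Let `K` be a number field containing a primitive `p`-th root of unity `ζ` (`p` prime) and let `c`
be a unit of `𝓞 K` which is not a `p`-th power in `K`.  Put `M := K[X]/(X^p - c)`.  If `v` is a
prime of `𝓞 K` not containing `p` such that `c ≡ t^p mod v`, then there are `p` distinct primes of
`𝓞 M` above `v`, all of the same absolute norm as `v`.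
-/

open scoped NumberField nonZeroDivisors
open IsDedekindDomain Polynomial

namespace Fermat.Agent.S14.Analytic.Kummer

/-- `1 - μ ∣ p` for a nontrivial `p`-th root of unity `μ` in a domain. -/
theorem one_sub_dvd_natCast {R : Type*} [CommRing R] [IsDomain R] {p : ℕ} (μ : R)
    (hμ : μ ^ p = 1) (hμ1 : μ ≠ 1) : (1 - μ) ∣ (p : R) := by
  have hsum : ∑ k ∈ Finset.range p, μ ^ k = 0 := by
    have h := mul_geom_sum μ p
    rw [hμ, sub_self] at h
    exact (mul_eq_zero.mp h).resolve_left (sub_ne_zero.mpr hμ1)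
  have h2 : (p : R) = ∑ k ∈ Finset.range p, (1 - μ ^ k) := by
    rw [Finset.sum_sub_distrib, hsum]; simp
  rw [h2]
  exact Finset.dvd_sum fun k _ => by simpa using sub_dvd_pow_sub_pow (1 : R) μ k

/-- The difference of two distinct `p`-th roots of unity divides `p` in a domain. -/
theorem sub_dvd_natCast_of_pow_eq_one {R : Type*} [CommRing R] [IsDomain R] {p : ℕ} (hp : 0 < p)
    (μ₁ μ₂ : R) (h₁ : μ₁ ^ p = 1) (h₂ : μ₂ ^ p = 1) (hne : μ₁ ≠ μ₂) : (μ₁ - μ₂) ∣ (p : R) := by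
  obtain ⟨q, rfl⟩ : ∃ q, p = q + 1 := ⟨p - 1, by omega⟩
  have hinv : μ₁ * μ₁ ^ q = 1 := by rw [← pow_succ']; exact h₁
  have hμ : (μ₂ * μ₁ ^ q) ^ (q + 1) = 1 := by
    rw [mul_pow, h₂, one_mul, ← pow_mul, mul_comm, pow_mul, h₁, one_pow]
  have hμ1 : μ₂ * μ₁ ^ q ≠ 1 := by
    intro h
    apply hne
    calc μ₁ = μ₁ * (μ₂ * μ₁ ^ q) := by rw [h, mul_one]
      _ = μ₂ * (μ₁ * μ₁ ^ q) := by ring
      _ = μ₂ := by rw [hinv, mul_one]
  obtain ⟨k, hk⟩ := one_sub_dvd_natCast (μ₂ * μ₁ ^ q) hμ hμ1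
  refine ⟨μ₁ ^ q * k, ?_⟩
  rw [hk]
  have : μ₁ - μ₂ = μ₁ * (1 - μ₂ * μ₁ ^ q) := by
    have : μ₁ * (1 - μ₂ * μ₁ ^ q) = μ₁ - μ₂ * (μ₁ * μ₁ ^ q) := by ring
    rw [this, hinv, mul_one]
  rw [this]
  calc (1 - μ₂ * μ₁ ^ q) * k = (μ₁ * μ₁ ^ q) * ((1 - μ₂ * μ₁ ^ q) * k) := by rw [hinv, one_mul]
    _ = μ₁ * (1 - μ₂ * μ₁ ^ q) * (μ₁ ^ q * k) := by ring

section Abstract

variable {K L : Type*} [Field K] [NumberField K] [Field L] [NumberField L] [Algebra K L]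

/-- Abstract Kummer splitting: `p` distinct primes of the same norm above `v`. -/
theorem exists_primes_over {p : ℕ} (hp : p.Prime) (hdeg : Module.finrank K L = p)
    (ζ : 𝓞 K) (hζ : IsPrimitiveRoot ζ p) (c : 𝓞 K) (hc : IsUnit c)
    (θ : 𝓞 L) (hθ : θ ^ p = algebraMap (𝓞 K) (𝓞 L) c)
    (τ : ℕ → (𝓞 L ≃ₐ[𝓞 K] 𝓞 L)) (hτ : ∀ i, τ i θ = algebraMap (𝓞 K) (𝓞 L) (ζ ^ i) * θ)
    (v : Ideal (𝓞 K)) [hvp : v.IsPrime] (hv0 : v ≠ ⊥) (hpv : (p : 𝓞 K) ∉ v)
    (t : 𝓞 K) (ht : c - t ^ p ∈ v) :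
    ∃ w : Fin p → Ideal (𝓞 L), Function.Injective w ∧ (∀ j, (w j).IsPrime) ∧
      (∀ j, (w j).LiesOver v) ∧ ∀ j, Ideal.absNorm (w j) = Ideal.absNorm v := by
  classical
  have hp0 : 0 < p := hp.pos
  have : NeZero p := ⟨hp.ne_zero⟩
  have hvmax : v.IsMaximal := hvp.isMaximal hv0
  obtain ⟨w0, hw0max, hw0v⟩ := Ideal.exists_maximal_ideal_liesOver_of_isIntegral (S := 𝓞 L) v
  have hw0prime : w0.IsPrime := hw0max.isPrime
  have hainj : Function.Injective (algebraMap (𝓞 K) (𝓞 L)) :=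
    NumberField.RingOfIntegers.algebraMap.injective K L
  have hζL : IsPrimitiveRoot (algebraMap (𝓞 K) (𝓞 L) ζ) p := hζ.map_of_injective hainj
  have hmem0 : ∀ x : 𝓞 K, algebraMap (𝓞 K) (𝓞 L) x ∈ w0 ↔ x ∈ v := by
    intro x
    rw [hw0v.over]
    exact Iff.rfl
  have h1 : θ ^ p - (algebraMap (𝓞 K) (𝓞 L) t) ^ p ∈ w0 := by
    rw [hθ, ← map_pow, ← map_sub]; exact (hmem0 _).mpr ht
  rw [hζL.pow_sub_pow_eq_prod_sub_mul _ _ hp0] at h1
  obtain ⟨μ, hμmem, hμ⟩ := (Ideal.IsPrime.prod_mem_iff).mp h1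
  have hμp : μ ^ p = 1 := ((mem_nthRootsFinset hp0 1).mp hμmem)
  obtain ⟨j0, -, rfl⟩ := hζL.eq_pow_of_pow_eq_one hμp
  -- the primes
  let w : Fin p → Ideal (𝓞 L) := fun j => Ideal.comap (τ j) w0
  have hwprime : ∀ j, (w j).IsPrime := fun j => Ideal.comap_isPrime _ _
  have hwmem : ∀ (j : Fin p) (x : 𝓞 K), algebraMap (𝓞 K) (𝓞 L) x ∈ w j ↔ x ∈ v := by
    intro j x
    rw [← hmem0 x]
    show τ j (algebraMap (𝓞 K) (𝓞 L) x) ∈ w0 ↔ _
    rw [AlgEquiv.commutes]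
  have hwlies : ∀ j, (w j).LiesOver v := by
    intro j
    refine ⟨?_⟩
    ext x
    rw [Ideal.under_def, Ideal.mem_comap, hwmem]
  have hkey : ∀ j : Fin p,
      θ - algebraMap (𝓞 K) (𝓞 L) ζ ^ (j0 + (j : ℕ)) * algebraMap (𝓞 K) (𝓞 L) t ∈ w j := by
    intro j
    show τ j (θ - algebraMap (𝓞 K) (𝓞 L) ζ ^ (j0 + (j : ℕ)) * algebraMap (𝓞 K) (𝓞 L) t) ∈ w0
    have : τ j (θ - algebraMap (𝓞 K) (𝓞 L) ζ ^ (j0 + (j : ℕ)) * algebraMap (𝓞 K) (𝓞 L) t) =
        algebraMap (𝓞 K) (𝓞 L) ζ ^ (j : ℕ) *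
          (θ - algebraMap (𝓞 K) (𝓞 L) ζ ^ j0 * algebraMap (𝓞 K) (𝓞 L) t) := by
      simp only [map_sub, map_mul, map_pow, AlgEquiv.commutes, hτ]; ring
    rw [this]; exact Ideal.mul_mem_left _ _ hμ
  have htv : t ∉ v := by
    intro htv
    have hcv : c ∈ v := by
      have := v.add_mem ht (v.pow_mem_of_mem htv p hp0)
      simpa using this
    exact hvp.ne_top (Ideal.eq_top_of_isUnit_mem _ hcv hc)
  have hinj : Function.Injective w := by
    intro i j hij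
    by_contra hne
    have hi := hkey i
    have hj := hkey j
    rw [← hij] at hj
    have hdiff := (w i).sub_mem hj hi
    have e : (θ - algebraMap (𝓞 K) (𝓞 L) ζ ^ (j0 + (j : ℕ)) * algebraMap (𝓞 K) (𝓞 L) t) -
        (θ - algebraMap (𝓞 K) (𝓞 L) ζ ^ (j0 + (i : ℕ)) * algebraMap (𝓞 K) (𝓞 L) t) =
        algebraMap (𝓞 K) (𝓞 L) ((ζ ^ (j0 + (i : ℕ)) - ζ ^ (j0 + (j : ℕ))) * t) := by
      simp only [map_mul, map_sub, map_pow]; ring
    rw [e, hwmem] at hdiff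
    rcases hvp.mem_or_mem hdiff with h | h
    · have hne' : ζ ^ (j0 + (i : ℕ)) ≠ ζ ^ (j0 + (j : ℕ)) := by
        intro heq
        rw [pow_add, pow_add] at heq
        have hunit : IsUnit (ζ ^ j0) := (hζ.isUnit hp0.ne').pow j0
        have heq' := hunit.mul_left_cancel heq
        exact hne (Fin.ext (hζ.pow_inj i.2 j.2 heq'))
      have hdvd := sub_dvd_natCast_of_pow_eq_one hp0 (ζ ^ (j0 + (i : ℕ))) (ζ ^ (j0 + (j : ℕ)))
        (by rw [← pow_mul, mul_comm, pow_mul, hζ.pow_eq_one, one_pow])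
        (by rw [← pow_mul, mul_comm, pow_mul, hζ.pow_eq_one, one_pow]) hne'
      exact hpv (v.mem_of_dvd hdvd h)
    · exact htv h
  refine ⟨w, hinj, hwprime, hwlies, ?_⟩
  -- norms
  have hwne : ∀ j, w j ≠ ⊥ := fun j =>
    haveI := hwlies j
    Ideal.ne_bot_of_liesOver_of_ne_bot hv0 (w j)
  have hwmax : ∀ j, (w j).IsMaximal := fun j => (hwprime j).isMaximal (hwne j)
  have hN2 : 2 ≤ Ideal.absNorm v := by
    have h0 : Ideal.absNorm v ≠ 0 := by rw [Ne, Ideal.absNorm_eq_zero_iff]; exact hv0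
    have h1 : Ideal.absNorm v ≠ 1 := by rw [Ne, Ideal.absNorm_eq_one_iff]; exact hvp.ne_top
    omega
  have hf : ∀ j, Ideal.absNorm v ^ (w j).inertiaDeg (𝓞 K) = Ideal.absNorm (w j) := fun j =>
    haveI := hwlies j
    haveI := hwprime j
    Ideal.absNorm_pow_inertiaDeg v (w j)
  have hfpos : ∀ j, 0 < (w j).inertiaDeg (𝓞 K) := fun j =>
    haveI := hwprime j
    Ideal.inertiaDeg_pos (w j) (𝓞 K)
  have hdvd : ∏ j, w j ∣ v.map (algebraMap (𝓞 K) (𝓞 L)) := by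
    apply Finset.prod_dvd_of_coprime
    · intro i _ j _ hij
      exact Ideal.isCoprime_iff_sup_eq.mpr
        (Ideal.IsMaximal.coprime_of_ne (hwmax i) (hwmax j) (hinj.ne hij))
    · intro j _
      rw [Ideal.dvd_iff_le, Ideal.map_le_iff_le_comap]
      intro x hx
      exact (hwmem j x).mpr hx
  have hdvd' := map_dvd Ideal.absNorm hdvd
  have hrank : Module.finrank (𝓞 K) (𝓞 L) = p := by
    rw [← IsFractionRing.finrank_eq (𝓞 K) K (𝓞 L) L, hdeg]
  rw [map_prod, Ideal.absNorm_algebraMap, hrank] at hdvd'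
  simp_rw [← hf] at hdvd'
  rw [Finset.prod_pow_eq_pow_sum] at hdvd'
  have hle : ∑ j : Fin p, (w j).inertiaDeg (𝓞 K) ≤ p := (Nat.pow_dvd_pow_iff_le_right hN2).mp hdvd'
  intro j
  have hj1 : (w j).inertiaDeg (𝓞 K) = 1 := by
    by_contra hne
    have h2 : 2 ≤ (w j).inertiaDeg (𝓞 K) := by have := hfpos j; omega
    have hsum : p + 1 ≤ ∑ i : Fin p, (w i).inertiaDeg (𝓞 K) := by
      have hcard : ∑ i : Fin p, 1 = p := by simp
      have hstep : ∑ i : Fin p, 1 < ∑ i : Fin p, (w i).inertiaDeg (𝓞 K) :=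
        Finset.sum_lt_sum (fun i _ => hfpos i) ⟨j, Finset.mem_univ j, h2⟩
      omega
    omega
  rw [← hf j, hj1, pow_one]

end Abstract

section Concrete

variable {p : ℕ} [hp : Fact p.Prime] {K : Type} [Field K] [NumberField K]

omit [NumberField K] in
/-- The Kummer polynomial `X^p - c` is irreducible when `c` is not a `p`-th power. -/
theorem kummerPoly_irreducible (c : K) (hc : ¬ ∃ t : K, c = t ^ p) :
    Irreducible (X ^ p - C c : K[X]) :=
  X_pow_sub_C_irreducible_of_prime hp.out (fun b hb => hc ⟨b, hb.symm⟩)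

/-- Injective form of Kummer splitting: the field `M = K(c^(1/p))` together with an injection
from (good primes of `K`) `× Fin p` to the primes of `M`, preserving absolute norms. -/
theorem exists_kummer_embedding {ζ : K} (hζ : IsPrimitiveRoot ζ p) (c : (𝓞 K)ˣ)
    (hc : ¬ ∃ t : K, ((c : 𝓞 K) : K) = t ^ p) :
    ∃ (M : Type) (_ : Field M) (_ : NumberField M)
      (Φ : {v : HeightOneSpectrum (𝓞 K) // ((p : ℕ) : 𝓞 K) ∉ v.asIdeal ∧
          ∃ t : 𝓞 K, (c : 𝓞 K) - t ^ p ∈ v.asIdeal} × Fin p → HeightOneSpectrum (𝓞 M)),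
      Function.Injective Φ ∧
        ∀ x, Ideal.absNorm (Φ x).asIdeal = Ideal.absNorm x.1.1.asIdeal := by
  classical
  have hp0 : 0 < p := hp.out.pos
  have : NeZero p := ⟨hp.out.ne_zero⟩
  obtain ⟨f, hf⟩ : ∃ f : K[X], f = X ^ p - C ((c : 𝓞 K) : K) := ⟨_, rfl⟩
  have hirr : Irreducible f := hf ▸ kummerPoly_irreducible _ hc
  have hfdeg : f.natDegree = p := by rw [hf]; exact natDegree_X_pow_sub_C
  have hev : ∀ {B : Type} [CommRing B] (φ : K →+* B) (x : B),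
      f.eval₂ φ x = x ^ p - φ ((c : 𝓞 K) : K) := by
    intro B _ φ x
    rw [hf, eval₂_sub, eval₂_pow, eval₂_X, eval₂_C]
  have : Fact (Irreducible f) := ⟨hirr⟩
  have hf0 : f ≠ 0 := hirr.ne_zero
  have : FiniteDimensional K (AdjoinRoot f) := (AdjoinRoot.powerBasis hf0).finite
  have : NumberField (AdjoinRoot f) := NumberField.of_module_finite K (AdjoinRoot f)
  have hdeg : Module.finrank K (AdjoinRoot f) = p := by
    rw [(AdjoinRoot.powerBasis hf0).finrank, AdjoinRoot.powerBasis_dim, hfdeg]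
  -- the root
  have hroot : (AdjoinRoot.root f) ^ p = algebraMap K (AdjoinRoot f) ((c : 𝓞 K) : K) := by
    have h := AdjoinRoot.eval₂_root f
    rw [hev, sub_eq_zero] at h
    rw [h, AdjoinRoot.algebraMap_eq]
  have hθint : IsIntegral ℤ (AdjoinRoot.root f) := by
    apply IsIntegral.of_pow hp0
    rw [hroot]
    exact (c : 𝓞 K).2.algebraMap
  let θ : 𝓞 (AdjoinRoot f) := ⟨AdjoinRoot.root f, hθint⟩
  have hθ : θ ^ p = algebraMap (𝓞 K) (𝓞 (AdjoinRoot f)) (c : 𝓞 K) := by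
    apply NumberField.RingOfIntegers.ext
    exact hroot
  -- the automorphisms
  have hσex : ∀ i : ℕ, ∃ σ : AdjoinRoot f ≃ₐ[K] AdjoinRoot f,
      σ (AdjoinRoot.root f) = algebraMap K (AdjoinRoot f) (ζ ^ i) * AdjoinRoot.root f := by
    intro i
    have h0 : f.eval₂ (Algebra.ofId K (AdjoinRoot f))
        (algebraMap K (AdjoinRoot f) (ζ ^ i) * AdjoinRoot.root f) = 0 := by
      rw [hev, mul_pow, hroot, ← map_pow, ← pow_mul,
        mul_comm i p, pow_mul, hζ.pow_eq_one, one_pow, map_one, one_mul]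
      exact sub_self _
    let σ₀ : AdjoinRoot f →ₐ[K] AdjoinRoot f :=
      AdjoinRoot.liftAlgHom f (Algebra.ofId K (AdjoinRoot f)) _ h0
    refine ⟨AlgEquiv.ofBijective σ₀ (Algebra.IsAlgebraic.algHom_bijective σ₀), ?_⟩
    exact AdjoinRoot.liftAlgHom_root f _ _ h0
  choose σ hσ using hσex
  let τ : ℕ → (𝓞 (AdjoinRoot f) ≃ₐ[𝓞 K] 𝓞 (AdjoinRoot f)) := fun i =>
    NumberField.RingOfIntegers.mapAlgEquiv (σ i)
  have hτ : ∀ i, τ i θ = algebraMap (𝓞 K) (𝓞 (AdjoinRoot f)) (hζ.toInteger ^ i) * θ := by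
    intro i
    apply NumberField.RingOfIntegers.ext
    exact hσ i
  have key : ∀ x : {v : HeightOneSpectrum (𝓞 K) // ((p : ℕ) : 𝓞 K) ∉ v.asIdeal ∧
      ∃ t : 𝓞 K, (c : 𝓞 K) - t ^ p ∈ v.asIdeal},
      ∃ w : Fin p → Ideal (𝓞 (AdjoinRoot f)), Function.Injective w ∧ (∀ j, (w j).IsPrime) ∧
        (∀ j, (w j).LiesOver x.1.asIdeal) ∧
        ∀ j, Ideal.absNorm (w j) = Ideal.absNorm x.1.asIdeal := by
    rintro ⟨v, hpv, t, ht⟩
    have := v.isPrime
    exact exists_primes_over hp.out hdeg hζ.toInteger hζ.toInteger_isPrimitiveRoot (c : 𝓞 K)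
      c.isUnit θ hθ τ hτ v.asIdeal v.ne_bot hpv t ht
  choose W hWinj hWprime hWlies hWnorm using key
  have hWne : ∀ x j, W x j ≠ ⊥ := fun x j =>
    haveI := hWlies x j
    Ideal.ne_bot_of_liesOver_of_ne_bot x.1.ne_bot (W x j)
  refine ⟨AdjoinRoot f, inferInstance, inferInstance,
    fun x => ⟨W x.1 x.2, hWprime x.1 x.2, hWne x.1 x.2⟩, ?_, fun x => hWnorm x.1 x.2⟩
  rintro ⟨x, i⟩ ⟨y, j⟩ hxy
  have hI : W x i = W y j := congrArg HeightOneSpectrum.asIdeal hxy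
  have hxy' : x = y := by
    apply Subtype.ext
    apply HeightOneSpectrum.ext
    rw [(hWlies x i).over, (hWlies y j).over, hI]
  subst hxy'
  rw [hWinj x hI]

/-- **N4 (Kummer splitting), finset form.** There is a number field `M` (namely `K(c^(1/p))`)
such that for every finite set `T` of primes `v ∤ p` of `K` modulo which `c` is a `p`-th power,
there is a finite set `T'` of primes of `M` over which every "norm sum" is `p` times the
corresponding sum over `T`. -/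
theorem exists_kummer_field {ζ : K} (hζ : IsPrimitiveRoot ζ p) (c : (𝓞 K)ˣ)
    (hc : ¬ ∃ t : K, ((c : 𝓞 K) : K) = t ^ p) :
    ∃ (M : Type) (_ : Field M) (_ : NumberField M),
      ∀ T : Finset (HeightOneSpectrum (𝓞 K)),
        (∀ v ∈ T, ((p : ℕ) : 𝓞 K) ∉ v.asIdeal ∧ ∃ t : 𝓞 K, (c : 𝓞 K) - t ^ p ∈ v.asIdeal) →
        ∃ T' : Finset (HeightOneSpectrum (𝓞 M)), ∀ f : ℕ → ℝ,
          ∑ w ∈ T', f (Ideal.absNorm w.asIdeal) = p * ∑ v ∈ T, f (Ideal.absNorm v.asIdeal) := by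
  classical
  obtain ⟨M, hM1, hM2, Φ, hΦ, hN⟩ := exists_kummer_embedding hζ c hc
  refine ⟨M, hM1, hM2, fun T hT => ?_⟩
  let g : {v // v ∈ T} × Fin p → HeightOneSpectrum (𝓞 M) :=
    fun x => Φ (⟨x.1.1, hT x.1.1 x.1.2⟩, x.2)
  have hg : Function.Injective g := by
    rintro ⟨x, i⟩ ⟨y, j⟩ hxy
    have h := hΦ hxy
    simp only [Prod.mk.injEq, Subtype.mk.injEq] at h
    exact Prod.ext (Subtype.ext h.1) h.2
  refine ⟨(T.attach ×ˢ (Finset.univ : Finset (Fin p))).image g, fun f => ?_⟩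
  rw [Finset.sum_image (fun a _ b _ h => hg h), Finset.sum_product]
  have h1 : ∀ x : {v // v ∈ T}, ∑ j : Fin p, f (Ideal.absNorm (g (x, j)).asIdeal) =
      p * f (Ideal.absNorm x.1.asIdeal) := by
    intro x
    have : ∀ j : Fin p, f (Ideal.absNorm (g (x, j)).asIdeal) = f (Ideal.absNorm x.1.asIdeal) :=
      fun j => by rw [hN]
    simp [this]
  simp_rw [h1]
  rw [← Finset.mul_sum, Finset.sum_attach T (fun v => f (Ideal.absNorm v.asIdeal))]

end Concrete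

end Fermat.Agent.S14.Analytic.Kummer
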