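import Mathlib

set_option autoImplicit false

/-!
# A Lipschitz partition of unity relative to a lattice

For a `ℤ`-lattice `Λ` of a finite-dimensional real normed space `E` we construct `Ψ : E → ℝ`,
non-negative, bounded by `1`, with bounded support, Lipschitz, and with `∑ l ∈ Λ, Ψ (v + l) = 1`
for every `v` (`exists_lattice_partition`).  `Ψ` is the product of the tent functions
`max 0 (1 - |t|)` of the coordinates in a `ℤ`-basis of `Λ`.
-/

namespace Fermat.Agent.S14.Analytic.PartUnity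

open Module

/-- The tent function `max 0 (1 - |t|)`. -/
noncomputable def tent (t : ℝ) : ℝ := max 0 (1 - |t|)

lemma tent_nonneg (t : ℝ) : 0 ≤ tent t := le_max_left _ _

lemma tent_le_one (t : ℝ) : tent t ≤ 1 := by
  unfold tent
  exact max_le zero_le_one (by linarith [abs_nonneg t])

lemma tent_eq_zero {t : ℝ} (h : 1 ≤ |t|) : tent t = 0 := by
  unfold tent
  exact max_eq_left (by linarith)

lemma tent_of_nonneg {t : ℝ} (h0 : 0 ≤ t) (h1 : t ≤ 1) : tent t = 1 - t := by
  unfold tent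
  rw [abs_of_nonneg h0]
  exact max_eq_right (by linarith)

lemma tent_of_nonpos {t : ℝ} (h0 : t ≤ 0) (h1 : -1 ≤ t) : tent t = 1 + t := by
  unfold tent
  rw [abs_of_nonpos h0]
  rw [max_eq_right (by linarith)]
  ring

lemma tent_sub_le (a b : ℝ) : |tent a - tent b| ≤ |a - b| := by
  unfold tent
  rw [max_comm 0, max_comm 0]
  refine (abs_max_sub_max_le_abs (1 - |a|) (1 - |b|) (0 : ℝ)).trans ?_
  have : (1 - |a|) - (1 - |b|) = -(|a| - |b|) := by ring
  rw [this, abs_neg]
  exact abs_abs_sub_abs_le_abs_sub a b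

/-- The two integer translates of `t` that meet the support of the tent function. -/
lemma tent_translate_sum (t : ℝ) :
    tent (t + ((-⌊t⌋ : ℤ) : ℝ)) + tent (t + ((-⌊t⌋ - 1 : ℤ) : ℝ)) = 1 := by
  have h0 := Int.fract_nonneg t
  have h1 := Int.fract_lt_one t
  have e1 : t + ((-⌊t⌋ : ℤ) : ℝ) = Int.fract t := by
    rw [Int.fract]; push_cast; ring
  have e2 : t + ((-⌊t⌋ - 1 : ℤ) : ℝ) = Int.fract t - 1 := by
    rw [Int.fract]; push_cast; ring
  rw [e1, e2, tent_of_nonneg h0 h1.le, tent_of_nonpos (by linarith) (by linarith)]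
  ring

lemma tent_translate_eq_zero (t : ℝ) (m : ℤ) (h1 : m ≠ -⌊t⌋) (h2 : m ≠ -⌊t⌋ - 1) :
    tent (t + (m : ℝ)) = 0 := by
  have h0 := Int.fract_nonneg t
  have hlt := Int.fract_lt_one t
  have e : t = Int.fract t + (⌊t⌋ : ℝ) := by rw [Int.fract]; ring
  apply tent_eq_zero
  rcases lt_or_gt_of_ne h1 with h | h
  · have h' : m ≤ -⌊t⌋ - 2 := by
      rcases lt_or_gt_of_ne h2 with h3 | h3
      · omega
      · omega
    have : (m : ℝ) ≤ -(⌊t⌋ : ℝ) - 2 := by exact_mod_cast h'
    rw [abs_of_nonpos (by linarith)]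
    linarith
  · have h' : -⌊t⌋ + 1 ≤ m := by omega
    have : -(⌊t⌋ : ℝ) + 1 ≤ (m : ℝ) := by exact_mod_cast h'
    rw [abs_of_nonneg (by linarith)]
    linarith

/-- `∑ m ∈ ℤ, tent (t + m) = 1`, as a finite sum. -/
lemma sum_tent_translate (t : ℝ) :
    ∑ m ∈ ({-⌊t⌋, -⌊t⌋ - 1} : Finset ℤ), tent (t + (m : ℝ)) = 1 := by
  rw [Finset.sum_pair (by omega)]
  exact tent_translate_sum t

/-- Difference of two products of numbers in `[0, 1]`. -/
lemma abs_prod_sub_prod_le {ι : Type*} (s : Finset ι) (a b : ι → ℝ)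
    (ha : ∀ i, 0 ≤ a i ∧ a i ≤ 1) (hb : ∀ i, 0 ≤ b i ∧ b i ≤ 1) :
    |∏ i ∈ s, a i - ∏ i ∈ s, b i| ≤ ∑ i ∈ s, |a i - b i| := by
  classical
  induction s using Finset.induction_on with
  | empty => simp
  | insert j s hj ih =>
    rw [Finset.prod_insert hj, Finset.prod_insert hj, Finset.sum_insert hj]
    have hA : 0 ≤ ∏ i ∈ s, a i ∧ ∏ i ∈ s, a i ≤ 1 :=
      ⟨Finset.prod_nonneg fun i _ => (ha i).1,
        Finset.prod_le_one (fun i _ => (ha i).1) fun i _ => (ha i).2⟩
    have e : a j * ∏ i ∈ s, a i - b j * ∏ i ∈ s, b i =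
        (a j - b j) * ∏ i ∈ s, a i + b j * (∏ i ∈ s, a i - ∏ i ∈ s, b i) := by ring
    rw [e]
    refine (abs_add_le _ _).trans (add_le_add ?_ ?_)
    · rw [abs_mul, abs_of_nonneg hA.1]
      exact mul_le_of_le_one_right (abs_nonneg _) hA.2
    · rw [abs_mul, abs_of_nonneg (hb j).1]
      exact (mul_le_of_le_one_left (abs_nonneg _) (hb j).2).trans ih

variable {E : Type*} [NormedAddCommGroup E] [NormedSpace ℝ E] [FiniteDimensional ℝ E]

/-- **Lipschitz partition of unity relative to a lattice.** -/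
theorem exists_lattice_partition (Λ : Submodule ℤ E) [DiscreteTopology Λ] [IsZLattice ℝ Λ] :
    ∃ Ψ : E → ℝ, (∀ v, 0 ≤ Ψ v) ∧ (∀ v, Ψ v ≤ 1) ∧ (∃ M : ℝ, ∀ v, Ψ v ≠ 0 → ‖v‖ ≤ M) ∧
      (∃ κ : ℝ, ∀ v v', |Ψ v - Ψ v'| ≤ κ * ‖v - v'‖) ∧
      ∀ v, HasSum (fun l : Λ => Ψ (v + l)) 1 := by
  classical
  have : Module.Finite ℤ Λ := ZLattice.module_finite ℝ Λ
  have : Module.Free ℤ Λ := ZLattice.module_free ℝ Λ
  let ι := Module.Free.ChooseBasisIndex ℤ Λ
  let b : Basis ι ℤ Λ := Module.Free.chooseBasis ℤ Λ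
  let b' : Basis ι ℝ E := b.ofZLatticeBasis ℝ Λ
  let c : ι → E → ℝ := fun i v => b'.repr v i
  let Ψ : E → ℝ := fun v => ∏ i, tent (c i v)
  have hc_add : ∀ i v w, c i (v + w) = c i v + c i w := fun i v w => by simp [c]
  have hc_sub : ∀ i v w, c i (v - w) = c i v - c i w := fun i v w => by simp [c]
  have hc_lat : ∀ i (l : Λ), c i (l : E) = ((b.repr l i : ℤ) : ℝ) := fun i l => by
    simp only [c, b']
    rw [Basis.ofZLatticeBasis_repr_apply]
  refine ⟨Ψ, fun v => Finset.prod_nonneg fun i _ => tent_nonneg _,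
    fun v => Finset.prod_le_one (fun i _ => tent_nonneg _) fun i _ => tent_le_one _, ?_, ?_, ?_⟩
  · -- bounded support
    refine ⟨∑ i, ‖b' i‖, fun v hv => ?_⟩
    have hlt : ∀ i, |c i v| ≤ 1 := by
      intro i
      by_contra hcon
      push Not at hcon
      apply hv
      exact Finset.prod_eq_zero (Finset.mem_univ i) (tent_eq_zero hcon.le)
    calc ‖v‖ = ‖∑ i, c i v • b' i‖ := by rw [show (fun i => c i v • b' i) = fun i =>
          b'.repr v i • b' i from rfl, b'.sum_repr v]
      _ ≤ ∑ i, ‖c i v • b' i‖ := norm_sum_le _ _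
      _ ≤ ∑ i, ‖b' i‖ := Finset.sum_le_sum fun i _ => by
          rw [norm_smul, Real.norm_eq_abs]
          exact mul_le_of_le_one_left (norm_nonneg _) (hlt i)
  · -- Lipschitz
    let cl : ι → (E →L[ℝ] ℝ) := fun i => LinearMap.toContinuousLinearMap (b'.coord i)
    refine ⟨∑ i, ‖cl i‖, fun v v' => ?_⟩
    calc |Ψ v - Ψ v'| ≤ ∑ i, |tent (c i v) - tent (c i v')| :=
          abs_prod_sub_prod_le _ _ _ (fun i => ⟨tent_nonneg _, tent_le_one _⟩)
            (fun i => ⟨tent_nonneg _, tent_le_one _⟩)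
      _ ≤ ∑ i, |c i v - c i v'| := Finset.sum_le_sum fun i _ => tent_sub_le _ _
      _ ≤ ∑ i, ‖cl i‖ * ‖v - v'‖ := Finset.sum_le_sum fun i _ => by
          rw [← hc_sub]
          have := (cl i).le_opNorm (v - v')
          simpa [cl, c, Real.norm_eq_abs] using this
      _ = (∑ i, ‖cl i‖) * ‖v - v'‖ := by rw [Finset.sum_mul]
  · -- the translates sum to one
    intro v
    let e : Λ ≃ (ι → ℤ) := b.equivFun.toEquiv
    have hΨ : ∀ l : Λ, Ψ (v + l) = ∏ i, tent (c i v + ((e l i : ℤ) : ℝ)) := by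
      intro l
      simp only [Ψ]
      refine Finset.prod_congr rfl fun i _ => ?_
      rw [hc_add, hc_lat]
      rfl
    have hsum : HasSum (fun m : ι → ℤ => ∏ i, tent (c i v + ((m i : ℤ) : ℝ))) 1 := by
      let T : ι → Finset ℤ := fun i => {-⌊c i v⌋, -⌊c i v⌋ - 1}
      have h1 : ∑ m ∈ Fintype.piFinset T, ∏ i, tent (c i v + ((m i : ℤ) : ℝ)) = 1 := by
        rw [← Finset.prod_univ_sum T (fun i (m : ℤ) => tent (c i v + (m : ℝ)))]
        exact Finset.prod_eq_one fun i _ => sum_tent_translate _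
      rw [← h1]
      refine hasSum_sum_of_ne_finset_zero fun m hm => ?_
      rw [Fintype.mem_piFinset] at hm
      push Not at hm
      obtain ⟨i, hi⟩ := hm
      refine Finset.prod_eq_zero (Finset.mem_univ i) ?_
      simp only [T, Finset.mem_insert, Finset.mem_singleton, not_or] at hi
      exact tent_translate_eq_zero _ _ hi.1 hi.2
    have h2 : (fun l : Λ => Ψ (v + l)) =
        (fun m : ι → ℤ => ∏ i, tent (c i v + ((m i : ℤ) : ℝ))) ∘ e := funext hΨ
    rw [h2]
    exact e.hasSum_iff.mpr hsum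

section Units

open NumberField NumberField.Units NumberField.Units.dirichletUnitTheorem

/-- Summing a function of the first coordinate over a product with a finite type. -/
lemma hasSum_prod_fintype {β T : Type*} [Fintype T] (g : β → ℝ) (S : ℝ) (h : HasSum g S) :
    HasSum (fun p : β × T => g p.1) (Fintype.card T * S) := by
  classical
  have h1 : ∀ t : T, HasSum (fun p : β × T => if p.2 = t then g p.1 else 0) S := by
    intro t
    have hinj : Function.Injective (fun b : β => (b, t)) :=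
      fun x y hxy => (Prod.ext_iff.mp hxy).1
    refine (hinj.hasSum_iff ?_).mp ?_
    · rintro ⟨b, t'⟩ hx
      have : t' ≠ t := by
        rintro rfl
        exact hx ⟨b, rfl⟩
      simp [this]
    · simpa [Function.comp_def] using h
  have h2 := hasSum_sum (s := Finset.univ) fun t _ => h1 t
  convert h2 using 1
  · ext p; simp
  · simp

variable (K : Type*) [Field K] [NumberField K]

/-- The kernel of the logarithmic embedding has `torsionOrder K` elements. -/
lemma card_ker_logEmbedding : Nat.card (logEmbedding K).ker = torsionOrder K := by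
  rw [logEmbedding_ker, torsionOrder]
  exact Nat.card_congr (Equiv.subtypeEquiv Additive.toMul fun a => Iff.rfl)

/-- **Sum over the units versus sum over the unit lattice.** -/
theorem hasSum_units_logEmbedding (Ψ : logSpace K → ℝ) (a : logSpace K) (S : ℝ)
    (h : HasSum (fun l : unitLattice K => Ψ (a + l)) S) :
    HasSum (fun u : (𝓞 K)ˣ => Ψ (a + logEmbedding K (Additive.ofMul u)))
      (torsionOrder K * S) := by
  classical
  let T : AddSubgroup (Additive (𝓞 K)ˣ) := (logEmbedding K).ker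
  have hmem : ∀ x : Additive (𝓞 K)ˣ, logEmbedding K x ∈ unitLattice K := fun x =>
    Submodule.mem_map_of_mem (Submodule.mem_top (x := x))
  have hsurj : ∀ l : unitLattice K, ∃ x : Additive (𝓞 K)ˣ, logEmbedding K x = l := by
    rintro ⟨l, hl⟩
    obtain ⟨x, -, hx⟩ := hl
    exact ⟨x, hx⟩
  choose σ hσ using hsurj
  have : Finite T := Nat.finite_of_card_ne_zero (by
    rw [card_ker_logEmbedding]; exact torsionOrder_ne_zero K)
  have : Fintype T := Fintype.ofFinite T
  let e : unitLattice K × T ≃ (𝓞 K)ˣ :=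
    { toFun := fun p => Additive.toMul (σ p.1 + (p.2 : Additive (𝓞 K)ˣ))
      invFun := fun u => (⟨logEmbedding K (Additive.ofMul u), hmem _⟩,
        ⟨Additive.ofMul u - σ ⟨logEmbedding K (Additive.ofMul u), hmem _⟩, by
          rw [AddMonoidHom.mem_ker, map_sub, hσ, sub_self]⟩)
      left_inv := by
        rintro ⟨l, t⟩
        have h1 : logEmbedding K (σ l + (t : Additive (𝓞 K)ˣ)) = l := by
          rw [map_add, hσ, AddMonoidHom.mem_ker.mp t.2, add_zero]
        have h2 : (⟨logEmbedding K (σ l + (t : Additive (𝓞 K)ˣ)), hmem _⟩ : unitLattice K) = l :=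
          Subtype.ext h1
        refine Prod.ext h2 (Subtype.ext ?_)
        show (σ l + (t : Additive (𝓞 K)ˣ)) -
          σ ⟨logEmbedding K (σ l + (t : Additive (𝓞 K)ˣ)), hmem _⟩ = t
        rw [h2]
        abel
      right_inv := by
        intro u
        show Additive.toMul (σ ⟨logEmbedding K (Additive.ofMul u), hmem _⟩ +
          (Additive.ofMul u - σ ⟨logEmbedding K (Additive.ofMul u), hmem _⟩)) = u
        rw [add_sub_cancel]
        rfl }
  have h1 := hasSum_prod_fintype (T := T) _ S h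
  rw [← Nat.card_eq_fintype_card, card_ker_logEmbedding] at h1
  refine (e.hasSum_iff).mp ?_
  convert h1 using 1
  ext p
  obtain ⟨l, t⟩ := p
  simp only [Function.comp_apply]
  congr 2
  show logEmbedding K (σ l + (t : Additive (𝓞 K)ˣ)) = l
  rw [map_add, hσ, AddMonoidHom.mem_ker.mp t.2, add_zero]

open NumberField.mixedEmbedding in
/-- The smoothing function on the mixed space attached to a function `Ψ` on the log space:
`ρ y = Ψ (logMap y) / torsionOrder K` where the norm of `y` is nonzero, and `0` elsewhere. -/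
noncomputable def smoothing (Ψ : logSpace K → ℝ) (y : mixedSpace K) : ℝ :=
  if mixedEmbedding.norm y = 0 then 0 else (torsionOrder K : ℝ)⁻¹ * Ψ (logMap y)

open NumberField.mixedEmbedding in
lemma smoothing_of_norm_ne_zero (Ψ : logSpace K → ℝ) {y : mixedSpace K}
    (hy : mixedEmbedding.norm y ≠ 0) :
    smoothing K Ψ y = (torsionOrder K : ℝ)⁻¹ * Ψ (logMap y) := by
  simp [smoothing, hy]

open NumberField.mixedEmbedding in
lemma smoothing_of_norm_eq_zero (Ψ : logSpace K → ℝ) {y : mixedSpace K}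
    (hy : mixedEmbedding.norm y = 0) : smoothing K Ψ y = 0 := by
  simp [smoothing, hy]

lemma smoothing_nonneg (Ψ : logSpace K → ℝ) (hΨ : ∀ v, 0 ≤ Ψ v)
    (y : NumberField.mixedEmbedding.mixedSpace K) :
    0 ≤ smoothing K Ψ y := by
  unfold smoothing
  split_ifs
  · exact le_rfl
  · exact mul_nonneg (inv_nonneg.mpr (Nat.cast_nonneg _)) (hΨ _)

lemma smoothing_le_one (Ψ : logSpace K → ℝ) (hΨ0 : ∀ v, 0 ≤ Ψ v) (hΨ : ∀ v, Ψ v ≤ 1)
    (y : NumberField.mixedEmbedding.mixedSpace K) : smoothing K Ψ y ≤ 1 := by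
  unfold smoothing
  split_ifs
  · exact zero_le_one
  · have h1 : (1 : ℝ) ≤ torsionOrder K := by exact_mod_cast torsionOrder_pos K
    have h2 : (torsionOrder K : ℝ)⁻¹ ≤ 1 := inv_le_one_of_one_le₀ h1
    calc (torsionOrder K : ℝ)⁻¹ * Ψ (NumberField.mixedEmbedding.logMap y) ≤ 1 * 1 :=
          mul_le_mul h2 (hΨ _) (hΨ0 _) zero_le_one
      _ = 1 := one_mul 1

open NumberField.mixedEmbedding in
/-- **Unit-invariance of the total mass**: the translates of the smoothing function under the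
unit group sum to `1` at every point of nonzero norm. -/
theorem hasSum_smoothing (Ψ : logSpace K → ℝ)
    (hΨ : ∀ v, HasSum (fun l : unitLattice K => Ψ (v + l)) 1)
    (x : mixedSpace K) (hx : mixedEmbedding.norm x ≠ 0) :
    HasSum (fun u : (𝓞 K)ˣ => smoothing K Ψ (u • x)) 1 := by
  have h1 := hasSum_units_logEmbedding K Ψ (logMap x) 1 (hΨ _)
  have h2 := h1.mul_left ((torsionOrder K : ℝ)⁻¹)
  have hw : (torsionOrder K : ℝ) ≠ 0 := Nat.cast_ne_zero.mpr (torsionOrder_ne_zero K)
  rw [mul_one, inv_mul_cancel₀ hw] at h2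
  have h3 : (fun u : (𝓞 K)ˣ => smoothing K Ψ (u • x)) = fun u : (𝓞 K)ˣ =>
      (torsionOrder K : ℝ)⁻¹ * Ψ (logMap x + logEmbedding K (Additive.ofMul u)) := by
    funext u
    rw [smoothing_of_norm_ne_zero K Ψ (by rw [norm_unit_smul]; exact hx), logMap_unit_smul u hx,
      add_comm]
  rw [h3]
  exact h2

end Units

end Fermat.Agent.S14.Analytic.PartUnity
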