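import Mathlib

/-!
# S14, package N, step N3a (alternative construction): a smoothing weight on the mixed space

For a number field `K` we construct `rho K : mixedSpace K → ℝ` with

* `0 ≤ rho K x ≤ 1`,
* `∑ (u : (𝓞 K)ˣ), rho K (u • x) = 1` whenever `mixedEmbedding.norm x ≠ 0`
  (a partition of unity along the orbits of the unit group),
* `rho K x ≠ 0` forces every coordinate of `x` to be comparable with `‖x‖`,
* the functions `G s x = rho K x * (mixedEmbedding.norm x) ^ (-s)`, `1 ≤ s ≤ 2`, satisfy the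
  uniform estimate `|G s z - G s y| ≤ C * ‖y‖ ^ (-(n + 1))` for `‖z - y‖ ≤ D`, `‖y‖ ≥ R`.

Construction: in the coordinates `c_i` of Mathlib's `logMap x` with respect to the basis of the
unit lattice, `rho K x = (torsionOrder K)⁻¹ * ∏ i, tent (c_i x)` with `tent t = max 0 (1 - |t|)`.
Since `∑ (k : ℤ), tent (t + k) = 1`, the partition of unity is exact.
-/

set_option autoImplicit false

open NumberField NumberField.mixedEmbedding NumberField.Units NumberField.InfinitePlace
open NumberField.Units.dirichletUnitTheorem Module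
open scoped Classical

namespace Fermat.Agent.S14.Analytic.SmoothingAlt

/-! ### The tent function -/

/-- The tent function `max 0 (1 - |t|)`. -/
noncomputable def tent (t : ℝ) : ℝ := max 0 (1 - |t|)

theorem tent_nonneg (t : ℝ) : 0 ≤ tent t := le_max_left _ _

theorem tent_le_one (t : ℝ) : tent t ≤ 1 := by
  unfold tent
  exact max_le zero_le_one (by linarith [abs_nonneg t])

theorem tent_eq_zero {t : ℝ} (ht : 1 ≤ |t|) : tent t = 0 := by
  unfold tent
  exact max_eq_left (by linarith)

theorem abs_lt_one_of_tent_ne_zero {t : ℝ} (ht : tent t ≠ 0) : |t| < 1 := by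
  by_contra h
  exact ht (tent_eq_zero (not_lt.mp h))

theorem tent_of_abs_le {t : ℝ} (ht : |t| ≤ 1) : tent t = 1 - |t| := by
  unfold tent
  exact max_eq_right (by linarith)

theorem abs_tent_sub_tent_le (s t : ℝ) : |tent s - tent t| ≤ |s - t| := by
  unfold tent
  have h1 : |max 0 (1 - |s|) - max 0 (1 - |t|)| ≤ |(1 - |s|) - (1 - |t|)| := by
    have := abs_max_sub_max_le_abs (1 - |s|) (1 - |t|) (0 : ℝ)
    rwa [max_comm (1 - |s|), max_comm (1 - |t|)] at this
  have h2 : |(1 - |s|) - (1 - |t|)| ≤ |s - t| := by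
    have : (1 - |s|) - (1 - |t|) = |t| - |s| := by ring
    rw [this]
    have := abs_abs_sub_abs_le_abs_sub t s
    rwa [abs_sub_comm t s] at this
  exact h1.trans h2

/-- The integer translates of the tent function form a partition of unity (finite form). -/
theorem tent_sum (t : ℝ) :
    (∀ k : ℤ, k ∉ ({-⌊t⌋ - 1, -⌊t⌋} : Finset ℤ) → tent (t + k) = 0) ∧
      ∑ k ∈ ({-⌊t⌋ - 1, -⌊t⌋} : Finset ℤ), tent (t + k) = 1 := by
  have hf0 := Int.fract_nonneg t
  have hf1 := Int.fract_lt_one t
  have hfr : t = ⌊t⌋ + Int.fract t := (Int.floor_add_fract t).symm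
  constructor
  · intro k hk
    simp only [Finset.mem_insert, Finset.mem_singleton, not_or] at hk
    apply tent_eq_zero
    obtain ⟨hk1, hk2⟩ := hk
    have hm : ⌊t⌋ + k ≤ -2 ∨ 1 ≤ ⌊t⌋ + k := by omega
    rcases hm with hm | hm
    · have : ((⌊t⌋ + k : ℤ) : ℝ) ≤ -2 := by exact_mod_cast hm
      push_cast at this
      rw [le_abs]
      right
      linarith
    · have : (1 : ℝ) ≤ ((⌊t⌋ + k : ℤ) : ℝ) := by exact_mod_cast hm
      push_cast at this
      rw [le_abs]
      left
      linarith
  · have hne : (-⌊t⌋ - 1 : ℤ) ≠ -⌊t⌋ := by omega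
    rw [Finset.sum_pair hne]
    have e1 : t + ((-⌊t⌋ - 1 : ℤ) : ℝ) = Int.fract t - 1 := by
      push_cast
      linarith
    have e2 : t + ((-⌊t⌋ : ℤ) : ℝ) = Int.fract t := by
      push_cast
      linarith
    rw [e1, e2, tent_of_abs_le, tent_of_abs_le]
    · rw [abs_of_nonpos (by linarith), abs_of_nonneg hf0]
      ring
    · rw [abs_of_nonneg hf0]
      exact hf1.le
    · rw [abs_of_nonpos (by linarith)]
      linarith

/-- A product of tents over a finite index type: integer translates sum to one. -/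
theorem hasSum_prod_tent {ι : Type*} [Fintype ι] (t : ι → ℝ) :
    HasSum (fun k : ι → ℤ => ∏ i, tent (t i + k i)) 1 := by
  classical
  let s : ι → Finset ℤ := fun i => {-⌊t i⌋ - 1, -⌊t i⌋}
  have h0 : ∀ k : ι → ℤ, k ∉ Fintype.piFinset s → ∏ i, tent (t i + k i) = 0 := by
    intro k hk
    rw [Fintype.mem_piFinset] at hk
    obtain ⟨i, hi⟩ := not_forall.mp hk
    exact Finset.prod_eq_zero (Finset.mem_univ i) ((tent_sum (t i)).1 (k i) hi)
  have h1 : ∑ k ∈ Fintype.piFinset s, ∏ i, tent (t i + k i) = 1 := by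
    rw [← Finset.prod_univ_sum s (fun i (j : ℤ) => tent (t i + j))]
    exact Finset.prod_eq_one fun i _ => (tent_sum (t i)).2
  have h2 : HasSum (fun k : ι → ℤ => ∏ i, tent (t i + k i))
      (∑ k ∈ Fintype.piFinset s, ∏ i, tent (t i + k i)) := hasSum_sum_of_ne_finset_zero h0
  rwa [h1] at h2

/-- Products of numbers in `[0, 1]` are Lipschitz in each factor. -/
theorem abs_prod_sub_prod_le {ι : Type*} (s : Finset ι) (a b : ι → ℝ)
    (ha : ∀ i ∈ s, 0 ≤ a i ∧ a i ≤ 1) (hb : ∀ i ∈ s, 0 ≤ b i ∧ b i ≤ 1) :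
    |∏ i ∈ s, a i - ∏ i ∈ s, b i| ≤ ∑ i ∈ s, |a i - b i| := by
  classical
  induction s using Finset.induction_on with
  | empty => simp
  | insert j s hj ih =>
    rw [Finset.prod_insert hj, Finset.prod_insert hj, Finset.sum_insert hj]
    have ih' := ih (fun i hi => ha i (Finset.mem_insert_of_mem hi))
      (fun i hi => hb i (Finset.mem_insert_of_mem hi))
    have haj := ha j (Finset.mem_insert_self j s)
    have hbj := hb j (Finset.mem_insert_self j s)
    have hA0 : 0 ≤ ∏ i ∈ s, a i :=
      Finset.prod_nonneg fun i hi => (ha i (Finset.mem_insert_of_mem hi)).1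
    have hA1 : ∏ i ∈ s, a i ≤ 1 :=
      Finset.prod_le_one (fun i hi => (ha i (Finset.mem_insert_of_mem hi)).1)
        fun i hi => (ha i (Finset.mem_insert_of_mem hi)).2
    have key : a j * ∏ i ∈ s, a i - b j * ∏ i ∈ s, b i =
        (a j - b j) * ∏ i ∈ s, a i + b j * (∏ i ∈ s, a i - ∏ i ∈ s, b i) := by ring
    rw [key]
    calc |(a j - b j) * ∏ i ∈ s, a i + b j * (∏ i ∈ s, a i - ∏ i ∈ s, b i)|
        ≤ |(a j - b j) * ∏ i ∈ s, a i| + |b j * (∏ i ∈ s, a i - ∏ i ∈ s, b i)| := abs_add_le _ _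
      _ = |a j - b j| * (∏ i ∈ s, a i) + b j * |∏ i ∈ s, a i - ∏ i ∈ s, b i| := by
          rw [abs_mul, abs_mul, abs_of_nonneg hA0, abs_of_nonneg hbj.1]
      _ ≤ |a j - b j| * 1 + 1 * ∑ i ∈ s, |a i - b i| := by
          gcongr
          · exact hbj.2
      _ = |a j - b j| + ∑ i ∈ s, |a i - b i| := by ring

/-! ### The weight -/

variable (K : Type*) [Field K] [NumberField K]

/-- The real basis of `logSpace K` given by the chosen basis of the unit lattice. -/
noncomputable def basisR : Basis (Fin (Units.rank K)) ℝ (logSpace K) :=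
  (basisUnitLattice K).ofZLatticeBasis ℝ (unitLattice K)

/-- The coordinates of `logMap x` in the basis `basisR`. -/
noncomputable def coord (x : mixedSpace K) (i : Fin (Units.rank K)) : ℝ :=
  (basisR K).repr (logMap x) i

/-- The unnormalised weight. -/
noncomputable def W (x : mixedSpace K) : ℝ :=
  if mixedEmbedding.norm x = 0 then 0 else ∏ i, tent (coord K x i)

/-- The smoothing weight. -/
noncomputable def rho (x : mixedSpace K) : ℝ := (torsionOrder K : ℝ)⁻¹ * W K x

theorem W_nonneg (x : mixedSpace K) : 0 ≤ W K x := by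
  unfold W
  split_ifs
  · exact le_rfl
  · exact Finset.prod_nonneg fun i _ => tent_nonneg _

theorem W_le_one (x : mixedSpace K) : W K x ≤ 1 := by
  unfold W
  split_ifs
  · exact zero_le_one
  · exact Finset.prod_le_one (fun i _ => tent_nonneg _) fun i _ => tent_le_one _

theorem torsionOrder_cast_pos : (0 : ℝ) < (torsionOrder K : ℝ) := by
  exact_mod_cast torsionOrder_pos K

theorem one_le_torsionOrder_cast : (1 : ℝ) ≤ (torsionOrder K : ℝ) := by
  exact_mod_cast torsionOrder_pos K

theorem rho_nonneg (x : mixedSpace K) : 0 ≤ rho K x :=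
  mul_nonneg (inv_nonneg.mpr (torsionOrder_cast_pos K).le) (W_nonneg K x)

theorem rho_le_W (x : mixedSpace K) : rho K x ≤ W K x := by
  unfold rho
  have h := inv_le_one_of_one_le₀ (one_le_torsionOrder_cast K)
  calc (torsionOrder K : ℝ)⁻¹ * W K x ≤ 1 * W K x :=
        mul_le_mul_of_nonneg_right h (W_nonneg K x)
    _ = W K x := one_mul _

theorem rho_le_one (x : mixedSpace K) : rho K x ≤ 1 := (rho_le_W K x).trans (W_le_one K x)

theorem W_ne_zero_of_rho_ne_zero {x : mixedSpace K} (h : rho K x ≠ 0) : W K x ≠ 0 := by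
  intro h0
  exact h (by unfold rho; rw [h0, mul_zero])

theorem norm_ne_zero_of_W_ne_zero {x : mixedSpace K} (h : W K x ≠ 0) :
    mixedEmbedding.norm x ≠ 0 := by
  intro h0
  exact h (by unfold W; rw [if_pos h0])

theorem abs_coord_lt_one_of_W_ne_zero {x : mixedSpace K} (h : W K x ≠ 0)
    (i : Fin (Units.rank K)) : |coord K x i| < 1 := by
  have hn := norm_ne_zero_of_W_ne_zero K h
  unfold W at h
  rw [if_neg hn] at h
  exact abs_lt_one_of_tent_ne_zero (Finset.prod_ne_zero_iff.mp h i (Finset.mem_univ i))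

/-! ### The partition of unity along unit orbits -/

/-- The unit `ζ * ∏ i, ε_i ^ k_i` attached to a root of unity and a vector of exponents. -/
noncomputable def unitOf (q : torsion K × (Fin (Units.rank K) → ℤ)) : (𝓞 K)ˣ :=
  (q.1 : (𝓞 K)ˣ) * ∏ i, fundSystem K i ^ q.2 i

theorem unitOf_bijective : Function.Bijective (unitOf K) := by
  rw [Function.bijective_iff_existsUnique]
  intro u
  obtain ⟨ζe, h1, h2⟩ := exist_unique_eq_mul_prod K u
  exact ⟨ζe, h1.symm, fun y hy => h2 y hy.symm⟩

theorem logEmbedding_unitOf (q : torsion K × (Fin (Units.rank K) → ℤ)) :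
    logEmbedding K (Additive.ofMul (unitOf K q)) = ∑ i, (q.2 i : ℝ) • basisR K i := by
  unfold unitOf
  rw [ofMul_mul, map_add, (logEmbedding_eq_zero_iff (K := K)).mpr q.1.2, zero_add, ofMul_prod,
    map_sum]
  refine Finset.sum_congr rfl fun i _ => ?_
  rw [ofMul_zpow, map_zsmul, logEmbedding_fundSystem, Int.cast_smul_eq_zsmul]
  unfold basisR
  rw [Basis.ofZLatticeBasis_apply]

theorem coord_unitOf_smul (q : torsion K × (Fin (Units.rank K) → ℤ)) {x : mixedSpace K}
    (hx : mixedEmbedding.norm x ≠ 0) (i : Fin (Units.rank K)) :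
    coord K (unitOf K q • x) i = coord K x i + q.2 i := by
  unfold coord
  rw [logMap_unit_smul _ hx, logEmbedding_unitOf, map_add, Finsupp.add_apply, add_comm,
    Basis.repr_sum_self]

theorem W_unitOf_smul (q : torsion K × (Fin (Units.rank K) → ℤ)) {x : mixedSpace K}
    (hx : mixedEmbedding.norm x ≠ 0) :
    W K (unitOf K q • x) = ∏ i, tent (coord K x i + q.2 i) := by
  unfold W
  rw [if_neg (by rwa [norm_unit_smul])]
  exact Finset.prod_congr rfl fun i _ => by rw [coord_unitOf_smul K q hx i]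

theorem hasSum_one_torsion : HasSum (fun _ : torsion K => (1 : ℝ)) (torsionOrder K : ℝ) := by
  let _ : Fintype (torsion K) := Fintype.ofFinite _
  have h := hasSum_fintype (fun _ : torsion K => (1 : ℝ))
  have hc : (∑ _b : torsion K, (1 : ℝ)) = (torsionOrder K : ℝ) := by
    rw [torsionOrder, Nat.card_eq_fintype_card, Finset.sum_const, Finset.card_univ, nsmul_eq_mul,
      mul_one]
  rwa [hc] at h

theorem hasSum_W_unitOf_smul {x : mixedSpace K} (hx : mixedEmbedding.norm x ≠ 0) :
    HasSum (fun q : torsion K × (Fin (Units.rank K) → ℤ) => W K (unitOf K q • x))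
      (torsionOrder K : ℝ) := by
  have h1 := hasSum_prod_tent (fun i => coord K x i)
  have h2 := hasSum_one_torsion K
  have hf0 : (0 : torsion K → ℝ) ≤ fun _ => 1 := fun _ => zero_le_one
  have hg0 : (0 : (Fin (Units.rank K) → ℤ) → ℝ) ≤ fun k => ∏ i, tent (coord K x i + k i) :=
    fun k => Finset.prod_nonneg fun i _ => tent_nonneg _
  have hs := Summable.mul_of_nonneg h2.summable h1.summable hf0 hg0
  have h3 := h2.mul h1 hs
  rw [mul_one] at h3
  have hfun : (fun q : torsion K × (Fin (Units.rank K) → ℤ) => W K (unitOf K q • x)) =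
      fun q : torsion K × (Fin (Units.rank K) → ℤ) =>
        (fun _ : torsion K => (1 : ℝ)) q.1 * (fun k : Fin (Units.rank K) → ℤ =>
          ∏ i, tent (coord K x i + k i)) q.2 := by
    funext q
    rw [W_unitOf_smul K q hx, one_mul]
  rw [hfun]
  exact h3

theorem hasSum_W_unit_smul {x : mixedSpace K} (hx : mixedEmbedding.norm x ≠ 0) :
    HasSum (fun u : (𝓞 K)ˣ => W K (u • x)) (torsionOrder K : ℝ) :=
  (Equiv.hasSum_iff (Equiv.ofBijective _ (unitOf_bijective K))).mp (hasSum_W_unitOf_smul K hx)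

/-- **Partition of unity**: the weights of the unit translates of `x` sum to `1`. -/
theorem hasSum_rho_unit_smul {x : mixedSpace K} (hx : mixedEmbedding.norm x ≠ 0) :
    HasSum (fun u : (𝓞 K)ˣ => rho K (u • x)) 1 := by
  have h := (hasSum_W_unit_smul K hx).mul_left ((torsionOrder K : ℝ)⁻¹)
  rw [inv_mul_cancel₀ (torsionOrder_cast_pos K).ne'] at h
  exact h

/-- The partition of unity, for nonzero algebraic integers (interface `(H2)`). -/
theorem hasSum_rho_unit_smul_integer (x : 𝓞 K) (hx : x ≠ 0) :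
    HasSum (fun u : (𝓞 K)ˣ => rho K (u • mixedEmbedding K (x : K))) 1 := by
  apply hasSum_rho_unit_smul
  rw [norm_eq_norm]
  simpa using hx

/-! ### Elementary estimates -/

omit [NumberField K] in
theorem abs_log_sub_log_le {a u v : ℝ} (ha : 0 < a) (hu : a ≤ u) (hv : a ≤ v) :
    |Real.log u - Real.log v| ≤ |u - v| / a := by
  have key : ∀ {p q : ℝ}, a ≤ p → a ≤ q → Real.log p - Real.log q ≤ |p - q| / a := by
    intro p q hp hq
    have hp0 := ha.trans_le hp
    have hq0 := ha.trans_le hq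
    rw [← Real.log_div hp0.ne' hq0.ne']
    calc Real.log (p / q) ≤ p / q - 1 := Real.log_le_sub_one_of_pos (div_pos hp0 hq0)
      _ = (p - q) / q := by field_simp
      _ ≤ |p - q| / q := div_le_div_of_nonneg_right (le_abs_self _) hq0.le
      _ ≤ |p - q| / a := div_le_div_of_nonneg_left (abs_nonneg _) ha hq
  rw [abs_le]
  constructor
  · have := key hv hu
    rw [abs_sub_comm] at this
    linarith
  · exact key hu hv

omit [NumberField K] in
theorem abs_exp_sub_exp_le {u v B : ℝ} (hu : Real.exp u ≤ B) (hv : Real.exp v ≤ B) :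
    |Real.exp u - Real.exp v| ≤ B * |u - v| := by
  have key : ∀ {p q : ℝ}, Real.exp p ≤ B → Real.exp p - Real.exp q ≤ B * |p - q| := by
    intro p q hp
    have h1 := Real.add_one_le_exp (q - p)
    have h2 : Real.exp q = Real.exp p * Real.exp (q - p) := by
      rw [← Real.exp_add]
      congr 1
      ring
    have h3 : Real.exp p * (q - p + 1) ≤ Real.exp q := by
      rw [h2]
      exact mul_le_mul_of_nonneg_left h1 (Real.exp_pos p).le
    have h4 : Real.exp p * (p - q) ≤ B * |p - q| := by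
      calc Real.exp p * (p - q) ≤ Real.exp p * |p - q| :=
            mul_le_mul_of_nonneg_left (le_abs_self _) (Real.exp_pos p).le
        _ ≤ B * |p - q| := mul_le_mul_of_nonneg_right hp (abs_nonneg _)
    nlinarith
  rw [abs_le]
  constructor
  · have := key (q := u) hv
    rw [abs_sub_comm] at this
    linarith
  · exact key hu

omit [NumberField K] in
theorem rpow_neg_le_inv {P A s : ℝ} (hA : 1 ≤ A) (hP : A ≤ P) (hs1 : 1 ≤ s) :
    P ^ (-s) ≤ A⁻¹ := by
  calc P ^ (-s) ≤ A ^ (-s) := Real.rpow_le_rpow_of_nonpos (by linarith) hP (by linarith)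
    _ ≤ A ^ (-1 : ℝ) := Real.rpow_le_rpow_of_exponent_le hA (by linarith)
    _ = A⁻¹ := Real.rpow_neg_one A

omit [NumberField K] in
theorem abs_rpow_neg_sub_le {P Q A η s : ℝ} (hA : 1 ≤ A) (hP : A ≤ P) (hQ : A ≤ Q)
    (hη : |Real.log P - Real.log Q| ≤ η) (hs1 : 1 ≤ s) (hs2 : s ≤ 2) :
    |P ^ (-s) - Q ^ (-s)| ≤ 2 * η / A := by
  have hP0 : 0 < P := by linarith
  have hQ0 : 0 < Q := by linarith
  have hA0 : 0 < A := by linarith
  have h1 := rpow_neg_le_inv hA hP hs1
  have h2 := rpow_neg_le_inv hA hQ hs1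
  rw [Real.rpow_def_of_pos hP0] at h1 ⊢
  rw [Real.rpow_def_of_pos hQ0] at h2 ⊢
  have h3 := abs_exp_sub_exp_le h1 h2
  have h4 : |Real.log P * -s - Real.log Q * -s| ≤ 2 * η := by
    have e : Real.log P * -s - Real.log Q * -s = -s * (Real.log P - Real.log Q) := by ring
    rw [e, abs_mul, abs_neg, abs_of_nonneg (by linarith : (0 : ℝ) ≤ s)]
    have hη0 : 0 ≤ η := (abs_nonneg _).trans hη
    exact mul_le_mul hs2 hη (abs_nonneg _) (by norm_num)
  calc |Real.exp (Real.log P * -s) - Real.exp (Real.log Q * -s)|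
      ≤ A⁻¹ * |Real.log P * -s - Real.log Q * -s| := h3
    _ ≤ A⁻¹ * (2 * η) := mul_le_mul_of_nonneg_left h4 (inv_nonneg.mpr hA0.le)
    _ = 2 * η / A := by rw [div_eq_inv_mul]

/-! ### Norms at places -/

theorem normAtPlace_le_norm (w : InfinitePlace K) (x : mixedSpace K) : normAtPlace w x ≤ ‖x‖ := by
  rw [norm_eq_sup'_normAtPlace]
  exact Finset.le_sup' (fun w => normAtPlace w x) (Finset.mem_univ w)

theorem abs_normAtPlace_sub_le (w : InfinitePlace K) (x y : mixedSpace K) :
    |normAtPlace w x - normAtPlace w y| ≤ ‖x - y‖ := by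
  have h1 : normAtPlace w x ≤ normAtPlace w y + normAtPlace w (x - y) := by
    have := normAtPlace_add_le w y (x - y)
    rwa [add_sub_cancel] at this
  have h2 : normAtPlace w y ≤ normAtPlace w x + normAtPlace w (x - y) := by
    have := normAtPlace_add_le w x (y - x)
    rw [add_sub_cancel] at this
    rwa [← normAtPlace_neg w (y - x), neg_sub] at this
  have h3 := normAtPlace_le_norm K w (x - y)
  rw [abs_le]
  constructor <;> linarith

theorem norm_ne_zero_of_le {x : mixedSpace K} {a : ℝ} (ha : 0 < a)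
    (hx : ∀ w, a ≤ normAtPlace w x) : mixedEmbedding.norm x ≠ 0 :=
  mixedEmbedding.norm_ne_zero_iff.mpr fun w => (ha.trans_le (hx w)).ne'

theorem pow_le_norm {x : mixedSpace K} {a : ℝ} (ha : 0 ≤ a) (hx : ∀ w, a ≤ normAtPlace w x) :
    a ^ finrank ℚ K ≤ mixedEmbedding.norm x := by
  rw [mixedEmbedding.norm_apply, ← sum_mult_eq, ← Finset.prod_pow_eq_pow_sum]
  exact Finset.prod_le_prod (fun w _ => pow_nonneg ha _) fun w _ => pow_le_pow_left₀ ha (hx w) _

theorem log_norm_eq {x : mixedSpace K} (hx : mixedEmbedding.norm x ≠ 0) :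
    Real.log (mixedEmbedding.norm x) =
      ∑ w : InfinitePlace K, (mult w : ℝ) * Real.log (normAtPlace w x) := by
  rw [mixedEmbedding.norm_apply, Real.log_prod]
  · refine Finset.sum_congr rfl fun w _ => ?_
    rw [Real.log_pow]
  · intro w _
    exact pow_ne_zero _ (mixedEmbedding.norm_ne_zero_iff.mp hx w)

theorem sum_mult_cast : ∑ w : InfinitePlace K, (mult w : ℝ) = (finrank ℚ K : ℝ) := by
  rw [← sum_mult_eq, Nat.cast_sum]

theorem finrank_cast_pos : (0 : ℝ) < (finrank ℚ K : ℝ) := by
  exact_mod_cast (finrank_pos : 0 < finrank ℚ K)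

omit [NumberField K] in
theorem mult_cast_le_two (w : InfinitePlace K) : (mult w : ℝ) ≤ 2 := by
  unfold mult
  split_ifs <;> norm_num

/-- The deviation of `log (normAtPlace w x)` from its weighted mean. -/
noncomputable def dev (x : mixedSpace K) (w : InfinitePlace K) : ℝ :=
  Real.log (normAtPlace w x) - Real.log (mixedEmbedding.norm x) * (finrank ℚ K : ℝ)⁻¹

theorem logMap_eq_dev (x : mixedSpace K) (w : {w : InfinitePlace K // w ≠ w₀}) :
    logMap x w = mult w.val * dev K x w.val := rfl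

theorem sum_mult_dev {x : mixedSpace K} (hx : mixedEmbedding.norm x ≠ 0) :
    ∑ w : InfinitePlace K, (mult w : ℝ) * dev K x w = 0 := by
  unfold dev
  simp_rw [mul_sub]
  rw [Finset.sum_sub_distrib, ← log_norm_eq K hx, ← Finset.sum_mul, sum_mult_cast]
  field_simp [(finrank_cast_pos K).ne']
  ring

theorem abs_dev_le {x : mixedSpace K} (hx : mixedEmbedding.norm x ≠ 0) {M : ℝ} (hM0 : 0 ≤ M)
    (hM : ∀ w : {w : InfinitePlace K // w ≠ w₀}, |logMap x w| ≤ M) (w : InfinitePlace K) :
    |dev K x w| ≤ (Fintype.card (InfinitePlace K) : ℝ) * M := by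
  have hcard : (1 : ℝ) ≤ (Fintype.card (InfinitePlace K) : ℝ) := by
    exact_mod_cast Fintype.card_pos
  have hmul : ∀ w : InfinitePlace K, |dev K x w| ≤ |(mult w : ℝ) * dev K x w| := by
    intro w
    rw [abs_mul, abs_of_nonneg (by positivity : (0 : ℝ) ≤ (mult w : ℝ))]
    calc |dev K x w| = 1 * |dev K x w| := (one_mul _).symm
      _ ≤ (mult w : ℝ) * |dev K x w| := mul_le_mul_of_nonneg_right one_le_mult (abs_nonneg _)
  by_cases hw : w = w₀
  · have h0 := sum_mult_dev K hx
    rw [Fintype.sum_eq_add_sum_subtype_ne _ (w₀ : InfinitePlace K)] at h0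
    have h1 : |∑ v : {v : InfinitePlace K // v ≠ w₀}, (mult v.val : ℝ) * dev K x v.val| ≤
        ∑ _v : {v : InfinitePlace K // v ≠ w₀}, M :=
      (Finset.abs_sum_le_sum_abs _ _).trans (Finset.sum_le_sum fun v _ => hM v)
    have h2 : (∑ _v : {v : InfinitePlace K // v ≠ w₀}, M) ≤
        (Fintype.card (InfinitePlace K) : ℝ) * M := by
      rw [Finset.sum_const, Finset.card_univ, nsmul_eq_mul]
      refine mul_le_mul_of_nonneg_right ?_ hM0
      exact_mod_cast Fintype.card_subtype_le _
    have h3 : (mult (w₀ : InfinitePlace K) : ℝ) * dev K x w₀ =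
        -∑ v : {v : InfinitePlace K // v ≠ w₀}, (mult v.val : ℝ) * dev K x v.val := by
      linarith
    rw [hw]
    calc |dev K x w₀| ≤ |(mult (w₀ : InfinitePlace K) : ℝ) * dev K x w₀| := hmul _
      _ = |∑ v : {v : InfinitePlace K // v ≠ w₀}, (mult v.val : ℝ) * dev K x v.val| := by
          rw [h3, abs_neg]
      _ ≤ _ := h1.trans h2
  · calc |dev K x w| ≤ |(mult w : ℝ) * dev K x w| := hmul _
      _ ≤ M := hM ⟨w, hw⟩
      _ = 1 * M := (one_mul _).symm
      _ ≤ (Fintype.card (InfinitePlace K) : ℝ) * M := mul_le_mul_of_nonneg_right hcard hM0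

theorem normAtPlace_le_exp_mul {x : mixedSpace K} (hx : mixedEmbedding.norm x ≠ 0) {M : ℝ}
    (h : ∀ w, |dev K x w| ≤ M) (w w' : InfinitePlace K) :
    normAtPlace w' x ≤ Real.exp (2 * M) * normAtPlace w x := by
  have hw : 0 < normAtPlace w x :=
    lt_of_le_of_ne (normAtPlace_nonneg w x) (mixedEmbedding.norm_ne_zero_iff.mp hx w).symm
  have hw' : 0 < normAtPlace w' x :=
    lt_of_le_of_ne (normAtPlace_nonneg w' x) (mixedEmbedding.norm_ne_zero_iff.mp hx w').symm
  have hlog : Real.log (normAtPlace w' x) ≤ 2 * M + Real.log (normAtPlace w x) := by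
    have e : Real.log (normAtPlace w' x) - Real.log (normAtPlace w x) =
        dev K x w' - dev K x w := by
      unfold dev
      ring
    have h1 := abs_le.mp (h w)
    have h2 := abs_le.mp (h w')
    linarith
  calc normAtPlace w' x = Real.exp (Real.log (normAtPlace w' x)) := (Real.exp_log hw').symm
    _ ≤ Real.exp (2 * M + Real.log (normAtPlace w x)) := Real.exp_le_exp.mpr hlog
    _ = Real.exp (2 * M) * normAtPlace w x := by rw [Real.exp_add, Real.exp_log hw]

/-! ### The support of the weight lies in a cone -/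

theorem norm_logMap_le_of_W_ne_zero {x : mixedSpace K} (h : W K x ≠ 0) :
    ‖logMap x‖ ≤ ∑ i, ‖basisR K i‖ := by
  have e : logMap x = ∑ i, coord K x i • basisR K i := ((basisR K).sum_repr (logMap x)).symm
  rw [e]
  refine (norm_sum_le _ _).trans (Finset.sum_le_sum fun i _ => ?_)
  rw [_root_.norm_smul, Real.norm_eq_abs]
  have h1 := abs_coord_lt_one_of_W_ne_zero K h i
  calc |coord K x i| * ‖basisR K i‖ ≤ 1 * ‖basisR K i‖ :=
        mul_le_mul_of_nonneg_right h1.le (norm_nonneg _)
    _ = ‖basisR K i‖ := one_mul _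

/-- The aperture constant of the cone containing the support of the weight. -/
noncomputable def c0 : ℝ :=
  Real.exp (-(2 * ((Fintype.card (InfinitePlace K) : ℝ) * ∑ i, ‖basisR K i‖)))

theorem c0_pos : 0 < c0 K := Real.exp_pos _

theorem c0_le_one : c0 K ≤ 1 := by
  unfold c0
  rw [Real.exp_le_one_iff]
  have h1 : (0 : ℝ) ≤ ∑ i, ‖basisR K i‖ := Finset.sum_nonneg fun i _ => norm_nonneg _
  have h2 : (0 : ℝ) ≤ (Fintype.card (InfinitePlace K) : ℝ) := Nat.cast_nonneg _
  nlinarith [mul_nonneg h2 h1]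

/-- On the support of the weight every coordinate is comparable with the sup norm. -/
theorem c0_mul_norm_le {x : mixedSpace K} (h : W K x ≠ 0) (w : InfinitePlace K) :
    c0 K * ‖x‖ ≤ normAtPlace w x := by
  have hx := norm_ne_zero_of_W_ne_zero K h
  have hM0 : (0 : ℝ) ≤ ∑ i, ‖basisR K i‖ := Finset.sum_nonneg fun i _ => norm_nonneg _
  have hM : ∀ v : {v : InfinitePlace K // v ≠ w₀}, |logMap x v| ≤ ∑ i, ‖basisR K i‖ := by
    intro v
    have := (norm_le_pi_norm (logMap x) v).trans (norm_logMap_le_of_W_ne_zero K h)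
    rwa [Real.norm_eq_abs] at this
  have hdev := abs_dev_le K hx hM0 hM
  obtain ⟨w', -, hw'⟩ := Finset.exists_mem_eq_sup' Finset.univ_nonempty
    (fun w : InfinitePlace K => normAtPlace w x)
  rw [norm_eq_sup'_normAtPlace, hw']
  have h1 := normAtPlace_le_exp_mul K hx hdev w w'
  unfold c0
  rw [Real.exp_neg, inv_mul_le_iff₀ (Real.exp_pos _)]
  exact h1

end Fermat.Agent.S14.Analytic.SmoothingAlt
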