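import Mathlib

set_option autoImplicit false
set_option maxSynthPendingDepth 3

namespace Fermat.Agent.S14.Analytic.SmoothingTent

/-- The tent function `max 0 (1 - |t|)`. -/
noncomputable def tent (t : ℝ) : ℝ := max 0 (1 - |t|)

theorem tent_nonneg (t : ℝ) : 0 ≤ tent t := le_max_left _ _

theorem tent_le_one (t : ℝ) : tent t ≤ 1 := by
  unfold tent
  exact max_le zero_le_one (by linarith [abs_nonneg t])

theorem tent_eq_zero {t : ℝ} (ht : 1 ≤ |t|) : tent t = 0 := by
  unfold tent
  exact max_eq_left (by linarith)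

theorem tent_of_abs_le {t : ℝ} (ht : |t| ≤ 1) : tent t = 1 - |t| := by
  unfold tent
  exact max_eq_right (by linarith)

theorem abs_lt_one_of_tent_ne_zero {t : ℝ} (ht : tent t ≠ 0) : |t| < 1 := by
  by_contra h
  exact ht (tent_eq_zero (not_lt.mp h))

theorem tent_lipschitz (a b : ℝ) : |tent a - tent b| ≤ |a - b| := by
  unfold tent
  have h1 : |max 0 (1 - |a|) - max 0 (1 - |b|)| ≤ max |(0:ℝ) - 0| |(1 - |a|) - (1 - |b|)| :=
    abs_max_sub_max_le_max _ _ _ _
  have h2 : |(1 - |a|) - (1 - |b|)| ≤ |a - b| := by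
    have : (1 - |a|) - (1 - |b|) = |b| - |a| := by ring
    rw [this]
    have := abs_abs_sub_abs_le_abs_sub b a
    rwa [abs_sub_comm b a] at this
  refine h1.trans (max_le ?_ h2)
  simp

theorem tent_add_int_eq_zero (t : ℝ) (m : ℤ) (hm : m ∉ ({-⌊t⌋, -⌊t⌋ - 1} : Finset ℤ)) :
    tent (t + m) = 0 := by
  simp only [Finset.mem_insert, Finset.mem_singleton, not_or] at hm
  apply tent_eq_zero
  have h1 := Int.floor_le t
  have h2 := Int.lt_floor_add_one t
  by_cases hlt : m < -⌊t⌋ - 1
  · have : (m : ℝ) ≤ -⌊t⌋ - 2 := by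
      have : m ≤ -⌊t⌋ - 2 := by omega
      exact_mod_cast this
    rw [abs_of_nonpos (by linarith)]
    linarith
  · have : -⌊t⌋ + 1 ≤ m := by omega
    have : (-⌊t⌋ + 1 : ℝ) ≤ m := by exact_mod_cast this
    rw [abs_of_nonneg (by linarith)]
    linarith

theorem sum_tent (t : ℝ) : ∑ m ∈ ({-⌊t⌋, -⌊t⌋ - 1} : Finset ℤ), tent (t + m) = 1 := by
  have hne : (-⌊t⌋ : ℤ) ≠ -⌊t⌋ - 1 := by omega
  rw [Finset.sum_pair hne]
  have h1 := Int.floor_le t
  have h2 := Int.lt_floor_add_one t
  have e1 : tent (t + ((-⌊t⌋ : ℤ) : ℝ)) = 1 - (t - ⌊t⌋) := by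
    rw [tent_of_abs_le]
    · push_cast
      rw [abs_of_nonneg (by linarith)]
      ring
    · push_cast
      rw [abs_of_nonneg (by linarith)]
      linarith
  have e2 : tent (t + ((-⌊t⌋ - 1 : ℤ) : ℝ)) = t - ⌊t⌋ := by
    rw [tent_of_abs_le]
    · push_cast
      rw [abs_of_nonpos (by linarith)]
      ring
    · push_cast
      rw [abs_of_nonpos (by linarith)]
      linarith
  rw [e1, e2]
  ring

/-- One-dimensional partition of unity. -/
theorem hasSum_tent (t : ℝ) : HasSum (fun m : ℤ => tent (t + m)) 1 := by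
  have h := hasSum_sum_of_ne_finset_zero (α := ℝ) (L := SummationFilter.unconditional ℤ)
    (tent_add_int_eq_zero t)
  rwa [sum_tent] at h

section Prod

variable {ι : Type*} [Fintype ι]

/-- The product of tent functions. -/
noncomputable def tentProd (x : ι → ℝ) : ℝ := ∏ i, tent (x i)

theorem tentProd_nonneg (x : ι → ℝ) : 0 ≤ tentProd x :=
  Finset.prod_nonneg fun _ _ => tent_nonneg _

theorem tentProd_le_one (x : ι → ℝ) : tentProd x ≤ 1 :=
  Finset.prod_le_one (fun _ _ => tent_nonneg _) (fun _ _ => tent_le_one _)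

theorem abs_lt_one_of_tentProd_ne_zero {x : ι → ℝ} (hx : tentProd x ≠ 0) (i : ι) : |x i| < 1 := by
  apply abs_lt_one_of_tent_ne_zero
  intro h
  exact hx (Finset.prod_eq_zero (Finset.mem_univ i) h)

omit [Fintype ι] in
theorem abs_prod_sub_prod_le (s : Finset ι) (a b : ι → ℝ) (ha : ∀ i, |a i| ≤ 1)
    (hb : ∀ i, |b i| ≤ 1) : |∏ i ∈ s, a i - ∏ i ∈ s, b i| ≤ ∑ i ∈ s, |a i - b i| := by
  classical
  induction s using Finset.induction_on with
  | empty => simp
  | insert j s hj ih =>
    rw [Finset.prod_insert hj, Finset.prod_insert hj, Finset.sum_insert hj]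
    have hpa : |∏ i ∈ s, a i| ≤ 1 := by
      rw [Finset.abs_prod]
      exact Finset.prod_le_one (fun i _ => abs_nonneg _) (fun i _ => ha i)
    have e : a j * ∏ i ∈ s, a i - b j * ∏ i ∈ s, b i
        = (a j - b j) * ∏ i ∈ s, a i + b j * (∏ i ∈ s, a i - ∏ i ∈ s, b i) := by ring
    rw [e]
    refine (abs_add_le _ _).trans ?_
    rw [abs_mul, abs_mul]
    have h1 : |a j - b j| * |∏ i ∈ s, a i| ≤ |a j - b j| :=
      mul_le_of_le_one_right (abs_nonneg _) hpa
    have h2 : |b j| * |∏ i ∈ s, a i - ∏ i ∈ s, b i| ≤ ∑ i ∈ s, |a i - b i| :=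
      (mul_le_of_le_one_left (abs_nonneg _) (hb j)).trans ih
    linarith

theorem abs_tentProd_sub_le (x y : ι → ℝ) :
    |tentProd x - tentProd y| ≤ Fintype.card ι * ‖x - y‖ := by
  unfold tentProd
  refine (abs_prod_sub_prod_le Finset.univ _ _ (fun i => ?_) (fun i => ?_)).trans ?_
  · rw [abs_of_nonneg (tent_nonneg _)]; exact tent_le_one _
  · rw [abs_of_nonneg (tent_nonneg _)]; exact tent_le_one _
  · calc ∑ i, |tent (x i) - tent (y i)| ≤ ∑ _i : ι, ‖x - y‖ := by
          refine Finset.sum_le_sum fun i _ => (tent_lipschitz _ _).trans ?_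
          have := norm_le_pi_norm (x - y) i
          simpa [Real.norm_eq_abs] using this
      _ = Fintype.card ι * ‖x - y‖ := by simp

/-- Partition of unity for the lattice `ι → ℤ` in `ι → ℝ`: finite-sum form. -/
theorem tentProd_add_int_eq_zero [DecidableEq ι] (x : ι → ℝ) (m : ι → ℤ)
    (hm : m ∉ Fintype.piFinset (fun i => ({-⌊x i⌋, -⌊x i⌋ - 1} : Finset ℤ))) :
    tentProd (fun i => x i + m i) = 0 := by
  rw [Fintype.mem_piFinset, not_forall] at hm
  obtain ⟨i, hi⟩ := hm
  exact Finset.prod_eq_zero (Finset.mem_univ i) (tent_add_int_eq_zero (x i) (m i) hi)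

theorem sum_tentProd [DecidableEq ι] (x : ι → ℝ) :
    ∑ m ∈ Fintype.piFinset (fun i => ({-⌊x i⌋, -⌊x i⌋ - 1} : Finset ℤ)),
      tentProd (fun i => x i + m i) = 1 := by
  unfold tentProd
  rw [← Finset.prod_univ_sum (fun i => ({-⌊x i⌋, -⌊x i⌋ - 1} : Finset ℤ))
    (fun i (j : ℤ) => tent (x i + j))]
  exact Finset.prod_eq_one fun i _ => sum_tent (x i)

/-- Partition of unity for the lattice `ι → ℤ` in `ι → ℝ`. -/
theorem hasSum_tentProd (x : ι → ℝ) :
    HasSum (fun m : ι → ℤ => tentProd (fun i => x i + m i)) 1 := by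
  classical
  have h := hasSum_sum_of_ne_finset_zero (α := ℝ) (L := SummationFilter.unconditional (ι → ℤ))
    (tentProd_add_int_eq_zero x)
  rwa [sum_tentProd] at h

end Prod

open scoped NumberField Classical
open NumberField NumberField.InfinitePlace NumberField.mixedEmbedding NumberField.Units
  NumberField.Units.dirichletUnitTheorem Module

variable (K : Type*) [Field K] [NumberField K]

/-- Coordinates on `logSpace K` with respect to the basis of the unit lattice. -/
noncomputable def coords : logSpace K ≃ₗ[ℝ] (Fin (rank K) → ℝ) :=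
  ((basisUnitLattice K).ofZLatticeBasis ℝ (unitLattice K)).equivFun

theorem coords_logEmbedding (u : (𝓞 K)ˣ) (i : Fin (rank K)) :
    coords K (logEmbedding K (Additive.ofMul u)) i =
      ((basisModTorsion K).repr (Additive.ofMul (QuotientGroup.mk u)) i : ℝ) := by
  have h1 : logEmbedding K (Additive.ofMul u) =
      ((logEmbeddingEquiv K (Additive.ofMul (QuotientGroup.mk u)) : unitLattice K) : logSpace K) :=
    rfl
  rw [h1]
  unfold coords
  rw [Basis.equivFun_apply, Basis.ofZLatticeBasis_repr_apply]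
  simp [basisUnitLattice]

/-- The smoothing function. -/
noncomputable def rho (y : mixedSpace K) : ℝ :=
  if mixedEmbedding.norm y = 0 then 0
  else (torsionOrder K : ℝ)⁻¹ * tentProd (coords K (logMap y))

theorem rho_nonneg (y : mixedSpace K) : 0 ≤ rho K y := by
  unfold rho
  split_ifs
  · exact le_rfl
  · exact mul_nonneg (inv_nonneg.mpr (Nat.cast_nonneg _)) (tentProd_nonneg _)

theorem rho_le_one (y : mixedSpace K) : rho K y ≤ 1 := by
  unfold rho
  split_ifs
  · exact zero_le_one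
  · have h1 : (torsionOrder K : ℝ)⁻¹ ≤ 1 :=
      inv_le_one_of_one_le₀ (by exact_mod_cast torsionOrder_pos K)
    calc (torsionOrder K : ℝ)⁻¹ * tentProd (coords K (logMap y)) ≤ 1 * 1 :=
          mul_le_mul h1 (tentProd_le_one _) (tentProd_nonneg _) zero_le_one
      _ = 1 := one_mul 1

/-- The parametrisation of the units by torsion and exponents. -/
noncomputable def unitsEquiv : torsion K × (Fin (rank K) → ℤ) ≃ (𝓞 K)ˣ :=
  Equiv.ofBijective (fun ζe => (ζe.1 : (𝓞 K)ˣ) * ∏ i, fundSystem K i ^ ζe.2 i)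
    ((Function.bijective_iff_existsUnique _).mpr fun x => by
      simpa [eq_comm] using exist_unique_eq_mul_prod K x)

theorem coords_logEmbedding_unitsEquiv (ζe : torsion K × (Fin (rank K) → ℤ)) (i : Fin (rank K)) :
    coords K (logEmbedding K (Additive.ofMul (unitsEquiv K ζe))) i = (ζe.2 i : ℝ) := by
  rw [coords_logEmbedding]
  have h := fun_eq_repr K (x := unitsEquiv K ζe) (ζ := ζe.1) (f := ζe.2) ζe.1.2 rfl
  rw [h]

/-- `rho` is a partition of unity for the action of the units. -/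
theorem hasSum_rho_unit_smul (y : mixedSpace K) (hy : mixedEmbedding.norm y ≠ 0) :
    HasSum (fun u : (𝓞 K)ˣ => rho K (u • y)) 1 := by
  have : Fintype (torsion K) := Fintype.ofFinite _
  rw [← Equiv.hasSum_iff (unitsEquiv K)]
  set c : Fin (rank K) → ℝ := coords K (logMap y) with hc
  have hval : ∀ ζe : torsion K × (Fin (rank K) → ℤ),
      ((fun u : (𝓞 K)ˣ => rho K (u • y)) ∘ unitsEquiv K) ζe =
        (torsionOrder K : ℝ)⁻¹ * tentProd (fun i => c i + ζe.2 i) := by
    intro ζe
    simp only [Function.comp_apply]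
    unfold rho
    rw [if_neg (by rw [norm_unit_smul]; exact hy), logMap_unit_smul _ hy, map_add]
    congr 2
    ext i
    rw [Pi.add_apply, coords_logEmbedding_unitsEquiv, add_comm]
  let P : Finset (Fin (rank K) → ℤ) :=
    Fintype.piFinset (fun i => ({-⌊c i⌋, -⌊c i⌋ - 1} : Finset ℤ))
  have hsupp : ∀ ζe : torsion K × (Fin (rank K) → ℤ), ζe ∉ (Finset.univ ×ˢ P) →
      ((fun u : (𝓞 K)ˣ => rho K (u • y)) ∘ unitsEquiv K) ζe = 0 := by
    intro ζe hζe
    rw [hval, tentProd_add_int_eq_zero c ζe.2 (by simpa [P] using hζe), mul_zero]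
  have h := hasSum_sum_of_ne_finset_zero (α := ℝ)
    (L := SummationFilter.unconditional (torsion K × (Fin (rank K) → ℤ))) hsupp
  have hsum : ∑ ζe ∈ (Finset.univ ×ˢ P : Finset (torsion K × (Fin (rank K) → ℤ))),
      ((fun u : (𝓞 K)ˣ => rho K (u • y)) ∘ unitsEquiv K) ζe = 1 := by
    simp_rw [hval]
    rw [Finset.sum_product]
    simp_rw [← Finset.mul_sum]
    rw [sum_tentProd c]
    simp only [mul_one, Finset.sum_const, Finset.card_univ, nsmul_eq_mul]
    rw [torsionOrder, Nat.card_eq_fintype_card]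
    have : (Fintype.card (torsion K) : ℝ) ≠ 0 := by
      have := torsionOrder_pos K
      rw [torsionOrder, Nat.card_eq_fintype_card] at this
      exact_mod_cast this.ne'
    exact inv_mul_cancel₀ this
  rwa [hsum] at h

section Lipschitz

variable {K}

theorem normAtPlace_le_norm (w : InfinitePlace K) (x : mixedSpace K) : normAtPlace w x ≤ ‖x‖ := by
  rw [norm_eq_sup'_normAtPlace]
  exact Finset.le_sup' (fun w => normAtPlace w x) (Finset.mem_univ w)

theorem abs_normAtPlace_sub_le (w : InfinitePlace K) (y z : mixedSpace K) :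
    |normAtPlace w z - normAtPlace w y| ≤ ‖z - y‖ := by
  rw [abs_le]
  constructor
  · have h := normAtPlace_add_le w z (y - z)
    rw [add_sub_cancel] at h
    have h2 := normAtPlace_le_norm w (y - z)
    rw [norm_sub_rev] at h2
    linarith
  · have h := normAtPlace_add_le w y (z - y)
    rw [add_sub_cancel] at h
    have h2 := normAtPlace_le_norm w (z - y)
    linarith

theorem abs_log_sub_log_le {a b μ : ℝ} (hμ : 0 < μ) (ha : μ ≤ a) (hb : μ ≤ b) :
    |Real.log a - Real.log b| ≤ |a - b| / μ := by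
  have key : ∀ {a b : ℝ}, μ ≤ a → μ ≤ b → Real.log a - Real.log b ≤ |a - b| / μ := by
    intro a b ha hb
    have ha0 : 0 < a := lt_of_lt_of_le hμ ha
    have hb0 : 0 < b := lt_of_lt_of_le hμ hb
    rw [← Real.log_div ha0.ne' hb0.ne']
    have h1 := Real.log_le_sub_one_of_pos (div_pos ha0 hb0)
    have h2 : a / b - 1 = (a - b) / b := by field_simp
    have h3 : (a - b) / b ≤ |a - b| / μ := by
      calc (a - b) / b ≤ |a - b| / b := by gcongr; exact le_abs_self _
        _ ≤ |a - b| / μ := by gcongr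
    linarith
  rw [abs_le]
  constructor
  · have := key hb ha
    rw [abs_sub_comm] at this
    linarith
  · exact key ha hb

theorem log_norm_eq (y : mixedSpace K) (hy : mixedEmbedding.norm y ≠ 0) :
    Real.log (mixedEmbedding.norm y) = ∑ w, (mult w : ℝ) * Real.log (normAtPlace w y) := by
  rw [mixedEmbedding.norm_apply, Real.log_prod]
  · refine Finset.sum_congr rfl fun w _ => ?_
    rw [Real.log_pow]
  · intro w _
    exact pow_ne_zero _ (mixedEmbedding.norm_ne_zero_iff.mp hy w)

omit [NumberField K] in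
theorem mult_le_two (w : InfinitePlace K) : (mult w : ℝ) ≤ 2 := by
  unfold InfinitePlace.mult
  split_ifs <;> norm_num

theorem finrank_pos_real : (0 : ℝ) < (finrank ℚ K : ℝ) := by
  exact_mod_cast (finrank_pos : 0 < finrank ℚ K)

theorem sum_mult_real : ∑ w : InfinitePlace K, (mult w : ℝ) = (finrank ℚ K : ℝ) := by
  rw [← Nat.cast_sum, InfinitePlace.sum_mult_eq]

variable (K) in
/-- Operator norm of the inverse coordinate map. -/
noncomputable def B₀ : ℝ :=
  ‖((coords K).symm.toContinuousLinearEquiv : (Fin (rank K) → ℝ) →L[ℝ] logSpace K)‖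

theorem B₀_nonneg : 0 ≤ B₀ K := norm_nonneg _

theorem norm_ne_zero_of_rho_ne_zero {y : mixedSpace K} (h : rho K y ≠ 0) :
    mixedEmbedding.norm y ≠ 0 := by
  intro h0
  apply h
  unfold rho
  rw [if_pos h0]

theorem norm_logMap_le_of_rho_ne_zero {y : mixedSpace K} (h : rho K y ≠ 0) :
    ‖logMap y‖ ≤ B₀ K := by
  have hN := norm_ne_zero_of_rho_ne_zero h
  have ht : tentProd (coords K (logMap y)) ≠ 0 := by
    intro h0
    apply h
    unfold rho
    rw [if_neg hN, h0, mul_zero]
  have hc : ‖coords K (logMap y)‖ ≤ 1 := by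
    rw [pi_norm_le_iff_of_nonneg zero_le_one]
    intro i
    rw [Real.norm_eq_abs]
    exact (abs_lt_one_of_tentProd_ne_zero ht i).le
  have h1 : logMap y =
      ((coords K).symm.toContinuousLinearEquiv : (Fin (rank K) → ℝ) →L[ℝ] logSpace K)
        (coords K (logMap y)) := by simp
  rw [h1]
  calc _ ≤ B₀ K * ‖coords K (logMap y)‖ := ContinuousLinearMap.le_opNorm _ _
    _ ≤ B₀ K * 1 := mul_le_mul_of_nonneg_left hc B₀_nonneg
    _ = B₀ K := mul_one _

theorem abs_log_normAtPlace_sub_le {y : mixedSpace K} (hN : mixedEmbedding.norm y ≠ 0) {B : ℝ}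
    (hB : ‖logMap y‖ ≤ B) (w : InfinitePlace K) :
    |Real.log (normAtPlace w y) - Real.log (mixedEmbedding.norm y) * (finrank ℚ K : ℝ)⁻¹| ≤
      Fintype.card (InfinitePlace K) * B := by
  have hB0 : 0 ≤ B := (norm_nonneg _).trans hB
  have hcard : (1 : ℝ) ≤ Fintype.card (InfinitePlace K) := by
    exact_mod_cast Fintype.card_pos
  set L := Real.log (mixedEmbedding.norm y) * (finrank ℚ K : ℝ)⁻¹ with hL
  let f : InfinitePlace K → ℝ := fun w => mult w * (Real.log (normAtPlace w y) - L)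
  have hf : ∀ w : {w : InfinitePlace K // w ≠ w₀}, |f w| ≤ B := by
    intro w
    have : f w = logMap y w := by simp [f, hL]
    rw [this, ← Real.norm_eq_abs]
    exact (norm_le_pi_norm _ w).trans hB
  have hle : ∀ w, |Real.log (normAtPlace w y) - L| ≤ |f w| := by
    intro w
    simp only [f]
    rw [abs_mul, Nat.abs_cast]
    exact le_mul_of_one_le_left (abs_nonneg _) one_le_mult
  have hsum : ∑ w, f w = 0 := by
    simp only [f, mul_sub]
    rw [Finset.sum_sub_distrib, ← log_norm_eq y hN, ← Finset.sum_mul, sum_mult_real, hL]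
    field_simp [finrank_pos_real.ne']
    ring
  refine (hle w).trans ?_
  by_cases hw : w = w₀
  · rw [Fintype.sum_eq_add_sum_subtype_ne f w₀] at hsum
    have h0 : f w = -∑ i : {w : InfinitePlace K // w ≠ w₀}, f i := by
      rw [hw]; linarith
    rw [h0, abs_neg]
    refine (Finset.abs_sum_le_sum_abs _ _).trans ?_
    calc ∑ i : {w : InfinitePlace K // w ≠ w₀}, |f i|
        ≤ ∑ _i : {w : InfinitePlace K // w ≠ w₀}, B := Finset.sum_le_sum fun i _ => hf i
      _ = Fintype.card {w : InfinitePlace K // w ≠ w₀} * B := by simp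
      _ ≤ Fintype.card (InfinitePlace K) * B := by
          gcongr
          exact Fintype.card_subtype_le _
  · calc |f w| ≤ B := hf ⟨w, hw⟩
      _ ≤ Fintype.card (InfinitePlace K) * B := le_mul_of_one_le_left hB0 hcard


variable (K) in
/-- The cone constant: on the support of `rho` all coordinates are comparable to the norm. -/
noncomputable def c₀ : ℝ := Real.exp (-(2 * (Fintype.card (InfinitePlace K) * B₀ K)))

theorem c₀_pos : 0 < c₀ K := Real.exp_pos _

theorem c₀_le_one : c₀ K ≤ 1 := by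
  unfold c₀
  rw [Real.exp_le_one_iff]
  have : (0 : ℝ) ≤ Fintype.card (InfinitePlace K) * B₀ K :=
    mul_nonneg (Nat.cast_nonneg _) B₀_nonneg
  linarith

theorem c₀_mul_norm_le_normAtPlace {y : mixedSpace K} (h : rho K y ≠ 0) (w : InfinitePlace K) :
    c₀ K * ‖y‖ ≤ normAtPlace w y := by
  have hN := norm_ne_zero_of_rho_ne_zero h
  have hB := norm_logMap_le_of_rho_ne_zero h
  set B₁ : ℝ := Fintype.card (InfinitePlace K) * B₀ K with hB₁
  set L := Real.log (mixedEmbedding.norm y) * (finrank ℚ K : ℝ)⁻¹ with hL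
  have hall : ∀ w, |Real.log (normAtPlace w y) - L| ≤ B₁ :=
    fun w => abs_log_normAtPlace_sub_le hN hB w
  have hpos : ∀ w, 0 < normAtPlace w y := fun w =>
    lt_of_le_of_ne (normAtPlace_nonneg w y) (Ne.symm (mixedEmbedding.norm_ne_zero_iff.mp hN w))
  obtain ⟨w', -, hw'⟩ := Finset.exists_mem_eq_sup' (Finset.univ_nonempty (α := InfinitePlace K))
    (fun w => normAtPlace w y)
  have hnorm : ‖y‖ = normAtPlace w' y := by rw [norm_eq_sup'_normAtPlace]; exact hw'
  have h1 : normAtPlace w' y ≤ Real.exp (L + B₁) := by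
    rw [← Real.exp_log (hpos w')]
    apply Real.exp_le_exp.mpr
    have := (abs_le.mp (hall w')).2
    linarith
  have h2 : Real.exp (L - B₁) ≤ normAtPlace w y := by
    rw [← Real.exp_log (hpos w)]
    apply Real.exp_le_exp.mpr
    have := (abs_le.mp (hall w)).1
    linarith
  have h3 : c₀ K * Real.exp (L + B₁) = Real.exp (L - B₁) := by
    unfold c₀
    rw [← Real.exp_add]
    congr 1
    ring
  calc c₀ K * ‖y‖ = c₀ K * normAtPlace w' y := by rw [hnorm]
    _ ≤ c₀ K * Real.exp (L + B₁) := mul_le_mul_of_nonneg_left h1 c₀_pos.le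
    _ = Real.exp (L - B₁) := h3
    _ ≤ normAtPlace w y := h2

theorem abs_log_norm_sub_le {y z : mixedSpace K} (hy : mixedEmbedding.norm y ≠ 0)
    (hz : mixedEmbedding.norm z ≠ 0) {ε : ℝ}
    (h : ∀ w, |Real.log (normAtPlace w z) - Real.log (normAtPlace w y)| ≤ ε) :
    |Real.log (mixedEmbedding.norm z) - Real.log (mixedEmbedding.norm y)| ≤ finrank ℚ K * ε := by
  rw [log_norm_eq y hy, log_norm_eq z hz, ← Finset.sum_sub_distrib]
  refine (Finset.abs_sum_le_sum_abs _ _).trans ?_
  calc ∑ w, |(mult w : ℝ) * Real.log (normAtPlace w z) - mult w * Real.log (normAtPlace w y)|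
      ≤ ∑ w : InfinitePlace K, (mult w : ℝ) * ε := by
        refine Finset.sum_le_sum fun w _ => ?_
        rw [← mul_sub, abs_mul, Nat.abs_cast]
        exact mul_le_mul_of_nonneg_left (h w) (Nat.cast_nonneg _)
    _ = finrank ℚ K * ε := by rw [← Finset.sum_mul, sum_mult_real]

variable (K) in
/-- Lipschitz constant of `rho` in logarithmic coordinates. -/
noncomputable def L₀ : ℝ :=
  rank K * (‖((coords K).toContinuousLinearEquiv : logSpace K →L[ℝ] (Fin (rank K) → ℝ))‖ * 4)

theorem L₀_nonneg : 0 ≤ L₀ K :=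
  mul_nonneg (Nat.cast_nonneg _) (mul_nonneg (norm_nonneg _) (by norm_num))

theorem abs_rho_sub_le {y z : mixedSpace K} (hy : mixedEmbedding.norm y ≠ 0)
    (hz : mixedEmbedding.norm z ≠ 0) {ε : ℝ}
    (h : ∀ w, |Real.log (normAtPlace w z) - Real.log (normAtPlace w y)| ≤ ε) :
    |rho K z - rho K y| ≤ L₀ K * ε := by
  have hε : 0 ≤ ε := (abs_nonneg _).trans (h w₀)
  have hlogN := abs_log_norm_sub_le hy hz h
  have hdiff : ‖logMap z - logMap y‖ ≤ 4 * ε := by
    rw [pi_norm_le_iff_of_nonneg (by positivity)]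
    intro w
    rw [Pi.sub_apply, logMap_apply, logMap_apply, Real.norm_eq_abs, ← mul_sub, abs_mul,
      Nat.abs_cast]
    have e : Real.log (normAtPlace w.val z) -
          Real.log (mixedEmbedding.norm z) * (finrank ℚ K : ℝ)⁻¹ -
        (Real.log (normAtPlace w.val y) - Real.log (mixedEmbedding.norm y) * (finrank ℚ K : ℝ)⁻¹)
        = (Real.log (normAtPlace w.val z) - Real.log (normAtPlace w.val y)) -
          (Real.log (mixedEmbedding.norm z) - Real.log (mixedEmbedding.norm y)) *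
            (finrank ℚ K : ℝ)⁻¹ := by ring
    rw [e]
    have h1 : |(Real.log (mixedEmbedding.norm z) - Real.log (mixedEmbedding.norm y)) *
        (finrank ℚ K : ℝ)⁻¹| ≤ ε := by
      rw [abs_mul, abs_of_nonneg (inv_nonneg.mpr finrank_pos_real.le)]
      calc _ ≤ (finrank ℚ K * ε) * (finrank ℚ K : ℝ)⁻¹ :=
            mul_le_mul_of_nonneg_right hlogN (inv_nonneg.mpr finrank_pos_real.le)
        _ = ε := by field_simp [finrank_pos_real.ne']
    have h2 : |(Real.log (normAtPlace w.val z) - Real.log (normAtPlace w.val y)) -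
          (Real.log (mixedEmbedding.norm z) - Real.log (mixedEmbedding.norm y)) *
            (finrank ℚ K : ℝ)⁻¹| ≤ ε + ε :=
      (abs_sub _ _).trans (add_le_add (h w.val) h1)
    calc (mult w.val : ℝ) * _ ≤ 2 * (ε + ε) :=
          mul_le_mul (mult_le_two _) h2 (abs_nonneg _) (by norm_num)
      _ = 4 * ε := by ring
  have hcoord : ‖coords K (logMap z) - coords K (logMap y)‖ ≤
      ‖((coords K).toContinuousLinearEquiv : logSpace K →L[ℝ] (Fin (rank K) → ℝ))‖ * (4 * ε) := by
    have e : coords K (logMap z) - coords K (logMap y) =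
        ((coords K).toContinuousLinearEquiv : logSpace K →L[ℝ] (Fin (rank K) → ℝ))
          (logMap z - logMap y) := by simp
    rw [e]
    exact (ContinuousLinearMap.le_opNorm _ _).trans
      (mul_le_mul_of_nonneg_left hdiff (norm_nonneg _))
  unfold rho
  rw [if_neg hz, if_neg hy, ← mul_sub, abs_mul, abs_of_nonneg (inv_nonneg.mpr (Nat.cast_nonneg _))]
  have hw1 : (torsionOrder K : ℝ)⁻¹ ≤ 1 :=
    inv_le_one_of_one_le₀ (by exact_mod_cast torsionOrder_pos K)
  have ht := abs_tentProd_sub_le (coords K (logMap z)) (coords K (logMap y))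
  rw [Fintype.card_fin] at ht
  calc (torsionOrder K : ℝ)⁻¹ * |tentProd (coords K (logMap z)) - tentProd (coords K (logMap y))|
      ≤ 1 * (rank K * ‖coords K (logMap z) - coords K (logMap y)‖) :=
        mul_le_mul hw1 ht (abs_nonneg _) zero_le_one
    _ ≤ 1 * (rank K * (‖((coords K).toContinuousLinearEquiv :
          logSpace K →L[ℝ] (Fin (rank K) → ℝ))‖ * (4 * ε))) := by gcongr
    _ = L₀ K * ε := by unfold L₀; ring

theorem rpow_neg_sub_le_aux {a b M δ s : ℝ} (ha : 1 ≤ a) (hab : a ≤ b) (hM : a⁻¹ ≤ M)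
    (hδ : Real.log b - Real.log a ≤ δ) (hs1 : 1 ≤ s) (hs2 : s ≤ 2) :
    |a ^ (-s) - b ^ (-s)| ≤ 2 * δ * M := by
  have ha0 : 0 < a := by linarith
  have hb0 : 0 < b := by linarith
  have hloga : 0 ≤ Real.log a := Real.log_nonneg ha
  have hlog : Real.log a ≤ Real.log b := Real.log_le_log ha0 hab
  have h1 : b ^ (-s) ≤ a ^ (-s) := Real.rpow_le_rpow_of_nonpos ha0 hab (by linarith)
  rw [abs_of_nonneg (by linarith)]
  rw [Real.rpow_def_of_pos ha0, Real.rpow_def_of_pos hb0]
  have e : Real.exp (Real.log b * -s) =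
      Real.exp (Real.log a * -s) * Real.exp (-(s * (Real.log b - Real.log a))) := by
    rw [← Real.exp_add]; congr 1; ring
  rw [e]
  have h2 : 1 - s * (Real.log b - Real.log a) ≤ Real.exp (-(s * (Real.log b - Real.log a))) :=
    Real.one_sub_le_exp_neg _
  have h3 : Real.exp (Real.log a * -s) ≤ M := by
    refine le_trans ?_ hM
    rw [← Real.exp_log (inv_pos.mpr ha0), Real.log_inv]
    apply Real.exp_le_exp.mpr
    nlinarith
  have h4 : s * (Real.log b - Real.log a) ≤ 2 * δ := by nlinarith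
  have h5 : 0 ≤ s * (Real.log b - Real.log a) := mul_nonneg (by linarith) (by linarith)
  have h6 : 0 < Real.exp (Real.log a * -s) := Real.exp_pos _
  calc Real.exp (Real.log a * -s) -
        Real.exp (Real.log a * -s) * Real.exp (-(s * (Real.log b - Real.log a)))
      = Real.exp (Real.log a * -s) * (1 - Real.exp (-(s * (Real.log b - Real.log a)))) := by ring
    _ ≤ Real.exp (Real.log a * -s) * (s * (Real.log b - Real.log a)) :=
        mul_le_mul_of_nonneg_left (by linarith) h6.le
    _ ≤ M * (2 * δ) := mul_le_mul h3 h4 h5 (h6.le.trans h3)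
    _ = 2 * δ * M := by ring

theorem abs_rpow_neg_sub_le {a b M δ s : ℝ} (ha : 1 ≤ a) (hb : 1 ≤ b) (hMa : a⁻¹ ≤ M)
    (hMb : b⁻¹ ≤ M) (hδ : |Real.log a - Real.log b| ≤ δ) (hs1 : 1 ≤ s) (hs2 : s ≤ 2) :
    |a ^ (-s) - b ^ (-s)| ≤ 2 * δ * M := by
  rcases le_total a b with hab | hba
  · exact rpow_neg_sub_le_aux ha hab hMa (by have := (abs_le.mp hδ).1; linarith) hs1 hs2
  · rw [abs_sub_comm]
    exact rpow_neg_sub_le_aux hb hba hMb (by have := (abs_le.mp hδ).2; linarith) hs1 hs2


variable (K) in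
/-- **Two-point estimate** for `G s y = rho y * (norm y) ^ (-s)`, geometric form. -/
theorem two_point_bound (D : ℝ) : ∃ C R : ℝ, ∀ y z : mixedSpace K, ‖z - y‖ ≤ D → R ≤ ‖y‖ →
    1 ≤ mixedEmbedding.norm y → 1 ≤ mixedEmbedding.norm z → ∀ s : ℝ, 1 ≤ s → s ≤ 2 →
    |rho K z * mixedEmbedding.norm z ^ (-s) - rho K y * mixedEmbedding.norm y ^ (-s)| ≤
      C * ‖y‖ ^ (-((finrank ℚ K : ℝ) + 1)) := by
  set n := finrank ℚ K with hn
  set D' : ℝ := max D 1 with hD'
  have hD'1 : 1 ≤ D' := le_max_right _ _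
  have hDD' : D ≤ D' := le_max_left _ _
  have hc := c₀_pos (K := K)
  have hc1 := c₀_le_one (K := K)
  have hL := L₀_nonneg (K := K)
  refine ⟨(L₀ K + 2 * n) * D' * (4 / c₀ K) ^ (n + 1), 4 * D' / c₀ K, ?_⟩
  intro y z hyz hR hNy hNz s hs1 hs2
  have hypos : 0 < ‖y‖ := lt_of_lt_of_le (by positivity) hR
  have hDy : D' ≤ c₀ K * ‖y‖ / 4 := by
    rw [div_le_iff₀ hc] at hR
    linarith
  by_cases h0 : rho K y = 0 ∧ rho K z = 0
  · rw [h0.1, h0.2, zero_mul, zero_mul, sub_zero, abs_zero]
    positivity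
  · set μ := c₀ K * ‖y‖ / 4 with hμ
    have hμpos : 0 < μ := by positivity
    have hboth : ∀ w, μ ≤ normAtPlace w y ∧ μ ≤ normAtPlace w z := by
      intro w
      have hsub := abs_le.mp ((abs_normAtPlace_sub_le w y z).trans (hyz.trans hDD'))
      by_cases hy0 : rho K y = 0
      · have hz0 : rho K z ≠ 0 := fun h => h0 ⟨hy0, h⟩
        have h1 := c₀_mul_norm_le_normAtPlace hz0 w
        have h2 : ‖y‖ - D' ≤ ‖z‖ := by
          have := norm_sub_norm_le y z
          rw [norm_sub_rev] at this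
          linarith
        have h3 : c₀ K * (‖y‖ - D') ≤ c₀ K * ‖z‖ := mul_le_mul_of_nonneg_left h2 hc.le
        have h4 : c₀ K * D' ≤ D' := by nlinarith
        constructor <;> linarith [hsub.1, hsub.2]
      · have h1 := c₀_mul_norm_le_normAtPlace hy0 w
        constructor <;> linarith [hsub.1, hsub.2]
    have hNy0 : mixedEmbedding.norm y ≠ 0 := (lt_of_lt_of_le one_pos hNy).ne'
    have hNz0 : mixedEmbedding.norm z ≠ 0 := (lt_of_lt_of_le one_pos hNz).ne'
    set ε := D' / μ with hε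
    have hlog : ∀ w, |Real.log (normAtPlace w z) - Real.log (normAtPlace w y)| ≤ ε := by
      intro w
      refine (abs_log_sub_log_le hμpos (hboth w).2 (hboth w).1).trans ?_
      exact div_le_div_of_nonneg_right
        ((abs_normAtPlace_sub_le w y z).trans (hyz.trans hDD')) hμpos.le
    have hρ := abs_rho_sub_le hNy0 hNz0 hlog
    have hlogN := abs_log_norm_sub_le hNy0 hNz0 hlog
    have hlow : ∀ x : mixedSpace K, (∀ w, μ ≤ normAtPlace w x) →
        μ ^ n ≤ mixedEmbedding.norm x := by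
      intro x hx
      rw [mixedEmbedding.norm_apply, hn, ← InfinitePlace.sum_mult_eq,
        ← Finset.prod_pow_eq_pow_sum]
      exact Finset.prod_le_prod (fun w _ => by positivity)
        (fun w _ => pow_le_pow_left₀ hμpos.le (hx w) _)
    set M := (μ ^ n)⁻¹ with hM
    have hMy : (mixedEmbedding.norm y)⁻¹ ≤ M :=
      inv_anti₀ (by positivity) (hlow y fun w => (hboth w).1)
    have hMz : (mixedEmbedding.norm z)⁻¹ ≤ M :=
      inv_anti₀ (by positivity) (hlow z fun w => (hboth w).2)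
    have hpow := abs_rpow_neg_sub_le hNz hNy hMz hMy hlogN hs1 hs2
    have hNzs : mixedEmbedding.norm z ^ (-s) ≤ M := by
      calc mixedEmbedding.norm z ^ (-s) ≤ mixedEmbedding.norm z ^ (-1 : ℝ) :=
            Real.rpow_le_rpow_of_exponent_le hNz (by linarith)
        _ = (mixedEmbedding.norm z)⁻¹ := Real.rpow_neg_one _
        _ ≤ M := hMz
    have hNzs0 : 0 ≤ mixedEmbedding.norm z ^ (-s) := Real.rpow_nonneg (by linarith) _
    have hε0 : 0 ≤ ε := by positivity
    have hM0 : 0 ≤ M := by positivity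
    have e : rho K z * mixedEmbedding.norm z ^ (-s) - rho K y * mixedEmbedding.norm y ^ (-s) =
        (rho K z - rho K y) * mixedEmbedding.norm z ^ (-s) +
          rho K y * (mixedEmbedding.norm z ^ (-s) - mixedEmbedding.norm y ^ (-s)) := by ring
    rw [e]
    have hr : ‖y‖ ^ (-((n : ℝ) + 1)) = (‖y‖ ^ (n + 1))⁻¹ := by
      rw [Real.rpow_neg hypos.le]
      congr 1
      exact_mod_cast Real.rpow_natCast ‖y‖ (n + 1)
    calc |(rho K z - rho K y) * mixedEmbedding.norm z ^ (-s) +
          rho K y * (mixedEmbedding.norm z ^ (-s) - mixedEmbedding.norm y ^ (-s))|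
        ≤ |rho K z - rho K y| * mixedEmbedding.norm z ^ (-s) +
          rho K y * |mixedEmbedding.norm z ^ (-s) - mixedEmbedding.norm y ^ (-s)| := by
          refine (abs_add_le _ _).trans ?_
          rw [abs_mul, abs_mul, abs_of_nonneg hNzs0, abs_of_nonneg (rho_nonneg K y)]
      _ ≤ (L₀ K * ε) * M + 1 * (2 * (n * ε) * M) := by
          refine add_le_add (mul_le_mul hρ hNzs hNzs0 (by positivity))
            (mul_le_mul (rho_le_one K y) hpow (abs_nonneg _) zero_le_one)
      _ = (L₀ K + 2 * n) * D' * (4 / c₀ K) ^ (n + 1) * ‖y‖ ^ (-((n : ℝ) + 1)) := by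
          have h1 : (4 / c₀ K) ^ (n + 1) * (‖y‖ ^ (n + 1))⁻¹ = (μ ^ (n + 1))⁻¹ := by
            rw [hμ, ← inv_pow, ← inv_pow, ← mul_pow]
            congr 1
            field_simp
          have hεM : ε * M = D' * (4 / c₀ K) ^ (n + 1) * (‖y‖ ^ (n + 1))⁻¹ := by
            rw [mul_assoc, h1, hε, hM, pow_succ]
            field_simp
          rw [hr]
          linear_combination (L₀ K + 2 * (n : ℝ)) * hεM

end Lipschitz


section Adapter

/-- (H1)/(H2) in the shape used by the class-zeta comparison: `rho` sums to `1` over the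
unit orbit of a nonzero integer. -/
theorem hasSum_rho_unit_smul_integer (x : 𝓞 K) (hx : x ≠ 0) :
    HasSum (fun u : (𝓞 K)ˣ => rho K (u • mixedEmbedding K (x : K))) 1 := by
  apply hasSum_rho_unit_smul
  rw [mixedEmbedding.norm_eq_norm]
  have : Algebra.norm ℚ (x : K) ≠ 0 := by
    rw [Algebra.norm_ne_zero_iff]
    exact_mod_cast hx
  exact_mod_cast abs_ne_zero.mpr this

theorem one_le_norm_integer (x : 𝓞 K) (hx : x ≠ 0) :
    1 ≤ mixedEmbedding.norm (mixedEmbedding K (x : K)) := by
  rw [mixedEmbedding.norm_eq_norm, ← Algebra.coe_norm_int]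
  have h : Algebra.norm ℤ x ≠ 0 := by
    rw [Algebra.norm_ne_zero_iff]
    exact hx
  have h1 : (1 : ℤ) ≤ |Algebra.norm ℤ x| := Int.one_le_abs h
  have h2 : ((1 : ℤ) : ℝ) ≤ ((|Algebra.norm ℤ x| : ℤ) : ℝ) := Int.cast_le.mpr h1
  simpa using h2

theorem finite_integer_norm_lt (R : ℝ) :
    {x : 𝓞 K | ‖mixedEmbedding K (x : K)‖ < R}.Finite := by
  have hS := Embeddings.finite_of_norm_le K ℂ R
  have hsub : {x : 𝓞 K | ‖mixedEmbedding K (x : K)‖ < R} ⊆
      (algebraMap (𝓞 K) K) ⁻¹' {x : K | IsIntegral ℤ x ∧ ∀ φ : K →+* ℂ, ‖φ x‖ ≤ R} := by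
    intro x hx
    refine ⟨RingOfIntegers.isIntegral_coe x, fun φ => ?_⟩
    have h1 : ‖φ (x : K)‖ = normAtPlace (InfinitePlace.mk φ) (mixedEmbedding K (x : K)) := by
      rw [normAtPlace_apply, InfinitePlace.apply]
    show ‖φ (x : K)‖ ≤ R
    rw [h1]
    exact (normAtPlace_le_norm _ _).trans (le_of_lt hx)
  exact (Set.Finite.preimage (Set.injOn_of_injective RingOfIntegers.coe_injective) hS).subset hsub

/-- (H3): the two-point estimate along a translate by an integer, for all but finitely many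
integers. -/
theorem two_point_bound_integer (r : 𝓞 K) : ∃ C : ℝ, ∀ᶠ x : 𝓞 K in Filter.cofinite,
    ∀ s : ℝ, 1 ≤ s → s ≤ 2 →
    |rho K (mixedEmbedding K ((x + r : 𝓞 K) : K)) *
          mixedEmbedding.norm (mixedEmbedding K ((x + r : 𝓞 K) : K)) ^ (-s) -
        rho K (mixedEmbedding K (x : K)) *
          mixedEmbedding.norm (mixedEmbedding K (x : K)) ^ (-s)| ≤
      C * ‖mixedEmbedding K (x : K)‖ ^ (-((finrank ℚ K : ℝ) + 1)) := by
  obtain ⟨C, R, h⟩ := two_point_bound K ‖mixedEmbedding K (r : K)‖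
  refine ⟨C, ?_⟩
  rw [Filter.eventually_cofinite]
  refine (((finite_integer_norm_lt K R).union (Set.finite_singleton 0)).union
    (Set.finite_singleton (-r))).subset ?_
  intro x hx
  by_contra hcon
  simp only [Set.mem_union, Set.mem_ofPred_eq, Set.mem_singleton_iff, not_or, not_lt] at hcon
  obtain ⟨⟨hR, hx0⟩, hxr⟩ := hcon
  apply hx
  intro s hs1 hs2
  have hxr0 : x + r ≠ 0 := fun h0 => hxr (eq_neg_of_add_eq_zero_left h0)
  refine h _ _ ?_ hR (one_le_norm_integer K x hx0) (one_le_norm_integer K _ hxr0) s hs1 hs2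
  have : mixedEmbedding K ((x + r : 𝓞 K) : K) - mixedEmbedding K (x : K) =
      mixedEmbedding K (r : K) := by
    rw [← map_sub]
    congr 1
    push_cast
    ring
  rw [this]

end Adapter

end Fermat.Agent.S14.Analytic.SmoothingTent
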